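import Fermat.Agent.DR.Ord.OfNodal

/-!
# Contraction: `p`-new classes with trivial reduction are locally trivial
-/

set_option autoImplicit false
set_option linter.unusedSectionVars false

noncomputable section

open AlgebraicCurve Fermat.Agent.RR Fermat.Agent.JRED

namespace Fermat.Agent.DR.Ord

variable {K F k F₁ F₂ : Type*} [Field K] [Field F] [Algebra K F] [Field k] [Field F₁] [Field F₂]
  [Algebra k F₁] [Algebra k F₂] {A : ValuationSubring K} {π : A →+* k}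

/-- A single reduction datum as a `NormRed`. -/
def single (hπ : Function.Surjective π) (R₁ : RedDatum K F k F₁ A π) :
    NormRed K F k F₁ A π where
  Λ :=
    { carrier := {w | ∃ u, R₁.Red w u}
      mul_mem' := by
        rintro w w' ⟨u, h⟩ ⟨u', h'⟩
        exact ⟨_, R₁.mul h h'⟩
      one_mem' := ⟨1, R₁.one⟩
      add_mem' := by
        rintro w w' ⟨u, h⟩ ⟨u', h'⟩
        exact ⟨_, R₁.add h h'⟩
      zero_mem' := ⟨0, R₁.zero⟩
      neg_mem' := by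
        rintro w ⟨u, h⟩
        exact ⟨_, RedDatum.neg h⟩ }
  ρ :=
    { toFun := fun w => Classical.choose w.2
      map_one' := R₁.unique (Classical.choose_spec _) R₁.one
      map_mul' := fun w w' => R₁.unique (Classical.choose_spec (w * w').2)
        (R₁.mul (Classical.choose_spec w.2) (Classical.choose_spec w'.2))
      map_zero' := R₁.unique (Classical.choose_spec _) R₁.zero
      map_add' := fun w w' => R₁.unique (Classical.choose_spec (w + w').2)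
        (R₁.add (Classical.choose_spec w.2) (Classical.choose_spec w'.2)) }
  surj := hπ
  mem_const := fun a => ⟨_, R₁.const a⟩
  ρ_const := fun a => R₁.unique (Classical.choose_spec _) (R₁.const a)
  normalize := by
    intro w hw
    obtain ⟨c, hc, u, hu, h⟩ := R₁.normalize w hw
    refine ⟨c, hc, ⟨u, h⟩, ?_⟩
    show Classical.choose _ ≠ 0
    intro h0
    apply hu
    rw [← h0]
    exact R₁.unique h (Classical.choose_spec (⟨u, h⟩ : ∃ u, R₁.Red (algebraMap K F c * w) u))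

theorem mem_single {hπ : Function.Surjective π} {R₁ : RedDatum K F k F₁ A π} {w : F} {u : F₁} :
    (w ∈ (single hπ R₁).Λ ∧ (single hπ R₁).res w = u) ↔ R₁.Red w u := by
  constructor
  · rintro ⟨h, rfl⟩
    rw [(single hπ R₁).res_of_mem h]
    exact Classical.choose_spec h
  · intro h
    have hm : w ∈ (single hπ R₁).Λ := ⟨u, h⟩
    refine ⟨hm, ?_⟩
    rw [(single hπ R₁).res_of_mem hm]
    exact R₁.unique (Classical.choose_spec hm) h

theorem single_nrm_le_one {hπ : Function.Surjective π} {R₁ : RedDatum K F k F₁ A π} {w : F} :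
    (single hπ R₁).nrm w ≤ 1 ↔ ∃ u, R₁.Red w u := by
  rw [NormRed.nrm_le_one_iff]; rfl

theorem single_nrm_lt_one {hπ : Function.Surjective π} {R₁ : RedDatum K F k F₁ A π} {w : F} :
    (single hπ R₁).nrm w < 1 ↔ R₁.Red w 0 := by
  rw [NormRed.nrm_lt_one_iff, mem_single]

namespace NormRed

variable {Fk : Type*} [CommRing Fk] [Algebra k Fk] (R : NormRed K F k Fk A π)

/-- Over a domain the norm is multiplicative. -/
theorem nrm_mul [IsDomain Fk] (w w' : F) : R.nrm (w * w') = R.nrm w * R.nrm w' := by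
  rcases eq_or_ne w 0 with rfl | hw
  · simp
  rcases eq_or_ne w' 0 with rfl | hw'
  · simp
  obtain ⟨c, hc, h, h0⟩ := R.exists_normalizer hw
  obtain ⟨c', hc', h', h0'⟩ := R.exists_normalizer hw'
  have h1 : algebraMap K F (c * c') * (w * w') = (algebraMap K F c * w) * (algebraMap K F c' * w') := by
    rw [map_mul]; ring
  rw [R.nrm_eq (c := c * c') (mul_ne_zero hc hc') (by rw [h1]; exact R.Λ.mul_mem h h')
    (by rw [h1, R.res_mul h h']; exact mul_ne_zero h0 h0'), R.nrm_eq hc h h0, R.nrm_eq hc' h' h0',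
    mul_inv, map_mul]

theorem nrm_inv [IsDomain Fk] (w : F) : R.nrm w⁻¹ = (R.nrm w)⁻¹ := by
  rcases eq_or_ne w 0 with rfl | hw
  · simp
  have h := R.nrm_mul w w⁻¹
  rw [mul_inv_cancel₀ hw, R.nrm_one] at h
  exact eq_inv_of_mul_eq_one_right h.symm

theorem nrm_div [IsDomain Fk] (w w' : F) : R.nrm (w / w') = R.nrm w / R.nrm w' := by
  rw [div_eq_mul_inv, R.nrm_mul, R.nrm_inv, div_eq_mul_inv]

theorem nrm_sub_comm (w w' : F) : R.nrm (w - w') = R.nrm (w' - w) := by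
  rw [← R.nrm_neg, neg_sub]

theorem nrm_eq_one_of_sub {w : F} (h : R.nrm (w - 1) < 1) : R.nrm w = 1 := by
  obtain ⟨h1, h2⟩ := R.nrm_lt_one_iff.mp h
  have hm : w ∈ R.Λ := by
    have := R.Λ.add_mem h1 R.Λ.one_mem
    rwa [sub_add_cancel] at this
  have hr : R.res w = 1 := by
    rw [R.res_sub hm R.Λ.one_mem, R.res_one, sub_eq_zero] at h2
    exact h2
  have := R.nrm_mul_of_res_eq_one hm hr 1
  rwa [mul_one, R.nrm_one] at this

/-- `|ab - 1| ≤ max |a - 1| |b - 1|` when `|b| ≤ 1`. -/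
theorem nrm_mul_sub_one_le {a b : F} (hb : R.nrm b ≤ 1) :
    R.nrm (a * b - 1) ≤ max (R.nrm (a - 1)) (R.nrm (b - 1)) := by
  have h1 : a * b - 1 = (a - 1) * b + (b - 1) := by ring
  rw [h1]
  refine (R.nrm_add_le _ _).trans (max_le_max ?_ le_rfl)
  refine (R.nrm_mul_le _ _).trans ?_
  calc R.nrm (a - 1) * R.nrm b ≤ R.nrm (a - 1) * 1 := by gcongr
    _ = R.nrm (a - 1) := mul_one _

theorem nrm_pow_sub_one_le {a : F} (ha : R.nrm a ≤ 1) (n : ℕ) :
    R.nrm (a ^ n - 1) ≤ R.nrm (a - 1) := by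
  induction n with
  | zero => simp
  | succ n ih =>
    rw [pow_succ]
    exact (R.nrm_mul_sub_one_le ha).trans (max_le ih le_rfl)

end NormRed

theorem NormRed.nrm_le_iff_mem {Fk : Type*} [CommRing Fk] [Algebra k Fk]
    (R : NormRed K F k Fk A π) {w : F} {c : K} (hc : c ≠ 0) :
    R.nrm w ≤ A.valuation c ↔ algebraMap K F c⁻¹ * w ∈ R.Λ := by
  have hpos : (0 : A.ValueGroup) < A.valuation c :=
    zero_lt_iff.mpr ((Valuation.ne_zero_iff _).mpr hc)
  rw [← R.nrm_le_one_iff, R.nrm_const_mul, map_inv₀, inv_mul_le_one₀ hpos]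

/-- The norm of the pair is the maximum of the two norms. -/
theorem ofRed_nrm_le_iff (hπ : Function.Surjective π) (R₁ : RedDatum K F k F₁ A π)
    (R₂ : RedDatum K F k F₂ A π) {w : F} {c : K} :
    (ofRed hπ R₁ R₂).nrm w ≤ A.valuation c ↔
      (single hπ R₁).nrm w ≤ A.valuation c ∧ (single hπ R₂).nrm w ≤ A.valuation c := by
  rcases eq_or_ne c 0 with rfl | hc
  · simp only [map_zero, nonpos_iff_eq_zero, NormRed.nrm_eq_zero_iff, and_self]
  rw [NormRed.nrm_le_iff_mem _ hc, NormRed.nrm_le_iff_mem _ hc, NormRed.nrm_le_iff_mem _ hc]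
  constructor
  · rintro ⟨u, hu⟩
    exact ⟨⟨_, hu.1⟩, ⟨_, hu.2⟩⟩
  · rintro ⟨⟨u, hu⟩, ⟨u', hu'⟩⟩
    exact ⟨(u, u'), hu, hu'⟩

/-- The valuation of `A` is archimedean (rank one). -/
def IsArch (A : ValuationSubring K) : Prop :=
  ∀ γ δ : A.ValueGroup, γ < 1 → δ ≠ 0 → ∃ n : ℕ, γ ^ n ≤ δ

/-- Existence of approximate idempotents. -/
theorem exists_approx_idem (hA : IsArch A) {N₁ : NormRed K F k F₁ A π} {N₂ : NormRed K F k F₂ A π}
    {θ : F} (h1 : N₁.nrm (θ - 1) < 1) (h2 : N₂.nrm θ < 1) {η : A.ValueGroup} (hη : η ≠ 0) :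
    ∃ e : F, N₁.nrm (e - 1) ≤ η ∧ N₂.nrm e ≤ η := by
  obtain ⟨n₁, hn₁⟩ := hA _ η h1 hη
  obtain ⟨n₂, hn₂⟩ := hA _ η h2 hη
  set n := max n₁ n₂ + 1 with hn
  have hθ1 : N₁.nrm θ = 1 := N₁.nrm_eq_one_of_sub h1
  have hθ1' : N₁.nrm (1 - θ) < 1 := by rwa [N₁.nrm_sub_comm]
  have hθ2' : N₂.nrm (1 - θ) = 1 := N₂.nrm_eq_one_of_sub (by
    have : (1 - θ) - 1 = -θ := by ring
    rwa [this, N₂.nrm_neg])
  have hn0 : n ≠ 0 := Nat.succ_ne_zero _
  set D := θ ^ n + (1 - θ) ^ n with hD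
  -- `D` has norm one for both
  have hD1 : N₁.nrm D = 1 := by
    have h3 : N₁.nrm ((1 - θ) ^ n) < 1 := by
      rw [N₁.nrm_pow]
      exact pow_lt_one₀ zero_le hθ1' hn0
    apply le_antisymm
    · refine (N₁.nrm_add_le _ _).trans (max_le ?_ h3.le)
      rw [N₁.nrm_pow, hθ1, one_pow]
    · by_contra hlt
      rw [not_le] at hlt
      have h4 : θ ^ n = D - (1 - θ) ^ n := by rw [hD]; ring
      have h5 : N₁.nrm (θ ^ n) < 1 := by
        rw [h4]
        exact (N₁.nrm_sub_le _ _).trans_lt (max_lt hlt h3)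
      rw [N₁.nrm_pow, hθ1, one_pow] at h5
      exact lt_irrefl _ h5
  have hD2 : N₂.nrm D = 1 := by
    have h3 : N₂.nrm (θ ^ n) < 1 := by
      rw [N₂.nrm_pow]
      exact pow_lt_one₀ zero_le h2 hn0
    apply le_antisymm
    · refine (N₂.nrm_add_le _ _).trans (max_le h3.le ?_)
      rw [N₂.nrm_pow, hθ2', one_pow]
    · by_contra hlt
      rw [not_le] at hlt
      have h4 : (1 - θ) ^ n = D - θ ^ n := by rw [hD]; ring
      have h5 : N₂.nrm ((1 - θ) ^ n) < 1 := by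
        rw [h4]
        exact (N₂.nrm_sub_le _ _).trans_lt (max_lt hlt h3)
      rw [N₂.nrm_pow, hθ2', one_pow] at h5
      exact lt_irrefl _ h5
  have hD0 : D ≠ 0 := by
    intro h0
    rw [h0, N₁.nrm_zero] at hD1
    exact zero_ne_one hD1
  refine ⟨θ ^ n / D, ?_, ?_⟩
  · have h3 : θ ^ n / D - 1 = -((1 - θ) ^ n / D) := by
      rw [div_sub_one hD0, ← neg_div, hD]
      congr 1
      ring
    rw [h3, N₁.nrm_neg, N₁.nrm_div, hD1, div_one, N₁.nrm_pow]
    calc N₁.nrm (1 - θ) ^ n ≤ N₁.nrm (1 - θ) ^ n₁ :=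
          pow_le_pow_right_of_le_one' hθ1'.le (by omega)
      _ = N₁.nrm (θ - 1) ^ n₁ := by rw [N₁.nrm_sub_comm]
      _ ≤ η := hn₁
  · rw [N₂.nrm_div, hD2, div_one, N₂.nrm_pow]
    calc N₂.nrm θ ^ n ≤ N₂.nrm θ ^ n₂ := pow_le_pow_right_of_le_one' h2.le (by omega)
      _ ≤ η := hn₂

/-- The one-sided improvement property. -/
def Improves (N₁ : NormRed K F k F₁ A π) (N₂ : NormRed K F k F₂ A π) (p : ℕ) (W : Set F) : Prop :=
  ∀ f ∈ W, N₁.nrm (f - 1) < 1 → N₂.nrm (f - 1) < 1 → ∃ u : F, u ≠ 0 ∧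
    N₁.nrm (f * u ^ p - 1) ≤
      max (A.valuation (p : K) * N₂.nrm (f - 1)) (N₂.nrm (f - 1) ^ p) ∧
    N₂.nrm (f * u ^ p - 1) ≤ max (N₁.nrm (f - 1)) (N₂.nrm (f - 1))

theorem Improves.step {N₁ : NormRed K F k F₁ A π} {N₂ : NormRed K F k F₂ A π} {p : ℕ}
    (hp : 0 < p) {W : Set F} (hW : ∀ f ∈ W, ∀ u : F, u ≠ 0 → f * u ^ p ∈ W)
    (H : Improves N₁ N₂ p W) {f : F} (hf : f ∈ W) {ε δ γ : A.ValueGroup} (hε : ε < 1)
    (hδ1 : A.valuation (p : K) ≤ δ) (hδ2 : ε ^ (p - 1) ≤ δ) (hγ : γ ≤ ε)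
    {u : F} (hu : u ≠ 0) (h1 : N₁.nrm (f * u ^ p - 1) ≤ ε) (h2 : N₂.nrm (f * u ^ p - 1) ≤ γ) :
    ∃ u : F, u ≠ 0 ∧ N₁.nrm (f * u ^ p - 1) ≤ δ * γ ∧ N₂.nrm (f * u ^ p - 1) ≤ ε := by
  obtain ⟨u', hu', h3, h4⟩ := H _ (hW f hf u hu) (h1.trans_lt hε) ((h2.trans hγ).trans_lt hε)
  refine ⟨u * u', mul_ne_zero hu hu', ?_, ?_⟩
  · have : f * (u * u') ^ p = f * u ^ p * u' ^ p := by ring
    rw [this]
    refine h3.trans (max_le ?_ ?_)
    · gcongr
    · obtain ⟨m, rfl⟩ : ∃ m, p = m + 1 := ⟨p - 1, by omega⟩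
      rw [pow_succ]
      rw [Nat.add_sub_cancel] at hδ2
      calc N₂.nrm (f * u ^ (m + 1) - 1) ^ m * N₂.nrm (f * u ^ (m + 1) - 1)
          ≤ ε ^ m * γ := by
            gcongr
            exact h2.trans hγ
        _ ≤ δ * γ := by gcongr
  · have : f * (u * u') ^ p = f * u ^ p * u' ^ p := by ring
    rw [this]
    exact h4.trans (max_le h1 (h2.trans hγ))

/-- **Contraction.** -/
theorem exists_locally_trivial (hA : IsArch A) {N₁ : NormRed K F k F₁ A π}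
    {N₂ : NormRed K F k F₂ A π} {θ : F} (hθ1 : N₁.nrm (θ - 1) < 1) (hθ2 : N₂.nrm θ < 1)
    {p : ℕ} (hp : 1 < p) (hvp : A.valuation (p : K) < 1) (hpK : (p : K) ≠ 0)
    {W : Set F} (hW : ∀ f ∈ W, ∀ u : F, u ≠ 0 → f * u ^ p ∈ W)
    (H₁ : Improves N₁ N₂ p W) (H₂ : Improves N₂ N₁ p W) {f : F} (hf : f ∈ W)
    (h1 : N₁.nrm (f - 1) < 1) (h2 : N₂.nrm (f - 1) < 1) {η : A.ValueGroup} (hη : η ≠ 0) :
    ∃ u : F, u ≠ 0 ∧ N₁.nrm (f * u ^ p - 1) ≤ η ∧ N₂.nrm (f * u ^ p - 1) ≤ η := by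
  wlog hηp : η ≤ A.valuation (p : K) generalizing η
  · obtain ⟨u, hu, h3, h4⟩ := this ((Valuation.ne_zero_iff _).mpr hpK) le_rfl
    exact ⟨u, hu, h3.trans (not_le.mp hηp).le, h4.trans (not_le.mp hηp).le⟩
  have hηlt : η < 1 := hηp.trans_lt hvp
  have hη1 : η ≤ 1 := hηlt.le
  set ε : A.ValueGroup := max (N₁.nrm (f - 1)) (N₂.nrm (f - 1)) with hε
  have hε1 : ε < 1 := max_lt h1 h2
  set δ : A.ValueGroup := max (A.valuation (p : K)) (ε ^ (p - 1)) with hδ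
  have hδ1 : δ < 1 := max_lt hvp (pow_lt_one₀ zero_le hε1 (by omega))
  have hp0 : 0 < p := by omega
  have key : ∀ n : ℕ,
      (∃ u : F, u ≠ 0 ∧ N₁.nrm (f * u ^ p - 1) ≤ δ ^ n * ε ∧ N₂.nrm (f * u ^ p - 1) ≤ ε) ∧
      (∃ u : F, u ≠ 0 ∧ N₂.nrm (f * u ^ p - 1) ≤ δ ^ n * ε ∧ N₁.nrm (f * u ^ p - 1) ≤ ε) := by
    intro n
    induction n with
    | zero =>
      refine ⟨⟨1, one_ne_zero, ?_, ?_⟩, ⟨1, one_ne_zero, ?_, ?_⟩⟩ <;>
        simp only [one_pow, mul_one, pow_zero, one_mul] <;>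
        first | exact le_max_left _ _ | exact le_max_right _ _
    | succ n ih =>
      obtain ⟨⟨u, hu, hu1, hu2⟩, ⟨w, hw, hw1, hw2⟩⟩ := ih
      have hle : δ ^ n * ε ≤ ε := mul_le_of_le_one_left' (pow_le_one₀ zero_le hδ1.le)
      constructor
      · obtain ⟨a, ha, ha1, ha2⟩ := H₁.step hp0 hW hf hε1 (le_max_left _ _) (le_max_right _ _) hle
          hw hw2 hw1
        exact ⟨a, ha, by rwa [pow_succ', mul_assoc], ha2⟩
      · obtain ⟨a, ha, ha1, ha2⟩ := H₂.step hp0 hW hf hε1 (le_max_left _ _) (le_max_right _ _) hle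
          hu hu2 hu1
        exact ⟨a, ha, by rwa [pow_succ', mul_assoc], ha2⟩
  obtain ⟨n, hn⟩ := hA δ η hδ1 hη
  have hnε : δ ^ n * ε ≤ η := by
    calc δ ^ n * ε ≤ η * 1 := by gcongr
      _ = η := mul_one _
  obtain ⟨⟨u, hu, hu1, -⟩, ⟨u', hu', hu1', -⟩⟩ := key n
  replace hu1 := hu1.trans hnε
  replace hu1' := hu1'.trans hnε
  -- interpolate
  set w : F := u' / u with hw
  have hw0 : w ≠ 0 := div_ne_zero hu' hu
  set M : A.ValueGroup := max 1 (max (N₁.nrm (w - 1)) (N₂.nrm ((1 - w) / w))) with hM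
  have hM1 : 1 ≤ M := le_max_left _ _
  have hM0 : 0 < M := lt_of_lt_of_le one_pos hM1
  obtain ⟨e, he1, he2⟩ := exists_approx_idem hA hθ1 hθ2 (η := η / M) (div_ne_zero hη hM0.ne')
  set g : F := w + e * (1 - w) with hg
  have hg1 : N₁.nrm (g - 1) ≤ η := by
    have h3 : g - 1 = (e - 1) * (1 - w) := by rw [hg]; ring
    rw [h3, N₁.nrm_mul, N₁.nrm_sub_comm 1 w]
    calc N₁.nrm (e - 1) * N₁.nrm (w - 1) ≤ η / M * M := by
          gcongr
          exact (le_max_left _ _).trans (le_max_right _ _)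
      _ = η := div_mul_cancel₀ _ hM0.ne'
  have hg2 : N₂.nrm (g / w - 1) ≤ η := by
    have h3 : g / w - 1 = e * ((1 - w) / w) := by
      rw [hg, add_div, div_self hw0]; ring
    rw [h3, N₂.nrm_mul]
    calc N₂.nrm e * N₂.nrm ((1 - w) / w) ≤ η / M * M := by
          gcongr
          exact (le_max_right _ _).trans (le_max_right _ _)
      _ = η := div_mul_cancel₀ _ hM0.ne'
  -- norms at most one
  have le_one : ∀ {a : F}, N₁.nrm (a - 1) ≤ η → N₁.nrm a ≤ 1 := by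
    intro a ha
    have : a = (a - 1) + 1 := by ring
    rw [this]
    exact (N₁.nrm_add_le _ _).trans (max_le (ha.trans hη1) N₁.nrm_one.le)
  have le_one' : ∀ {a : F}, N₂.nrm (a - 1) ≤ η → N₂.nrm a ≤ 1 := by
    intro a ha
    have : a = (a - 1) + 1 := by ring
    rw [this]
    exact (N₂.nrm_add_le _ _).trans (max_le (ha.trans hη1) N₂.nrm_one.le)
  have hg0 : g ≠ 0 := by
    intro h0
    rw [h0, zero_sub, N₁.nrm_neg, N₁.nrm_one] at hg1
    exact absurd hg1 (not_le.mpr hηlt)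
  have hval1 : N₁.nrm (f * (u * g) ^ p - 1) ≤ η := by
    have h3 : f * (u * g) ^ p = f * u ^ p * g ^ p := by ring
    rw [h3]
    refine (N₁.nrm_mul_sub_one_le ?_).trans (max_le hu1 ?_)
    · rw [N₁.nrm_pow]
      exact pow_le_one₀ zero_le (le_one hg1)
    · exact (N₁.nrm_pow_sub_one_le (le_one hg1) p).trans hg1
  have hval2 : N₂.nrm (f * (u * g) ^ p - 1) ≤ η := by
    have h3 : f * (u * g) ^ p = f * u' ^ p * (g / w) ^ p := by
      have h4 : u' * (g / w) = u * g := by rw [hw]; field_simp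
      rw [mul_assoc, ← mul_pow, h4]
    rw [h3]
    refine (N₂.nrm_mul_sub_one_le ?_).trans (max_le hu1' ?_)
    · rw [N₂.nrm_pow]
      exact pow_le_one₀ zero_le (le_one' hg2)
    · exact (N₂.nrm_pow_sub_one_le (le_one' hg2) p).trans hg2
  exact ⟨u * g, mul_ne_zero hu hg0, hval1, hval2⟩

end Fermat.Agent.DR.Ord
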