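import Fermat.Agent.DR.Ord.Modular

/-!
# Inertia at `p` on `J₀(Mp)[p^∞]`: the toric filtration and multiplicativity
-/

set_option autoImplicit false
set_option linter.unusedSectionVars false

noncomputable section

open ModularCurve AlgebraicCurve Fermat.Agent.RR Fermat.Agent.JRED
  Fermat.Agent.DR.S36 Fermat.Agent.DR.Mod

namespace Fermat.Agent.DR.Ord

/-- The toric subgroups of `J₀(Mp)` at a place above `p`. -/
theorem exists_kr_aux {A : ValuationSubring (AlgebraicClosure ℚ)} {k : Type} [Field k]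
    {π : A →+* k} {M p : ℕ} [NeZero M] [hpf : Fact p.Prime] [IsAlgClosed k] [CharP k p]
    [ExpChar k p]
    {w : laurentBaseChange (AlgebraicClosure ℚ) (modularFunctionFieldFull (M * p))
      ≃ₐ[AlgebraicClosure ℚ]
      laurentBaseChange (AlgebraicClosure ℚ) (modularFunctionFieldFull (M * p))}
    [FunctionField (AlgebraicClosure ℚ) (modularFunctionFieldBar (M * p))]
    [FunctionField (AlgebraicClosure ℚ) (modularFunctionFieldBar M)]
    [FunctionField k (modularFunctionFieldFullC k M)]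
    (hA : A.LiesOverPrime p) (hpM : ¬ p ∣ M) (S : Setup π w)
    {X : NodalDatum (AlgebraicClosure ℚ) (modularFunctionFieldBar (M * p)) k
      (modularFunctionFieldFullC k M) (modularFunctionFieldFullC k M) A π}
    (hX : IsModularNodal S X) :
    ∃ Kr : ℕ → AddSubgroup (JZero (M * p)),
      (∀ (m : ℕ) (x : JZero (M * p)), p ^ m • x = 0 → ∀ τ ∈ A.inertiaSubgroupIn ℚ,
        τ • x - x ∈ Kr m) ∧
      ∀ m : ℕ, 1 ≤ m → ∀ x ∈ Kr m, p • x = 0 →
        PushZero (heckeAlphaBar (AlgebraicClosure ℚ) M p) x →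
        PushZero (heckeBetaBar (AlgebraicClosure ℚ) M p) x →
        ∀ τ ∈ A.inertiaSubgroupIn ℚ, ∀ a : ℕ,
          (∀ ζ : AlgebraicClosure ℚ, ζ ^ p = 1 → τ ζ = ζ ^ a) → τ • x = a • x := by
  have hp := hpf.out
  refine ⟨fun m => toric X S.surj (p ^ m) (pow_pos hp.pos m), ?_, ?_⟩
  · intro m x hx τ hτ
    obtain ⟨a, ha, -, -⟩ := hX.shift
    have C := ModGal.isCompat_inertia hp S X hX.eq₁ hX.eq₂ ha
      (ESGalois.isResidual_one_of_inertia S.surj hτ)
    exact inTorus_smul_sub S.surj C (pow_pos hp.pos m) hx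
  · intro m hm x hx hpx hα hβ τ hτ a ha
    exact modular_smul_eq_nsmul hA hpM S hX hpx (inTorus_of_pow S.surj hpx hm hx) hα hβ hτ ha

/-- **Inertia at `p` on the `p`-power torsion of `J₀(Mp)`**, `p ∤ M`. -/
theorem exists_kr {M p : ℕ} [NeZero M] [hpf : Fact p.Prime] (hpM : ¬ p ∣ M)
    (A : ValuationSubring (AlgebraicClosure ℚ)) (hA : A.LiesOverPrime p) :
    ∃ Kr : ℕ → AddSubgroup (JZero (M * p)),
      (∀ (m : ℕ) (x : JZero (M * p)), p ^ m • x = 0 → ∀ τ ∈ A.inertiaSubgroupIn ℚ,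
        τ • x - x ∈ Kr m) ∧
      ∀ m : ℕ, 1 ≤ m → ∀ x ∈ Kr m, p • x = 0 →
        PushZero (heckeAlphaBar (AlgebraicClosure ℚ) M p) x →
        PushZero (heckeBetaBar (AlgebraicClosure ℚ) M p) x →
        ∀ τ ∈ A.inertiaSubgroupIn ℚ, ∀ a : ℕ,
          (∀ ζ : AlgebraicClosure ℚ, ζ ^ p = 1 → τ ζ = ζ ^ a) → τ • x = a • x := by
  have hp := hpf.out
  have hπ : Function.Surjective (IsLocalRing.residue A) := IsLocalRing.residue_surjective
  have hchar : CharP (IsLocalRing.ResidueField A) p := charP_of_liesOverPrime hπ hp hA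
  have hexp : ExpChar (IsLocalRing.ResidueField A) p := inferInstance
  have hclosed : IsAlgClosed (IsLocalRing.ResidueField A) := isAlgClosed_of_surjective hπ
  have hdeg : DegreeInput M (IsLocalRing.ResidueField A) := degreeInput' (NeZero.ne M) hpM
  have hgood : GoodReduction M (IsLocalRing.ResidueField A) :=
    goodReduction hπ hp (NeZero.ne M) hpM
  have h1 := RH.functionField_bar (M * p)
  have h2 := RH.functionField_bar M
  have h3 := hdeg.functionField'
  obtain ⟨w, -, S⟩ := exists_setup_bar (M := M) hπ hpM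
  obtain ⟨X, hX, -⟩ := exists_modular_nodalDatum hA hpM S hdeg hgood
  exact exists_kr_aux hA hpM S hX

end Fermat.Agent.DR.Ord
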