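import Fermat.Agent.DR.Ord.Pivot

/-!
# Orthonormal bases of subspaces, reductions of subspaces, closest pairs
-/

set_option autoImplicit false

noncomputable section

namespace Fermat.Agent.DR.Ord

variable {K F k Fk : Type*} [Field K] [Field F] [Algebra K F] [Field k] [CommRing Fk]
  [Algebra k Fk] {A : ValuationSubring K} {π : A →+* k}

namespace NormRed

variable (R : NormRed K F k Fk A π)

/-- Every finite-dimensional subspace has an orthonormal basis. -/
def HasBases : Prop := ∀ V : Submodule K F, FiniteDimensional K V →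
  ∃ (n : ℕ) (b : Fin n → F), R.IsOrtho b ∧ Submodule.span K (Set.range b) = V

/-- The reduction of a subspace. -/
def red (V : Submodule K F) : Submodule k Fk where
  carrier := {u | ∃ w ∈ V, w ∈ R.Λ ∧ R.res w = u}
  add_mem' := by
    rintro u u' ⟨w, hw, hm, rfl⟩ ⟨w', hw', hm', rfl⟩
    exact ⟨w + w', V.add_mem hw hw', R.Λ.add_mem hm hm', R.res_add hm hm'⟩
  zero_mem' := ⟨0, V.zero_mem, R.Λ.zero_mem, R.res_zero⟩
  smul_mem' := by
    rintro c u ⟨w, hw, hm, rfl⟩
    obtain ⟨a, rfl⟩ := R.surj c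
    exact ⟨(a : K) • w, V.smul_mem _ hw, R.smul_mem a.2 hm, R.res_smul a.2 hm⟩

theorem mem_red {V : Submodule K F} {u : Fk} :
    u ∈ R.red V ↔ ∃ w ∈ V, w ∈ R.Λ ∧ R.res w = u := Iff.rfl

theorem res_mem_red {V : Submodule K F} {w : F} (hw : w ∈ V) (hm : w ∈ R.Λ) :
    R.res w ∈ R.red V := ⟨w, hw, hm, rfl⟩

theorem red_mono {V V' : Submodule K F} (h : V ≤ V') : R.red V ≤ R.red V' := by
  rintro u ⟨w, hw, hm, rfl⟩
  exact ⟨w, h hw, hm, rfl⟩

variable {R}

namespace IsOrtho

variable {n : ℕ} {b : Fin n → F}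

theorem exists_coeff {V : Submodule K F} (hV : Submodule.span K (Set.range b) = V) {w : F}
    (hw : w ∈ V) : ∃ c : Fin n → K, w = ∑ i, c i • b i := by
  rw [← hV, Submodule.mem_span_range_iff_exists_fun] at hw
  obtain ⟨c, hc⟩ := hw
  exact ⟨c, hc.symm⟩

theorem mem_of_span {V : Submodule K F} (hV : Submodule.span K (Set.range b) = V) (i : Fin n) :
    b i ∈ V := by
  rw [← hV]
  exact Submodule.subset_span ⟨i, rfl⟩

theorem finrank_eq (h : R.IsOrtho b) {V : Submodule K F}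
    (hV : Submodule.span K (Set.range b) = V) : Module.finrank K V = n := by
  rw [← hV, finrank_span_eq_card h.linearIndependent, Fintype.card_fin]

theorem red_eq (h : R.IsOrtho b) {V : Submodule K F}
    (hV : Submodule.span K (Set.range b) = V) :
    R.red V = Submodule.span k (Set.range fun i => R.res (b i)) := by
  apply le_antisymm
  · rintro u ⟨w, hw, hm, rfl⟩
    obtain ⟨c, rfl⟩ := exists_coeff hV hw
    have hc : ∀ i, c i ∈ A := fun i => by
      rw [← A.valuation_le_one_iff]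
      exact (h.valuation_le c i).trans (R.nrm_le_one_iff.mpr hm)
    rw [h.res_sum hc]
    exact Submodule.sum_mem _ fun i _ => Submodule.smul_mem _ _ (Submodule.subset_span ⟨i, rfl⟩)
  · rw [Submodule.span_le]
    rintro _ ⟨i, rfl⟩
    exact ⟨b i, mem_of_span hV i, h.mem i, rfl⟩

theorem finrank_red (h : R.IsOrtho b) {V : Submodule K F}
    (hV : Submodule.span K (Set.range b) = V) : Module.finrank k (R.red V) = n := by
  rw [h.red_eq hV, finrank_span_eq_card h.li, Fintype.card_fin]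

end IsOrtho

theorem HasBases.finrank_red (hB : R.HasBases) (V : Submodule K F) [FiniteDimensional K V] :
    Module.finrank k (R.red V) = Module.finrank K V := by
  obtain ⟨n, b, hb, hV⟩ := hB V inferInstance
  rw [hb.finrank_red hV, hb.finrank_eq hV]

theorem HasBases.finiteDimensional_red (hB : R.HasBases) (V : Submodule K F)
    [FiniteDimensional K V] : FiniteDimensional k (R.red V) := by
  obtain ⟨n, b, hb, hV⟩ := hB V inferInstance
  rw [hb.red_eq hV]
  exact FiniteDimensional.span_of_finite k (Set.finite_range _)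

/-- Equality of reductions from an inclusion and equal dimensions. -/
theorem HasBases.red_eq_of_le (hB : R.HasBases) (V V' : Submodule K F)
    [FiniteDimensional K V] [FiniteDimensional K V'] (hle : R.red V ≤ R.red V')
    (hdim : Module.finrank K V = Module.finrank K V') : R.red V = R.red V' := by
  have := hB.finiteDimensional_red V'
  exact Submodule.eq_of_le_of_finrank_eq hle (by rw [hB.finrank_red, hB.finrank_red, hdim])

/-- The minimum of `|y + ∑ c_j n_j|`, `c_j` in the maximal ideal, is attained. -/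
theorem HasBases.exists_optimal (hB : R.HasBases) {J : Type*} [Fintype J] (n : J → F) (y : F) :
    ∃ c : J → K, (∀ j, A.valuation (c j) < 1) ∧
      ∀ c' : J → K, (∀ j, A.valuation (c' j) < 1) →
        R.nrm (y + ∑ j, c j • n j) ≤ R.nrm (y + ∑ j, c' j • n j) := by
  classical
  let W : Submodule K F := Submodule.span K (Set.range fun o : Option J => o.elim y n)
  have hWfin : FiniteDimensional K W := FiniteDimensional.span_of_finite K (Set.finite_range _)
  obtain ⟨d, b, hb, hW⟩ := hB W hWfin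
  have hy : y ∈ W := Submodule.subset_span ⟨none, rfl⟩
  have hn : ∀ j, n j ∈ W := fun j => Submodule.subset_span ⟨some j, rfl⟩
  obtain ⟨yc, hyc⟩ := IsOrtho.exists_coeff hW hy
  choose nc hnc using fun j => IsOrtho.exists_coeff hW (hn j)
  obtain ⟨c, hc, hopt⟩ := Ord.exists_optimal (A := A) (Finset.univ : Finset J) nc yc
  have hexp : ∀ c' : J → K, y + ∑ j, c' j • n j = ∑ i, (yc i + ∑ j, c' j * nc j i) • b i := by
    intro c'
    rw [hyc]
    simp only [add_smul, Finset.sum_add_distrib, Finset.sum_smul]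
    congr 1
    rw [Finset.sum_comm]
    refine Finset.sum_congr rfl fun j _ => ?_
    rw [hnc j, Finset.smul_sum]
    exact Finset.sum_congr rfl fun i _ => by rw [mul_smul]
  refine ⟨c, fun j => hc j (Finset.mem_univ j), fun c' hc' => ?_⟩
  rw [hexp, hexp, hb.nrm_le_iff]
  exact hopt c' (fun j _ => hc' j) _ fun i => hb.valuation_le _ i

/-- A closest pair. -/
theorem HasBases.exists_min_pair (hB : R.HasBases) (V V' : Submodule K F)
    [FiniteDimensional K V] [FiniteDimensional K V'] {h₀ h₀' : F} (h₀V : h₀ ∈ V) (h₀Λ : h₀ ∈ R.Λ)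
    (h₀1 : R.res h₀ = 1) (h₀V' : h₀' ∈ V') (h₀Λ' : h₀' ∈ R.Λ) (h₀1' : R.res h₀' = 1) :
    ∃ h ∈ V, h ∈ R.Λ ∧ R.res h = 1 ∧ ∃ h' ∈ V', h' ∈ R.Λ ∧ R.res h' = 1 ∧
      ∀ g ∈ V, g ∈ R.Λ → R.res g = 1 → ∀ g' ∈ V', g' ∈ R.Λ → R.res g' = 1 →
        R.nrm (h - h') ≤ R.nrm (g - g') := by
  obtain ⟨d, b, hb, hV⟩ := hB V inferInstance
  obtain ⟨d', b', hb', hV'⟩ := hB V' inferInstance
  obtain ⟨c, hc, hopt⟩ := hB.exists_optimal (Sum.elim b fun i => -b' i) (h₀ - h₀')
  simp only [Fintype.sum_sum_type, Sum.elim_inl, Sum.elim_inr, smul_neg, Finset.sum_neg_distrib]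
    at hopt
  have hval : ∀ {w : F} {a : K}, A.valuation a < 1 → w ∈ R.Λ → R.nrm (a • w) < 1 := by
    intro w a ha hw
    rw [R.nrm_smul]
    calc A.valuation a * R.nrm w ≤ A.valuation a * 1 := by
          gcongr
          exact R.nrm_le_one_iff.mpr hw
      _ < 1 := by rwa [mul_one]
  have hsum : ∀ {m : ℕ} (e : Fin m → F) (a : Fin m → K), (∀ i, e i ∈ R.Λ) →
      (∀ i, A.valuation (a i) < 1) → ∑ i, a i • e i ∈ R.Λ ∧ R.res (∑ i, a i • e i) = 0 := by
    intro m e a he ha
    have hmem : ∀ i, a i • e i ∈ R.Λ := fun i =>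
      R.smul_mem ((A.valuation_le_one_iff _).mp (ha i).le) (he i)
    refine ⟨R.Λ.sum_mem fun i _ => hmem i, ?_⟩
    rw [R.res_sum _ _ fun i _ => hmem i]
    exact Finset.sum_eq_zero fun i _ => (R.nrm_lt_one_iff.mp (hval (ha i) (he i))).2
  obtain ⟨s1, s2⟩ := hsum b (fun i => c (Sum.inl i)) hb.mem fun i => hc _
  obtain ⟨s1', s2'⟩ := hsum b' (fun i => c (Sum.inr i)) hb'.mem fun i => hc _
  refine ⟨h₀ + ∑ i, c (Sum.inl i) • b i, V.add_mem h₀V (V.sum_mem fun i _ =>
      V.smul_mem _ (IsOrtho.mem_of_span hV i)), R.Λ.add_mem h₀Λ s1, by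
      rw [R.res_add h₀Λ s1, s2, add_zero, h₀1], h₀' + ∑ i, c (Sum.inr i) • b' i,
      V'.add_mem h₀V' (V'.sum_mem fun i _ => V'.smul_mem _ (IsOrtho.mem_of_span hV' i)),
      R.Λ.add_mem h₀Λ' s1', by rw [R.res_add h₀Λ' s1', s2', add_zero, h₀1'], ?_⟩
  intro g hg hgΛ hg1 g' hg' hgΛ' hg1'
  obtain ⟨x, hx⟩ := IsOrtho.exists_coeff hV (V.sub_mem hg h₀V)
  obtain ⟨x', hx'⟩ := IsOrtho.exists_coeff hV' (V'.sub_mem hg' h₀V')
  have hxm : ∀ i, A.valuation (x i) < 1 := fun i => by
    refine (hb.valuation_le x i).trans_lt ?_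
    rw [← hx, R.nrm_lt_one_iff]
    exact ⟨R.Λ.sub_mem hgΛ h₀Λ, by rw [R.res_sub hgΛ h₀Λ, hg1, h₀1, sub_self]⟩
  have hxm' : ∀ i, A.valuation (x' i) < 1 := fun i => by
    refine (hb'.valuation_le x' i).trans_lt ?_
    rw [← hx', R.nrm_lt_one_iff]
    exact ⟨R.Λ.sub_mem hgΛ' h₀Λ', by rw [R.res_sub hgΛ' h₀Λ', hg1', h₀1', sub_self]⟩
  have := hopt (Sum.elim x x') (by rintro (i | i); exacts [hxm i, hxm' i])
  simp only [Sum.elim_inl, Sum.elim_inr] at this
  rw [← hx, ← hx'] at this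
  have e1 : h₀ + ∑ i, c (Sum.inl i) • b i - (h₀' + ∑ i, c (Sum.inr i) • b' i)
      = h₀ - h₀' + (∑ i, c (Sum.inl i) • b i + -∑ i, c (Sum.inr i) • b' i) := by ring
  have e2 : h₀ - h₀' + (g - h₀ + -(g' - h₀')) = g - g' := by ring
  rw [e1]
  rwa [e2] at this

end NormRed

end Fermat.Agent.DR.Ord
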