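import Fermat.Agent.DR.Ord.Contract
import Fermat.Agent.DR.Nodal.Spec

/-!
# Inertia acts through the cyclotomic character on `p`-new toric classes
-/

set_option autoImplicit false
set_option linter.unusedSectionVars false

noncomputable section

open AlgebraicCurve Fermat.Agent.RR Fermat.Agent.JRED

namespace Fermat.Agent.DR.Ord

section Rep

variable {K F : Type*} [Field K] [Field F] [Algebra K F]

/-- The function `f` represents the `m`-torsion class `x`: `x = [D]` with `m D = div f`. -/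
def Rep (m : ℕ) (x : Pic0 K F) (f : F) : Prop :=
  f ≠ 0 ∧ ∃ D : Divisor.degZero (K := K) (F := F), Pic0.mk D = x ∧
    ∀ P, (m : ℤ) * (D : Divisor K F) P = P.ord f

variable {m : ℕ} {x y : Pic0 K F} {f f' : F}

theorem Rep.dvd (h : Rep m x f) (P : Place K F) : (m : ℤ) ∣ P.ord f := by
  obtain ⟨-, D, -, hD⟩ := h
  exact ⟨_, (hD P).symm⟩

theorem Rep.mul (h : Rep m x f) (h' : Rep m y f') : Rep m (x + y) (f * f') := by
  obtain ⟨h0, D, rfl, hD⟩ := h
  obtain ⟨h0', D', rfl, hD'⟩ := h'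
  refine ⟨mul_ne_zero h0 h0', D + D', rfl, fun P => ?_⟩
  show (m : ℤ) * ((D : Divisor K F) P + (D' : Divisor K F) P) = _
  rw [mul_add, hD, hD', P.ord_mul h0 h0']

theorem Rep.one : Rep m (0 : Pic0 K F) (1 : F) :=
  ⟨one_ne_zero, 0, rfl, fun P => by simp⟩

theorem Rep.pow (h : Rep m x f) (n : ℕ) : Rep m (n • x) (f ^ n) := by
  induction n with
  | zero => rw [zero_nsmul, pow_zero]; exact Rep.one
  | succ n ih => rw [succ_nsmul, pow_succ]; exact ih.mul h

theorem Rep.of_pow [HasPrincipalDivisors K F] {u : F} (hu : u ≠ 0) :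
    Rep m (0 : Pic0 K F) (u ^ m) := by
  have hdeg : divOf (K := K) u ∈ Divisor.degZero (K := K) (F := F) :=
    Divisor.mem_degZero.mpr (degree_divOf u)
  refine ⟨pow_ne_zero m hu, ⟨divOf u, hdeg⟩, pic0_mk_eq_zero_iff.mpr (isPrincipal_divOf hu),
    fun P => ?_⟩
  rw [ord_pow]
  show (m : ℤ) * (divOf (K := K) u) P = _
  rw [divOf_apply]

theorem Rep.mul_pow [HasPrincipalDivisors K F] (h : Rep m x f) {u : F} (hu : u ≠ 0) :
    Rep m x (f * u ^ m) := by
  have := h.mul (Rep.of_pow (K := K) (m := m) hu)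
  rwa [add_zero] at this

theorem Rep.smul (h : Rep m x f) (g : SemilinearAut K F) : Rep m (g • x) (g • f) := by
  obtain ⟨h0, D, rfl, hD⟩ := h
  refine ⟨?_, SemilinearAut.degZeroSMulHom g D, rfl, fun P => ?_⟩
  swap
  · show (m : ℤ) * (g • (D : Divisor K F)) P = _
    rw [SemilinearAut.divisor_smul_apply, hD]
    have h1 := SemilinearAut.ord_smul g (g⁻¹ • P) f
    rw [smul_inv_smul] at h1
    exact h1.symm
  rw [SemilinearAut.smul_def]
  exact (map_ne_zero_iff _ (SemilinearAut.toRingAut g).injective).mpr h0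

/-- Two classes represented by the same function agree up to a class killed by `m`; for a
power the class vanishes. -/
theorem Rep.eq_zero (hm : 0 < m) {u : F} (hu : u ≠ 0) (h : Rep m x (u ^ m)) : x = 0 := by
  obtain ⟨-, D, rfl, hD⟩ := h
  rw [pic0_mk_eq_zero_iff]
  refine ⟨u, hu, fun P => ?_⟩
  have h1 := hD P
  rw [ord_pow] at h1
  have hm' : (m : ℤ) ≠ 0 := by exact_mod_cast hm.ne'
  exact mul_left_cancel₀ hm' h1

theorem Rep.nsmul_eq_zero (h : Rep m x f) : m • x = 0 := by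
  obtain ⟨h0, D, rfl, hD⟩ := h
  have h1 : m • Pic0.mk D = Pic0.mk (m • D) := rfl
  rw [h1, pic0_mk_eq_zero_iff]
  refine ⟨f, h0, fun P => ?_⟩
  rw [← hD]
  show (m • (D : Divisor K F)) P = _
  rw [Finsupp.smul_apply, nsmul_eq_mul]

end Rep

variable {K F k F₁ F₂ : Type*} [Field K] [Field F] [Algebra K F] [Field k] [Field F₁] [Field F₂]
  [Algebra k F₁] [Algebra k F₂] [IsAlgClosed K] [IsAlgClosed k] [FunctionField K F]
  [FunctionField k F₁] [FunctionField k F₂] {A : ValuationSubring K} {π : A →+* k}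

/-- **Inertia acts through the cyclotomic character**: a toric `p`-torsion class for which both
one-sided improvements are possible. -/
theorem smul_add_nsmul_eq_zero {X : NodalDatum K F k F₁ F₂ A π} (hπ : Function.Surjective π)
    {p : ℕ} [hpf : Fact p.Prime] [CharP k p] (hA : IsArch A) (hpK : (p : K) ≠ 0)
    {g : SemilinearAut K F} (C : IsCompat X g 1 1)
    (hzeros : g • polesOf (K := K) X.x⁻¹ = polesOf (K := K) X.x⁻¹)
    {ϖ : K} (hϖ0 : ϖ ≠ 0) (hϖ1 : A.valuation ϖ < 1)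
    (hϖ : A.valuation ϖ ^ (p - 1) = A.valuation (p : K))
    {x : Pic0 K F} (hx : InTorus X p x)
    (H₁ : Improves (single hπ X.R₁) (single hπ X.R₂) p {f | Rep p x f})
    (H₂ : Improves (single hπ X.R₂) (single hπ X.R₁) p {f | Rep p x f})
    {b : ℕ} (hb : A.valuation (SemilinearAut.baseAut g ϖ / ϖ + b) < 1) :
    g • x + b • x = 0 := by
  have hp := hpf.out
  have hc₁ : CharP F₁ p := charP_of_injective_algebraMap (algebraMap k F₁).injective p
  have hc₂ : CharP F₂ p := charP_of_injective_algebraMap (algebraMap k F₂).injective p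
  have hc₃ : CharP (F₁ × F₂) p := Prod.charP F₁ F₂ p
  obtain ⟨n₀, hn₀, G⟩ := exists_glue X hπ p
  obtain ⟨θ, hθ⟩ := X.approx (1, 0)
  have hθ1 : (single hπ X.R₁).nrm (θ - 1) < 1 := by
    rw [single_nrm_lt_one]
    have := RedDatum.sub hθ.1 X.R₁.one
    rwa [sub_self] at this
  have hθ2 : (single hπ X.R₂).nrm θ < 1 := by
    rw [single_nrm_lt_one]
    exact hθ.2
  obtain ⟨D, f₀, rfl, H⟩ := hx
  have hrep : Rep p (Pic0.mk D) f₀ := ⟨H.ne_zero, D, rfl, H.div_eq⟩
  have h1 : (single hπ X.R₁).nrm (f₀ - 1) < 1 := by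
    rw [single_nrm_lt_one]
    have := RedDatum.sub H.red.1 X.R₁.one
    rwa [sub_self] at this
  have h2 : (single hπ X.R₂).nrm (f₀ - 1) < 1 := by
    rw [single_nrm_lt_one]
    have := RedDatum.sub H.red.2 X.R₂.one
    rwa [sub_self] at this
  have hvp : A.valuation (p : K) < 1 := by
    rw [← hϖ]
    have := hp.two_le
    exact pow_lt_one₀ zero_le hϖ1 (by omega)
  obtain ⟨u, hu, hu1, hu2⟩ := exists_locally_trivial hA hθ1 hθ2 hp.one_lt hvp hpK
    (W := {f | Rep p (Pic0.mk D) f}) (fun f hf u hu => Rep.mul_pow hf hu) H₁ H₂ hrep h1 h2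
    (η := A.valuation (ϖ ^ p)) ((Valuation.ne_zero_iff _).mpr (pow_ne_zero p hϖ0))
  have hrep' := hrep.mul_pow hu
  set f := f₀ * u ^ p with hf
  have hloc : (ofRed hπ X.R₁ X.R₂).nrm (f - 1) ≤ A.valuation ϖ ^ p := by
    rw [← map_pow, ofRed_nrm_le_iff]
    exact ⟨hu1, hu2⟩
  have hnsmul : ∀ (B : Divisor K F) (hB : g • B = B) (n : ℕ) (w : F),
      w ∈ riemannRochSpace (n • (n₀ • B)) →
        SemilinearAut.toRingAut g w ∈ riemannRochSpace (n • (n₀ • B)) := by
    intro B hB n w hw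
    have := smul_mem_riemannRochSpace g hw
    rwa [smul_comm g n, smul_comm g n₀, hB] at this
  obtain ⟨v, hv0, hv⟩ := exists_pow_eq_of_inertia (R := ofRed hπ X.R₁ X.R₂) (p := p) G hϖ0 hϖ1 hϖ
    (SemilinearAut.baseAut g : K →+* K) (SemilinearAut.toRingAut g : F →+* F)
    (fun c => SemilinearAut.smul_algebraMap g c) (by
      rintro w ⟨t, ht⟩
      have h3 := C.red ht
      simp only [one_smul] at h3
      have h4 : ((ofRed hπ X.R₁ X.R₂).Λ.carrier (SemilinearAut.toRingAut g w)) := ⟨_, h3⟩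
      refine ⟨h4, ?_⟩
      have h5 := (mem_ofRed (hπ := hπ)).mpr ht
      have h6 := (mem_ofRed (hπ := hπ)).mpr h3
      rw [h5.2]
      exact h6.2)
    (hnsmul _ C.poles) (hnsmul _ hzeros) hb hrep'.1 hrep'.dvd (hrep'.smul g).dvd hloc
  have h7 := (hrep'.smul g).mul (hrep'.pow b)
  exact Rep.eq_zero hp.pos hv0 (by rw [← hv]; exact h7)

end Fermat.Agent.DR.Ord
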