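import Fermat.Agent.DR.Ord.Mult

/-!
# The multiplicativity theorem

* `isPrincipal_of_close`: a class with a pair of sections closer than `|ϖ|` is trivial;
* `exists_close_pair`: a locally trivial class has a pair of sections at distance `≤ |ϖ|`;
* `exists_pow_eq_of_inertia`: inertia acts on locally trivial classes by the cyclotomic character.
-/

set_option autoImplicit false
set_option linter.unusedSectionVars false

noncomputable section

open AlgebraicCurve Fermat.Agent.RR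

namespace Fermat.Agent.DR.Ord

variable {K F k Fk : Type*} [Field K] [Field F] [Algebra K F] [IsAlgClosed K] [FunctionField K F]
  [Field k] [CommRing Fk] [Algebra k Fk] {A : ValuationSubring K} {π : A →+* k}

variable {R : NormRed K F k Fk A π} {p : ℕ} [hpf : Fact p.Prime] [CharP Fk p] [IsReduced Fk]

/-- If the normalised difference of a pair reduces to a difference of sections, the pair can be
improved. -/
theorem IsPair.improve {E E' D : Divisor K F} {h h' : F} (hP : IsPair R E E' D h h') {c : K}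
    (hc : c ≠ 0) (hc1 : A.valuation c < 1) {z : F} (hz : z ∈ R.Λ)
    (hd : h - h' = algebraMap K F c * z) {u u' : Fk}
    (hu : u ∈ R.red (riemannRochSpace (E - D))) (hu' : u' ∈ R.red (riemannRochSpace (E' - D)))
    (hzu : R.res z = u - u') :
    ∃ g g', IsPair R E E' D g g' ∧ R.nrm (g - g') < A.valuation c := by
  obtain ⟨w, hwV, hwΛ, rfl⟩ := hu
  obtain ⟨w', hwV', hwΛ', rfl⟩ := hu'
  have hcA : c ∈ A := (A.valuation_le_one_iff c).mp hc1.le
  have hcpos : (0 : A.ValueGroup) < A.valuation c :=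
    zero_lt_iff.mpr ((Valuation.ne_zero_iff _).mpr hc)
  refine ⟨h - c • w, h' - c • w', ⟨Submodule.sub_mem _ hP.mem (Submodule.smul_mem _ _ hwV),
    Submodule.sub_mem _ hP.mem' (Submodule.smul_mem _ _ hwV'),
    R.Λ.sub_mem hP.int (R.smul_mem hcA hwΛ), R.Λ.sub_mem hP.int' (R.smul_mem hcA hwΛ'), ?_, ?_⟩, ?_⟩
  · rw [R.res_sub hP.int (R.smul_mem hcA hwΛ), hP.res, Algebra.smul_def,
      R.res_const_mul_eq_zero hc1 hwΛ, sub_zero]
  · rw [R.res_sub hP.int' (R.smul_mem hcA hwΛ'), hP.res', Algebra.smul_def,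
      R.res_const_mul_eq_zero hc1 hwΛ', sub_zero]
  · have h1 : h - c • w - (h' - c • w') = algebraMap K F c * (z - w + w') := by
      rw [Algebra.smul_def, Algebra.smul_def]
      linear_combination hd
    have h2 : R.nrm (z - w + w') < 1 := by
      rw [R.nrm_lt_one_iff]
      refine ⟨R.Λ.add_mem (R.Λ.sub_mem hz hwΛ) hwΛ', ?_⟩
      rw [R.res_add (R.Λ.sub_mem hz hwΛ) hwΛ', R.res_sub hz hwΛ, hzu]
      ring
    rw [h1, R.nrm_const_mul]
    exact mul_lt_of_lt_one_right hcpos h2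

/-- Intersection of the two spaces of sections. -/
theorem inf_eq_bot {E E' D : Divisor K F} (disj : ∀ P, E P = 0 ∨ E' P = 0)
    (hD : Divisor.degree D = 0) (hnp : ¬ Divisor.IsPrincipal D) {h : F}
    (h1 : h ∈ riemannRochSpace (E - D)) (h2 : h ∈ riemannRochSpace (E' - D)) : h = 0 := by
  by_contra hne
  rw [mem_riemannRochSpace_iff] at h1 h2
  apply hnp
  refine ⟨h, hne, ?_⟩
  have hle : D ≤ divOf h := by
    intro v
    rw [divOf_apply]
    have e1 := (h1 v).resolve_left hne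
    have e2 := (h2 v).resolve_left hne
    simp only [Finsupp.coe_sub, Pi.sub_apply] at e1 e2
    rcases disj v with h0 | h0 <;> linarith
  set B : Divisor K F := divOf h - D with hB
  have h3 : ∀ w, 0 ≤ B w := fun w => by
    have := hle w
    simp only [hB, Finsupp.coe_sub, Pi.sub_apply]
    linarith
  have h4 : Divisor.degree B = 0 := by
    rw [hB, map_sub, degree_divOf, hD, sub_zero]
  have h7 := degree_eq_sum (K := K) (F := F) B
  rw [h4] at h7
  intro v
  have h5 : B v = 0 := by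
    by_contra hv
    have hmem : v ∈ B.support := Finsupp.mem_support_iff.mpr hv
    exact hv ((Finset.sum_eq_zero_iff_of_nonneg (fun w _ => h3 w)).mp h7.symm v hmem)
  simp only [hB, Finsupp.coe_sub, Pi.sub_apply, divOf_apply] at h5
  linarith

/-- There are pairs. -/
theorem exists_pair {E E' : Divisor K F} (G : Glue R p E E') {n : ℕ} (hn : 0 < n) {f : F}
    {D : Divisor K F} (hfD : IsRoot p f D) (hfΛ : f ∈ R.Λ) (hf1 : R.res f = 1) :
    ∃ h h', IsPair R (n • E) (n • E') D h h' := by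
  have hbig : 2 * (genusFF K F : ℤ) - 2 < Divisor.degree (n • E) := by
    rw [map_nsmul, nsmul_eq_mul]
    have h1 : 0 ≤ Divisor.degree E := degree_nonneg G.nonneg
    have h2 : (1 : ℤ) ≤ n := by exact_mod_cast hn
    nlinarith [G.big]
  have hbig' : 2 * (genusFF K F : ℤ) - 2 < Divisor.degree (n • E') := by
    rw [map_nsmul, nsmul_eq_mul]
    have h1 : 0 ≤ Divisor.degree E' := degree_nonneg G.nonneg'
    have h2 : (1 : ℤ) ≤ n := by exact_mod_cast hn
    nlinarith [G.big']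
  have h1 : (1 : Fk) ∈ R.red (riemannRochSpace (n • E - D)) := by
    rw [red_twist G.bases hbig (fun t ht => G.root n hn t (by rwa [smul_smul] at ht)) hfD hfΛ hf1]
    exact ⟨1, one_mem_riemannRochSpace (smul_nonneg (Nat.zero_le _) G.nonneg), R.Λ.one_mem,
      R.res_one⟩
  have h2 : (1 : Fk) ∈ R.red (riemannRochSpace (n • E' - D)) := by
    rw [red_twist G.bases hbig' (fun t ht => G.root' n hn t (by rwa [smul_smul] at ht)) hfD hfΛ
      hf1]
    exact ⟨1, one_mem_riemannRochSpace (smul_nonneg (Nat.zero_le _) G.nonneg'), R.Λ.one_mem,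
      R.res_one⟩
  obtain ⟨h, hV, hΛ, hr⟩ := h1
  obtain ⟨h', hV', hΛ', hr'⟩ := h2
  exact ⟨h, h', hV, hV', hΛ, hΛ', hr, hr'⟩

/-- A closest pair for a nontrivial class. -/
theorem exists_closest {E E' : Divisor K F} (G : Glue R p E E') {n : ℕ} {f : F}
    {D : Divisor K F} (hfD : IsRoot p f D)
    (hnp : ¬ Divisor.IsPrincipal D) {h₀ h₀' : F} (hP₀ : IsPair R (n • E) (n • E') D h₀ h₀') :
    ∃ h h', IsPair R (n • E) (n • E') D h h' ∧ R.nrm (h - h') ≤ R.nrm (h₀ - h₀') ∧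
      (∀ g g', IsPair R (n • E) (n • E') D g g' → R.nrm (h - h') ≤ R.nrm (g - g')) ∧
      ∃ c : K, c ≠ 0 ∧ A.valuation c < 1 ∧ R.nrm (h - h') = A.valuation c ∧
        ∃ z ∈ R.Λ, h - h' = algebraMap K F c * z ∧
          z ∈ riemannRochSpace (n • (E + E') - D) := by
  have hFk := R.nontrivial
  obtain ⟨h, hV, hΛ, hr, h', hV', hΛ', hr', hmin⟩ := G.bases.exists_min_pair
    (riemannRochSpace (n • E - D)) (riemannRochSpace (n • E' - D)) hP₀.mem hP₀.int hP₀.res
    hP₀.mem' hP₀.int' hP₀.res'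
  have hne : h - h' ≠ 0 := by
    intro h0
    rw [sub_eq_zero] at h0
    subst h0
    have := inf_eq_bot (E := n • E) (E' := n • E') (fun P => by
      rcases G.disj P with h0 | h0
      · left; simp [h0]
      · right; simp [h0]) (hfD.degree hpf.out.pos) hnp hV hV'
    rw [this, R.res_zero] at hr
    exact zero_ne_one hr
  obtain ⟨c, hc, hn', z, hz, hzΛ, -⟩ := R.exists_nrm hne
  refine ⟨h, h', ⟨hV, hV', hΛ, hΛ', hr, hr'⟩, hmin _ hP₀.mem hP₀.int hP₀.res _ hP₀.mem' hP₀.int'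
    hP₀.res', fun g g' hg => hmin _ hg.mem hg.int hg.res _ hg.mem' hg.int' hg.res', c, hc, ?_, hn',
    z, hzΛ, hz, ?_⟩
  · rw [← hn', R.nrm_lt_one_iff]
    exact ⟨R.Λ.sub_mem hΛ hΛ', by rw [R.res_sub hΛ hΛ', hr, hr', sub_self]⟩
  · have h1 : z = c⁻¹ • (h - h') := by
      rw [hz, Algebra.smul_def, ← mul_assoc, ← map_mul, inv_mul_cancel₀ hc, map_one, one_mul]
    rw [h1]
    refine Submodule.smul_mem _ _ (Submodule.sub_mem _ (rr_mono ?_ hV) (rr_mono ?_ hV'))
    · intro v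
      have := G.nonneg' v
      simp only [Finsupp.coe_zero, Pi.zero_apply] at this
      simp only [Finsupp.coe_sub, Pi.sub_apply, Finsupp.coe_smul, Pi.smul_apply, Finsupp.coe_add,
        Pi.add_apply, smul_add]
      have h2 : 0 ≤ n • E' v := smul_nonneg (Nat.zero_le _) this
      linarith
    · intro v
      have := G.nonneg v
      simp only [Finsupp.coe_zero, Pi.zero_apply] at this
      simp only [Finsupp.coe_sub, Pi.sub_apply, Finsupp.coe_smul, Pi.smul_apply, Finsupp.coe_add,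
        Pi.add_apply, smul_add]
      have h2 : 0 ≤ n • E v := smul_nonneg (Nat.zero_le _) this
      linarith

/-- The reduction of the normalised difference lies in the reduction of `L(n(E + E'))`. -/
theorem res_mem_red_add {E E' : Divisor K F} (G : Glue R p E E') {n : ℕ} (hn : 0 < n) {f : F}
    {D : Divisor K F} (hfD : IsRoot p f D) (hfΛ : f ∈ R.Λ) (hf1 : R.res f = 1) {z : F}
    (hz : z ∈ R.Λ) (hzV : z ∈ riemannRochSpace (n • (E + E') - D)) :
    R.res z ∈ R.red (riemannRochSpace (n • (E + E'))) := by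
  have hbig : 2 * (genusFF K F : ℤ) - 2 < Divisor.degree (n • (E + E')) := by
    rw [map_nsmul, nsmul_eq_mul, map_add]
    have h1 : 0 ≤ Divisor.degree E := degree_nonneg G.nonneg
    have h1' : 0 ≤ Divisor.degree E' := degree_nonneg G.nonneg'
    have h2 : (1 : ℤ) ≤ n := by exact_mod_cast hn
    nlinarith [G.big]
  rw [← red_twist G.bases hbig (fun t ht => G.root'' n hn t (by rwa [smul_smul] at ht)) hfD hfΛ
    hf1]
  exact R.res_mem_red hzV hz

/-- Twisted reductions. -/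
theorem mem_red_twist {E E' : Divisor K F} (G : Glue R p E E') {n : ℕ} (hn : 0 < n) {f : F}
    {D : Divisor K F} (hfD : IsRoot p f D) (hfΛ : f ∈ R.Λ) (hf1 : R.res f = 1) {u : Fk} :
    (u ∈ R.red (riemannRochSpace (n • E)) → u ∈ R.red (riemannRochSpace (n • E - D))) ∧
    (u ∈ R.red (riemannRochSpace (n • E')) → u ∈ R.red (riemannRochSpace (n • E' - D))) := by
  have h2 : (1 : ℤ) ≤ n := by exact_mod_cast hn
  constructor
  · intro hu
    rw [red_twist G.bases ?_ (fun t ht => G.root n hn t (by rwa [smul_smul] at ht)) hfD hfΛ hf1]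
    · exact hu
    · rw [map_nsmul, nsmul_eq_mul]
      have h1 : 0 ≤ Divisor.degree E := degree_nonneg G.nonneg
      nlinarith [G.big]
  · intro hu
    rw [red_twist G.bases ?_ (fun t ht => G.root' n hn t (by rwa [smul_smul] at ht)) hfD hfΛ hf1]
    · exact hu
    · rw [map_nsmul, nsmul_eq_mul]
      have h1 : 0 ≤ Divisor.degree E' := degree_nonneg G.nonneg'
      nlinarith [G.big']

/-- **Lemma I.** If a class has a pair of sections closer than `|ϖ|`, where `|ϖ| ^ (p-1) = |p|`,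
it is trivial. -/
theorem isPrincipal_of_close {E E' : Divisor K F} (G : Glue R p E E') {n : ℕ} (hn : 0 < n) {ϖ : K}
    (hϖ : A.valuation ϖ ^ (p - 1) = A.valuation (p : K)) {f : F}
    {D : Divisor K F} (hfD : IsRoot p f D) (hfΛ : f ∈ R.Λ) (hf1 : R.res f = 1) {h₀ h₀' : F}
    (hP₀ : IsPair R (n • E) (n • E') D h₀ h₀') (hclose : R.nrm (h₀ - h₀') < A.valuation ϖ) :
    Divisor.IsPrincipal D := by
  by_contra hnp
  have hp := hpf.out
  obtain ⟨h, h', hP, hle, hmin, c, hc, hc1, hnc, z, hzΛ, hz, hzV⟩ := exists_closest G hfD hnp hP₀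
  have hcA : c ∈ A := (A.valuation_le_one_iff c).mp hc1.le
  have hcpos : (0 : A.ValueGroup) < A.valuation c :=
    zero_lt_iff.mpr ((Valuation.ne_zero_iff _).mpr hc)
  have hcϖ : A.valuation c < A.valuation ϖ := by rw [← hnc]; exact hle.trans_lt hclose
  have hp1 : p - 1 ≠ 0 := by have := hp.two_le; omega
  have hcp : A.valuation c ^ (p - 1) < A.valuation (p : K) := by
    rw [← hϖ]
    exact pow_lt_pow_left₀ hcϖ (zero_le) hp1
  have hp0 : (p : K) ≠ 0 := by
    intro h0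
    rw [h0, map_zero] at hcp
    exact not_lt_zero hcp
  have hppos : (0 : A.ValueGroup) < A.valuation (p : K) :=
    zero_lt_iff.mpr ((Valuation.ne_zero_iff _).mpr hp0)
  have hfinv : f⁻¹ ∈ R.Λ := R.inv_mem hfΛ hf1
  obtain ⟨q, hq, hbin⟩ := exists_binom hp hP.int' hzΛ hcA
  have hhz : h = h' + algebraMap K F c * z := by rw [← hz]; ring
  -- `s`
  have hcpA : A.valuation (c ^ (p - 1) / p) < 1 := by
    rw [map_div₀, map_pow]
    exact (div_lt_one₀ hppos).mpr hcp
  set s : F := f⁻¹ * (h' ^ (p - 1) * z + algebraMap K F c * (z ^ 2 * q) +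
    algebraMap K F (c ^ (p - 1) / p) * z ^ p) with hs
  have m1 : h' ^ (p - 1) * z ∈ R.Λ := R.Λ.mul_mem (R.Λ.pow_mem hP.int' _) hzΛ
  have m2 : algebraMap K F c * (z ^ 2 * q) ∈ R.Λ :=
    R.Λ.mul_mem (R.const_mem hcA) (R.Λ.mul_mem (R.Λ.pow_mem hzΛ _) hq)
  have m3 : algebraMap K F (c ^ (p - 1) / p) * z ^ p ∈ R.Λ :=
    R.Λ.mul_mem (R.const_mem ((A.valuation_le_one_iff _).mp hcpA.le)) (R.Λ.pow_mem hzΛ _)
  have hsΛ : s ∈ R.Λ := R.Λ.mul_mem hfinv (R.Λ.add_mem (R.Λ.add_mem m1 m2) m3)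
  have hsres : R.res s = R.res z := by
    rw [hs, R.res_mul hfinv (R.Λ.add_mem (R.Λ.add_mem m1 m2) m3), R.res_inv hfΛ hf1, one_mul,
      R.res_add (R.Λ.add_mem m1 m2) m3, R.res_add m1 m2,
      R.res_const_mul_eq_zero hc1 (R.Λ.mul_mem (R.Λ.pow_mem hzΛ _) hq),
      R.res_const_mul_eq_zero hcpA (R.Λ.pow_mem hzΛ _),
      R.res_mul (R.Λ.pow_mem hP.int' _) hzΛ, R.res_pow hP.int', hP.res', one_pow, one_mul,
      add_zero, add_zero]
  have hdiff : h ^ p / f - h' ^ p / f = algebraMap K F (p * c) * s := by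
    have hpp : c ^ p = p * c * (c ^ (p - 1) / p) := by
      rw [mul_comm (p : K) c, mul_assoc, mul_div_cancel₀ _ hp0, ← pow_succ',
        Nat.sub_add_cancel hp.pos]
    have hcc : (p : K) * c ^ 2 = p * c * c := by ring
    rw [hhz, hbin, hpp, hcc, hs]
    simp only [map_mul]
    field_simp
    ring
  obtain ⟨κ, r, r', hκ, hrV, hrV', hrΛ, hrΛ', -, -, hrr⟩ := exists_rescale G hn hfD hfΛ hf1 hP
    (mul_ne_zero hp0 hc) hsΛ hdiff
  rw [hsres] at hrr
  obtain ⟨h1, h2⟩ := G.split n hn (R.res r) (R.res_mem_red hrV hrΛ) (R.res r')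
    (R.res_mem_red hrV' hrΛ') (by
      rw [hrr]
      exact res_mem_red_add G hn hfD hfΛ hf1 hzΛ hzV)
  obtain ⟨g, g', hg, hlt⟩ := hP.improve hc hc1 hzΛ hz ((mem_red_twist G hn hfD hfΛ hf1).1 h1)
    ((mem_red_twist G hn hfD hfΛ hf1).2 h2) hrr.symm
  exact absurd (hmin g g' hg) (by rw [hnc, not_le]; exact hlt)

/-- If `h ^ p ≡ 1` modulo `c ^ p`, `|c| > |ϖ|`, then `h = 1 + c t`. -/
theorem exists_eq_one_add {c : K} (hc : c ≠ 0)
    (hcp : A.valuation (p : K) < A.valuation c ^ (p - 1)) {h : F} (hΛ : h ∈ R.Λ) {y : F} (hy : y ∈ R.Λ) (hpow : h ^ p = 1 + algebraMap K F (c ^ p) * y) :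
    ∃ t ∈ R.Λ, h = 1 + algebraMap K F c * t ∧ R.res t ^ p = R.res y := by
  have hp := hpf.out
  have hcpos : (0 : A.ValueGroup) < A.valuation c :=
    zero_lt_iff.mpr ((Valuation.ne_zero_iff _).mpr hc)
  have h1Λ : h - 1 ∈ R.Λ := R.Λ.sub_mem hΛ R.Λ.one_mem
  -- `(1 + y)^p = 1 + y^p + p y s`
  obtain ⟨s, hs⟩ := exists_add_pow_prime_eq hp (1 : R.Λ) ⟨h - 1, h1Λ⟩
  have hs' : h ^ p = 1 + (h - 1) ^ p + p * (h - 1) * s := by
    have := congrArg (Subtype.val) hs
    push_cast at this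
    rw [add_sub_cancel] at this
    rw [this]
    ring
  have hle : R.nrm (h - 1) ≤ A.valuation c := by
    by_contra hlt
    rw [not_le] at hlt
    have e1 : (h - 1) ^ p = algebraMap K F (c ^ p) * y - algebraMap K F (p : K) * ((h - 1) * s) := by
      have : algebraMap K F (p : K) = (p : F) := map_natCast _ p
      rw [this]
      linear_combination hpow - hs'
    have e2 : R.nrm (h - 1) ^ p ≤ max (A.valuation c ^ p) (A.valuation (p : K) * R.nrm (h - 1)) := by
      rw [← R.nrm_pow, e1]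
      refine (R.nrm_sub_le _ _).trans (max_le_max ?_ ?_)
      · rw [← map_pow]
        exact R.nrm_mul_le_of_mem _ hy
      · rw [R.nrm_const_mul]
        gcongr
        refine (R.nrm_mul_le _ _).trans ?_
        calc R.nrm (h - 1) * R.nrm s ≤ R.nrm (h - 1) * 1 := by
              gcongr
              exact R.nrm_le_one_iff.mpr s.2
          _ = R.nrm (h - 1) := mul_one _
    have hnpos : (0 : A.ValueGroup) < R.nrm (h - 1) := hcpos.trans hlt
    rcases le_max_iff.mp e2 with h3 | h3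
    · exact absurd h3 (not_le.mpr (pow_lt_pow_left₀ hlt (zero_le) hp.ne_zero))
    · have h4 : R.nrm (h - 1) ^ (p - 1) ≤ A.valuation (p : K) := by
        have h5 : R.nrm (h - 1) ^ p = R.nrm (h - 1) ^ (p - 1) * R.nrm (h - 1) := by
          rw [← pow_succ, Nat.sub_add_cancel hp.pos]
        rw [h5] at h3
        exact le_of_mul_le_mul_right h3 hnpos
      have h6 : A.valuation c ^ (p - 1) ≤ R.nrm (h - 1) ^ (p - 1) :=
        pow_le_pow_left₀ (zero_le) hlt.le _
      exact absurd (h6.trans h4) (not_le.mpr hcp)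
  obtain ⟨t, htΛ, ht⟩ := R.exists_eq_mul_of_nrm_le hc hle
  refine ⟨t, htΛ, by rw [← ht]; ring, ?_⟩
  -- `t ^ p = y - (p / c^(p-1)) t s`
  have hcpne : c ^ (p - 1) ≠ 0 := pow_ne_zero _ hc
  have hcpv : A.valuation ((p : K) / c ^ (p - 1)) < 1 := by
    rw [map_div₀, map_pow]
    exact (div_lt_one₀ (pow_pos hcpos _)).mpr hcp
  have hcF : algebraMap K F c ≠ 0 := (map_ne_zero _).mpr hc
  have e3 : t ^ p = y - algebraMap K F ((p : K) / c ^ (p - 1)) * (t * s) := by
    have e4 : algebraMap K F (c ^ p) * t ^ p = algebraMap K F (c ^ p) * y -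
        algebraMap K F (p * c) * (t * s) := by
      have e5 : (h - 1) ^ p = algebraMap K F (c ^ p) * t ^ p := by rw [ht, mul_pow, map_pow]
      have e6 : algebraMap K F (p : K) = (p : F) := map_natCast _ p
      rw [← e5, map_mul, e6]
      have e7 : (p : F) * algebraMap K F c * (t * s) = p * (h - 1) * s := by rw [ht]; ring
      rw [e7]
      linear_combination hpow - hs'
    have e8 : algebraMap K F (p * c) = algebraMap K F (c ^ p) *
        algebraMap K F ((p : K) / c ^ (p - 1)) := by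
      rw [← map_mul]
      congr 1
      have : c ^ p = c ^ (p - 1) * c := by rw [← pow_succ, Nat.sub_add_cancel hp.pos]
      rw [this]
      field_simp
    have hcpF : algebraMap K F (c ^ p) ≠ 0 := (map_ne_zero _).mpr (pow_ne_zero _ hc)
    apply mul_left_cancel₀ hcpF
    rw [e4, e8]
    ring
  rw [← R.res_pow htΛ, e3, R.res_sub hy (R.Λ.mul_mem (R.const_mem
    ((A.valuation_le_one_iff _).mp hcpv.le)) (R.Λ.mul_mem htΛ s.2)),
    R.res_const_mul_eq_zero hcpv (R.Λ.mul_mem htΛ s.2), sub_zero]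

/-- **Lemma II.** A locally trivial class has a pair of sections at distance at most `|ϖ|`. -/
theorem exists_close_pair {E E' : Divisor K F} (G : Glue R p E E') {n : ℕ} (hn : 0 < n) {ϖ : K}
    (hϖ0 : ϖ ≠ 0) (hϖ1 : A.valuation ϖ < 1)
    (hϖ : A.valuation ϖ ^ (p - 1) = A.valuation (p : K)) {f : F}
    {D : Divisor K F} (hfD : IsRoot p f D) (hloc : R.nrm (f - 1) ≤ A.valuation ϖ ^ p) :
    ∃ h h', IsPair R (n • E) (n • E') D h h' ∧ R.nrm (h - h') ≤ A.valuation ϖ := by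
  have hp := hpf.out
  have hϖpos : (0 : A.ValueGroup) < A.valuation ϖ :=
    zero_lt_iff.mpr ((Valuation.ne_zero_iff _).mpr hϖ0)
  have hϖp1 : A.valuation ϖ ^ p < 1 := pow_lt_one₀ (zero_le) hϖ1 hp.ne_zero
  have hf1' : f - 1 ∈ R.Λ ∧ R.res (f - 1) = 0 := R.nrm_lt_one_iff.mp (hloc.trans_lt hϖp1)
  have hfΛ : f ∈ R.Λ := by
    have := R.Λ.add_mem hf1'.1 R.Λ.one_mem
    rwa [sub_add_cancel] at this
  have hf1 : R.res f = 1 := by
    have := hf1'.2
    rw [R.res_sub hfΛ R.Λ.one_mem, R.res_one, sub_eq_zero] at this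
    exact this
  by_cases hnp : Divisor.IsPrincipal D
  · obtain ⟨g, hg0, hfg, hDg⟩ := hfD.exists_pow hp.pos hnp
    have hgn : R.nrm g ^ p = 1 := by
      rw [← R.nrm_pow, ← hfg, ← one_mul f, mul_comm, R.nrm_mul_of_res_eq_one hfΛ hf1, R.nrm_one]
    have hg1 : R.nrm g = 1 := (pow_eq_one_iff.mp hgn).resolve_right hp.ne_zero
    have hgΛ : g ∈ R.Λ := R.nrm_le_one_iff.mp hg1.le
    have hgr : R.res g = 1 := eq_one_of_pow_eq_one p (by rw [← R.res_pow hgΛ, ← hfg, hf1])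
    have hmem : ∀ B : Divisor K F, 0 ≤ B → g ∈ riemannRochSpace (B - D) := by
      intro B hB
      rw [mem_riemannRochSpace_iff]
      intro v
      right
      have := hB v
      simp only [Finsupp.coe_zero, Pi.zero_apply] at this
      simp only [Finsupp.coe_sub, Pi.sub_apply, hDg v]
      linarith
    refine ⟨g, g, ⟨hmem _ (smul_nonneg (Nat.zero_le _) G.nonneg),
      hmem _ (smul_nonneg (Nat.zero_le _) G.nonneg'), hgΛ, hgΛ, hgr, hgr⟩, ?_⟩
    rw [sub_self, R.nrm_zero]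
    exact zero_le
  obtain ⟨h₀, h₀', hP₀⟩ := exists_pair G hn hfD hfΛ hf1
  obtain ⟨h, h', hP, hle, hmin, c, hc, hc1, hnc, z, hzΛ, hz, hzV⟩ := exists_closest G hfD hnp hP₀
  refine ⟨h, h', hP, ?_⟩
  by_contra hlt
  rw [not_le, hnc] at hlt
  have hcA : c ∈ A := (A.valuation_le_one_iff c).mp hc1.le
  have hcpos : (0 : A.ValueGroup) < A.valuation c :=
    zero_lt_iff.mpr ((Valuation.ne_zero_iff _).mpr hc)
  have hp1 : p - 1 ≠ 0 := by have := hp.two_le; omega
  have hcp : A.valuation (p : K) < A.valuation c ^ (p - 1) := by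
    rw [← hϖ]
    exact pow_lt_pow_left₀ hlt (zero_le) hp1
  have hfinv : f⁻¹ ∈ R.Λ := R.inv_mem hfΛ hf1
  obtain ⟨q, hq, hbin⟩ := exists_binom hp hP.int' hzΛ hcA
  have hhz : h = h' + algebraMap K F c * z := by rw [← hz]; ring
  have hcpv : A.valuation ((p : K) / c ^ (p - 1)) < 1 := by
    rw [map_div₀, map_pow]
    exact (div_lt_one₀ (pow_pos hcpos _)).mpr hcp
  -- `s`
  have m1 : h' ^ (p - 1) * z + algebraMap K F c * (z ^ 2 * q) ∈ R.Λ :=
    R.Λ.add_mem (R.Λ.mul_mem (R.Λ.pow_mem hP.int' _) hzΛ)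
      (R.Λ.mul_mem (R.const_mem hcA) (R.Λ.mul_mem (R.Λ.pow_mem hzΛ _) hq))
  set s : F := f⁻¹ * (algebraMap K F ((p : K) / c ^ (p - 1)) *
    (h' ^ (p - 1) * z + algebraMap K F c * (z ^ 2 * q)) + z ^ p) with hs
  have m2 : algebraMap K F ((p : K) / c ^ (p - 1)) *
      (h' ^ (p - 1) * z + algebraMap K F c * (z ^ 2 * q)) ∈ R.Λ :=
    R.Λ.mul_mem (R.const_mem ((A.valuation_le_one_iff _).mp hcpv.le)) m1
  have m3 : z ^ p ∈ R.Λ := R.Λ.pow_mem hzΛ p
  have hsΛ : s ∈ R.Λ := R.Λ.mul_mem hfinv (R.Λ.add_mem m2 m3)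
  have hdiff : h ^ p / f - h' ^ p / f = algebraMap K F (c ^ p) * s := by
    have e1 : (p : K) * c = c ^ p * ((p : K) / c ^ (p - 1)) := by
      have : c ^ p = c ^ (p - 1) * c := by rw [← pow_succ, Nat.sub_add_cancel hp.pos]
      rw [this]
      field_simp
    have e2 : (p : K) * c ^ 2 = c ^ p * ((p : K) / c ^ (p - 1)) * c := by
      rw [← e1]; ring
    rw [hhz, hbin, e2, e1, hs]
    simp only [map_mul]
    field_simp
    ring
  obtain ⟨κ, r, r', hκ, hrV, hrV', hrΛ, hrΛ', hr1, hr1', hrr⟩ := exists_rescale G hn hfD hfΛ hf1 hP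
    (pow_ne_zero p hc) hsΛ hdiff
  -- `κ` is a unit congruent to `1`
  have hκ1 : A.valuation κ = 1 := by
    have : κ = 1 + (κ - 1) := by ring
    rw [this, Valuation.map_add_eq_of_lt_left _ (by rwa [map_one]), map_one]
  have hκA : κ ∈ A := (A.valuation_le_one_iff κ).mp hκ1.le
  have hπκ : π ⟨κ, hκA⟩ = 1 := by
    have h3 := (res_eq_zero_iff R.surj (⟨κ, hκA⟩ - 1)).mpr (by simpa using hκ)
    rwa [map_sub, map_one, sub_eq_zero] at h3
  -- the rescaled sections
  have key : ∀ {g r : F}, g ∈ R.Λ → r ∈ R.Λ →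
      algebraMap K F (κ ^ p) * (g ^ p / f) = 1 + algebraMap K F (c ^ p) * r →
      ∃ t ∈ R.Λ, κ • g = 1 + algebraMap K F c * t ∧ R.res t ^ p = R.res r := by
    intro g r hgΛ hrΛ hgr
    have hκg : κ • g ∈ R.Λ := R.smul_mem hκA hgΛ
    -- `f - 1 = c^p * w` with `res w = 0`
    have hcppos : (0 : A.ValueGroup) < A.valuation c ^ p := pow_pos hcpos _
    have hflt : R.nrm (f - 1) < A.valuation (c ^ p) := by
      rw [map_pow]
      exact hloc.trans_lt (pow_lt_pow_left₀ hlt (zero_le) hp.ne_zero)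
    obtain ⟨w, hwΛ, hw⟩ := R.exists_eq_mul_of_nrm_le (pow_ne_zero p hc) hflt.le
    have hw0 : R.res w = 0 := by
      have : R.nrm w < 1 := by
        rw [hw, R.nrm_const_mul, map_pow] at hflt
        by_contra h3
        rw [not_lt] at h3
        exact absurd hflt (not_lt.mpr (le_mul_of_one_le_right (zero_le) h3))
      exact (R.nrm_lt_one_iff.mp this).2
    have hpow : (κ • g) ^ p = 1 + algebraMap K F (c ^ p) * (w + f * r) := by
      have e1 : (κ • g) ^ p = f * (algebraMap K F (κ ^ p) * (g ^ p / f)) := by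
        rw [smul_pow, Algebra.smul_def]
        field_simp [hfD.1]
      rw [e1, hgr]
      linear_combination hw
    obtain ⟨t, htΛ, ht, htp⟩ := exists_eq_one_add hc hcp hκg
      (R.Λ.add_mem hwΛ (R.Λ.mul_mem hfΛ hrΛ)) hpow
    refine ⟨t, htΛ, ht, ?_⟩
    rw [htp, R.res_add hwΛ (R.Λ.mul_mem hfΛ hrΛ), hw0, R.res_mul hfΛ hrΛ, hf1, one_mul, zero_add]
  obtain ⟨t, htΛ, ht, htp⟩ := key hP.int hrΛ hr1
  obtain ⟨t', htΛ', ht', htp'⟩ := key hP.int' hrΛ' hr1'
  have h1 : R.res t ∈ R.red (riemannRochSpace (n • E)) :=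
    G.root n hn _ (by rw [htp]; exact R.res_mem_red hrV hrΛ)
  have h2 : R.res t' ∈ R.red (riemannRochSpace (n • E')) :=
    G.root' n hn _ (by rw [htp']; exact R.res_mem_red hrV' hrΛ')
  have hzt : R.res z = R.res t - R.res t' := by
    have e1 : κ • z = t - t' := by
      have hcF : algebraMap K F c ≠ 0 := (map_ne_zero _).mpr hc
      apply mul_left_cancel₀ hcF
      have e2 : κ • (h - h') = algebraMap K F c * (t - t') := by
        rw [smul_sub, ht, ht']; ring
      rw [← e2, hz, Algebra.smul_def, Algebra.smul_def]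
      ring
    rw [← R.res_sub htΛ htΛ', ← e1, R.res_smul hκA hzΛ, hπκ, one_smul]
  obtain ⟨g, g', hg, hglt⟩ := hP.improve hc hc1 hzΛ hz ((mem_red_twist G hn hfD hfΛ hf1).1 h1)
    ((mem_red_twist G hn hfD hfΛ hf1).2 h2) hzt
  exact absurd (hmin g g' hg) (by rw [hnc, not_le]; exact hglt)

/-- A `p`-th root of a divisor. -/
theorem exists_isRoot {f : F} (hf : f ≠ 0) (hdvd : ∀ v : Place K F, (p : ℤ) ∣ v.ord f) :
    ∃ D : Divisor K F, IsRoot p f D := by
  refine ⟨(divOf f : Divisor K F).mapRange (fun n => n / p) (by simp), hf, fun v => ?_⟩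
  rw [Finsupp.mapRange_apply, divOf_apply]
  exact (Int.mul_ediv_cancel' (hdvd v)).symm

/-- **Multiplicativity.** Inertia acts on a locally trivial `p`-torsion class through the
cyclotomic character. -/
theorem exists_pow_eq_of_inertia {E E' : Divisor K F} (G : Glue R p E E') {ϖ : K}
    (hϖ0 : ϖ ≠ 0) (hϖ1 : A.valuation ϖ < 1)
    (hϖ : A.valuation ϖ ^ (p - 1) = A.valuation (p : K)) (τK : K →+* K) (τ : F →+* F)
    (hτK : ∀ c : K, τ (algebraMap K F c) = algebraMap K F (τK c))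
    (hτΛ : ∀ w ∈ R.Λ, τ w ∈ R.Λ ∧ R.res (τ w) = R.res w)
    (hτE : ∀ n : ℕ, ∀ w ∈ riemannRochSpace (n • E), τ w ∈ riemannRochSpace (n • E))
    (hτE' : ∀ n : ℕ, ∀ w ∈ riemannRochSpace (n • E'), τ w ∈ riemannRochSpace (n • E'))
    {b : ℕ} (hb : A.valuation (τK ϖ / ϖ + b) < 1) {f : F} (hf0 : f ≠ 0)
    (hdvd : ∀ v : Place K F, (p : ℤ) ∣ v.ord f) (hdvd' : ∀ v : Place K F, (p : ℤ) ∣ v.ord (τ f))
    (hloc : R.nrm (f - 1) ≤ A.valuation ϖ ^ p) :
    ∃ g : F, g ≠ 0 ∧ τ f * f ^ b = g ^ p := by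
  have hp := hpf.out
  obtain ⟨D, hfD⟩ := exists_isRoot hf0 hdvd
  have hτf0 : τ f ≠ 0 := (map_ne_zero τ).mpr hf0
  obtain ⟨Dτ, hfDτ⟩ := exists_isRoot hτf0 hdvd'
  have hϖp1 : A.valuation ϖ ^ p < 1 := pow_lt_one₀ (zero_le) hϖ1 hp.ne_zero
  have hf1' : f - 1 ∈ R.Λ ∧ R.res (f - 1) = 0 := R.nrm_lt_one_iff.mp (hloc.trans_lt hϖp1)
  have hfΛ : f ∈ R.Λ := by
    have := R.Λ.add_mem hf1'.1 R.Λ.one_mem
    rwa [sub_add_cancel] at this
  have hf1 : R.res f = 1 := by
    have := hf1'.2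
    rw [R.res_sub hfΛ R.Λ.one_mem, R.res_one, sub_eq_zero] at this
    exact this
  obtain ⟨h, h', hP, hd⟩ := exists_close_pair G one_pos hϖ0 hϖ1 hϖ hfD hloc
  rw [one_smul, one_smul] at hP
  obtain ⟨z, hzΛ, hz⟩ := R.exists_eq_mul_of_nrm_le hϖ0 hd
  -- the new class
  set f₀ : F := τ f * f ^ b with hf₀
  set D₀ : Divisor K F := Dτ + b • D with hD₀
  have hroot : IsRoot p f₀ D₀ := by
    refine ⟨mul_ne_zero hτf0 (pow_ne_zero _ hf0), fun v => ?_⟩
    rw [hf₀, v.ord_mul hτf0 (pow_ne_zero _ hf0), ord_pow, hfDτ.2 v, hfD.2 v, hD₀]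
    simp only [Finsupp.add_apply, Finsupp.smul_apply, nsmul_eq_mul]
    ring
  have hf₀Λ : f₀ ∈ R.Λ := R.Λ.mul_mem (hτΛ f hfΛ).1 (R.Λ.pow_mem hfΛ b)
  have hf₀1 : R.res f₀ = 1 := by
    rw [hf₀, R.res_mul (hτΛ f hfΛ).1 (R.Λ.pow_mem hfΛ b), (hτΛ f hfΛ).2, R.res_pow hfΛ, hf1,
      one_pow, one_mul]
  have hmem : ∀ {B : Divisor K F} {g : F},
      (∀ n : ℕ, ∀ w ∈ riemannRochSpace (n • B), τ w ∈ riemannRochSpace (n • B)) →
      g ∈ riemannRochSpace (B - D) → τ g * g ^ b ∈ riemannRochSpace ((1 + b) • B - D₀) := by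
    intro B g hB hg
    rw [hroot.mem_iff hp.pos]
    have h1 := (hfD.mem_iff hp.pos B g).mp hg
    have h2 := hB p _ h1
    have h3 := mul_mem_rr h2 (pow_mem_rr h1 b)
    have e1 : (τ g * g ^ b) ^ p / f₀ = τ (g ^ p / f) * (g ^ p / f) ^ b := by
      rw [hf₀, map_div₀, map_pow, div_pow, mul_pow]
      field_simp
      ring
    have e2 : p • (1 + b) • B = p • B + b • p • B := by
      rw [smul_smul, smul_smul, ← add_smul]
      congr 1
      ring
    rw [e1, e2]
    exact h3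
  have hres1 : R.res (τ h * h ^ b) = 1 := by
    rw [R.res_mul (hτΛ h hP.int).1 (R.Λ.pow_mem hP.int b), (hτΛ h hP.int).2, R.res_pow hP.int,
      hP.res, one_pow, one_mul]
  have hres1' : R.res (τ h' * h' ^ b) = 1 := by
    rw [R.res_mul (hτΛ h' hP.int').1 (R.Λ.pow_mem hP.int' b), (hτΛ h' hP.int').2,
      R.res_pow hP.int', hP.res', one_pow, one_mul]
  have hP₀ : IsPair R ((1 + b) • E) ((1 + b) • E') D₀ (τ h * h ^ b) (τ h' * h' ^ b) :=
    ⟨hmem hτE hP.mem, hmem hτE' hP.mem', R.Λ.mul_mem (hτΛ h hP.int).1 (R.Λ.pow_mem hP.int b),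
      R.Λ.mul_mem (hτΛ h' hP.int').1 (R.Λ.pow_mem hP.int' b), hres1, hres1'⟩
  -- its distance
  set ε : K := τK ϖ / ϖ with hε
  have hbA : ((b : K)) ∈ A := natCast_mem A b
  have hεA : ε ∈ A := by
    have h1 : ε + b ∈ A := (A.valuation_le_one_iff _).mp hb.le
    have := sub_mem h1 hbA
    rwa [add_sub_cancel_right] at this
  have hπε : π ⟨ε, hεA⟩ + b = 0 := by
    have h1 := (res_eq_zero_iff R.surj (⟨ε, hεA⟩ + (b : A))).mpr (by simpa using hb)
    rwa [map_add, map_natCast] at h1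
  set S : F := ∑ i ∈ Finset.range b, h ^ i * h' ^ (b - 1 - i) with hS
  have hSΛ' : ∀ i ∈ Finset.range b, h ^ i * h' ^ (b - 1 - i) ∈ R.Λ := fun i _ =>
    R.Λ.mul_mem (R.Λ.pow_mem hP.int i) (R.Λ.pow_mem hP.int' _)
  have hSΛ : S ∈ R.Λ := R.Λ.sum_mem hSΛ'
  have hSres : R.res S = b := by
    rw [hS, R.res_sum _ _ hSΛ']
    have : ∀ i ∈ Finset.range b, R.res (h ^ i * h' ^ (b - 1 - i)) = 1 := fun i _ => by
      rw [R.res_mul (R.Λ.pow_mem hP.int i) (R.Λ.pow_mem hP.int' _), R.res_pow hP.int,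
        R.res_pow hP.int', hP.res, hP.res', one_pow, one_pow, one_mul]
    rw [Finset.sum_congr rfl this]
    simp
  have hgeom : S * (h - h') = h ^ b - h' ^ b := by
    rw [hS]
    exact (Commute.all h h').geom_sum₂_mul b
  set Z : F := algebraMap K F ε * (τ z * h ^ b) + τ h' * (z * S) with hZ
  have m1 : τ z * h ^ b ∈ R.Λ := R.Λ.mul_mem (hτΛ z hzΛ).1 (R.Λ.pow_mem hP.int b)
  have m2 : algebraMap K F ε * (τ z * h ^ b) ∈ R.Λ := R.Λ.mul_mem (R.const_mem hεA) m1
  have m3 : τ h' * (z * S) ∈ R.Λ := R.Λ.mul_mem (hτΛ h' hP.int').1 (R.Λ.mul_mem hzΛ hSΛ)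
  have hZΛ : Z ∈ R.Λ := R.Λ.add_mem m2 m3
  have hZres : R.res Z = 0 := by
    rw [hZ, R.res_add m2 m3, R.res_mul (R.const_mem hεA) m1, R.res_const hεA,
      R.res_mul (hτΛ z hzΛ).1 (R.Λ.pow_mem hP.int b), (hτΛ z hzΛ).2, R.res_pow hP.int, hP.res,
      one_pow, mul_one, R.res_mul (hτΛ h' hP.int').1 (R.Λ.mul_mem hzΛ hSΛ), (hτΛ h' hP.int').2,
      hP.res', one_mul, R.res_mul hzΛ hSΛ, hSres]
    have e1 : (b : Fk) = algebraMap k Fk (b : k) := (map_natCast _ b).symm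
    have e2 : (b : k) = - π ⟨ε, hεA⟩ := by rw [eq_neg_iff_add_eq_zero, add_comm]; exact hπε
    rw [e1, e2, map_neg]
    ring
  have hZeq : τ h * h ^ b - τ h' * h' ^ b = algebraMap K F ϖ * Z := by
    have e1 : τ h = τ h' + algebraMap K F (τK ϖ) * τ z := by
      have : h = h' + algebraMap K F ϖ * z := by rw [← hz]; ring
      conv_lhs => rw [this]
      rw [map_add, map_mul, hτK]
    have e2 : algebraMap K F (τK ϖ) = algebraMap K F ϖ * algebraMap K F ε := by
      rw [← map_mul, hε, mul_div_cancel₀ _ hϖ0]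
    have e3 : h' ^ b = h ^ b - S * (algebraMap K F ϖ * z) := by
      rw [← hz, hgeom]; ring
    rw [e1, e2, e3, hZ]
    ring
  have hclose : R.nrm (τ h * h ^ b - τ h' * h' ^ b) < A.valuation ϖ := by
    have hϖpos : (0 : A.ValueGroup) < A.valuation ϖ :=
      zero_lt_iff.mpr ((Valuation.ne_zero_iff _).mpr hϖ0)
    rw [hZeq, R.nrm_const_mul]
    exact mul_lt_of_lt_one_right hϖpos (R.nrm_lt_one_iff.mpr ⟨hZΛ, hZres⟩)
  have hpr := isPrincipal_of_close G (by omega : 0 < 1 + b) hϖ hroot hf₀Λ hf₀1 hP₀ hclose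
  obtain ⟨g, hg0, hg, -⟩ := hroot.exists_pow hp.pos hpr
  exact ⟨g, hg0, hg⟩

end Fermat.Agent.DR.Ord
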