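import Fermat.Agent.DR.Ord.NormEst
import Fermat.Agent.DR.Mod.Final
import Fermat.Agent.DR.S36.Statement
import Fermat.Agent.JRED.AtkinLehnerInput
import Fermat.Agent.JRED.Main
import Fermat.Agent.RH.ModularGenus
import Fermat.Agent.Flat.LiftInv

/-!
# The modular instance: inertia at `p` on the `p`-new toric classes of `J₀(Mp)[p]`
-/

set_option autoImplicit false
set_option linter.unusedSectionVars false

noncomputable section

open ModularCurve AlgebraicCurve Fermat.Agent.RR Fermat.Agent.S28 Fermat.Agent.JRED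
  Fermat.Agent.JRED.ES Fermat.Agent.Jan.HeckeNorm Fermat.Agent.Jan.HeckeInputs
  Fermat.Agent.DR.S36 Fermat.Agent.DR.Mod

namespace Fermat.Agent.DR.Ord

/-! ### Archimedean valuations -/

theorem isArch_of_rankOne {K : Type*} [Field K] {A : ValuationSubring K}
    (h : PairShift.RankOne A) : IsArch A := by
  intro γ δ hγ hδ
  obtain ⟨t, rfl⟩ := A.valuation_surjective γ
  obtain ⟨d, rfl⟩ := A.valuation_surjective δ
  have hd0 : d ≠ 0 := by
    rintro rfl
    exact hδ (map_zero _)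
  obtain ⟨n, hn⟩ := h t hγ d⁻¹
  refine ⟨n, ?_⟩
  rw [map_mul, map_pow, map_inv₀] at hn
  have hpos : (0 : A.ValueGroup) < A.valuation d := zero_lt_iff.mpr hδ
  rw [inv_mul_lt_iff₀ hpos, mul_one] at hn
  exact hn.le

/-! ### Translating the coordinate of a nodal datum -/

section Translate

variable {K F k F₁ F₂ : Type*} [Field K] [Field F] [Algebra K F] [Field k] [Field F₁] [Field F₂]
  [Algebra k F₁] [Algebra k F₂] [HasPrincipalDivisors K F] [HasPrincipalDivisors k F₁]
  [HasPrincipalDivisors k F₂] {A : ValuationSubring K} {π : A →+* k}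

/-- Replace the coordinate `x` by `x - δ`, `δ` in the maximal ideal. -/
def translate (X : NodalDatum K F k F₁ F₂ A π) (δ : A) (hδ : π δ = 0) :
    NodalDatum K F k F₁ F₂ A π where
  R₁ := X.R₁
  R₂ := X.R₂
  ortho := X.ortho
  approx := X.approx
  shift := X.shift
  x := X.x - algebraMap K F δ
  x₁ := X.x₁
  x₂ := X.x₂
  red₁ := by
    have := RedDatum.sub X.red₁ (X.R₁.const δ)
    rwa [hδ, map_zero, sub_zero] at this
  red₂ := by
    have := RedDatum.sub X.red₂ (X.R₂.const δ)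
    rwa [hδ, map_zero, sub_zero] at this
  transcendental₁ := X.transcendental₁
  transcendental₂ := X.transcendental₂
  degree_eq := by rw [Nodes.polesOf_sub_algebraMap]; exact X.degree_eq
  nodes := X.nodes
  nodes_nonempty := X.nodes_nonempty
  injOn_fst := X.injOn_fst
  injOn_snd := X.injOn_snd
  ord_x₁ := X.ord_x₁
  ord_x₂ := X.ord_x₂
  mem₁ := by rw [Nodes.polesOf_sub_algebraMap]; exact X.mem₁
  mem₂ := by rw [Nodes.polesOf_sub_algebraMap]; exact X.mem₂
  glue := by rw [Nodes.polesOf_sub_algebraMap]; exact X.glue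
  genus_le := X.genus_le

theorem exists_translate_aux (X : NodalDatum K F k F₁ F₂ A π) (δ : A) (hδ : π δ = 0) :
    ∃ X' : NodalDatum K F k F₁ F₂ A π, X'.R₁ = X.R₁ ∧ X'.R₂ = X.R₂ ∧
      X'.x = X.x - algebraMap K F δ := ⟨translate X δ hδ, rfl, rfl, rfl⟩

end Translate

section Congr

variable {K F k F₁ F₂ : Type*} [Field K] [Field F] [Algebra K F] [Field k] [Field F₁] [Field F₂]
  [Algebra k F₁] [Algebra k F₂] [IsAlgClosed K] [IsAlgClosed k] [FunctionField K F]
  [FunctionField k F₁] [FunctionField k F₂] {A : ValuationSubring K} {π : A →+* k}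

theorem inTorus_congr {X X' : NodalDatum K F k F₁ F₂ A π} (h₁ : X'.R₁ = X.R₁)
    (h₂ : X'.R₂ = X.R₂) {m : ℕ} {x : Pic0 K F} (h : InTorus X m x) : InTorus X' m x := by
  obtain ⟨D, f, hD, H⟩ := h
  exact ⟨D, f, hD, ⟨H.pos, H.ne_zero, H.div_eq, by rw [h₁, h₂]; exact H.red, H.ne₁, H.ne₂⟩⟩

end Congr

section Modular

local notation "Qbar" => AlgebraicClosure ℚ

variable {A : ValuationSubring (AlgebraicClosure ℚ)} {k : Type} [Field k] {π : A →+* k}
  {M p : ℕ} [NeZero M] [hpf : Fact p.Prime] [ExpChar k p]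
  {w : laurentBaseChange (AlgebraicClosure ℚ) (modularFunctionFieldFull (M * p)) ≃ₐ[AlgebraicClosure ℚ]
      laurentBaseChange (AlgebraicClosure ℚ) (modularFunctionFieldFull (M * p))}

theorem isGauss_redOne (S : Setup π w) : IsGauss (redOne S) (inclL Qbar (M * p)) := by
  refine ⟨fun c => ?_, fun f => ⟨fun ⟨u, hu⟩ => ⟨u, hu⟩, fun ⟨u, hu⟩ => ?_⟩⟩
  · rw [inclL_apply, ← algebraMap_eq_C]; rfl
  · exact ⟨⟨u, S.mem_full_of_red1 hu⟩, hu⟩

theorem isGauss_redTwo (S : Setup π w) :
    IsGauss (redTwo S) ((inclL Qbar (M * p)).comp (w : _ →+* _)) := by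
  refine ⟨fun c => ?_, fun f => ⟨fun ⟨u, hu⟩ => ⟨u, hu⟩, fun ⟨u, hu⟩ => ?_⟩⟩
  · rw [RingHom.comp_apply, inclL_apply, ← algebraMap_eq_C]
    have : (w : _ →+* _) (algebraMap Qbar (laurentBaseChange Qbar (modularFunctionFieldFull (M * p))) c)
        = algebraMap Qbar (laurentBaseChange Qbar (modularFunctionFieldFull (M * p))) c :=
      AlgEquiv.commutes w c
    rw [this]; rfl
  · exact ⟨⟨u, S.mem_full_of_red2 hu⟩, hu⟩

theorem degenAlpha (hpM : ¬ p ∣ M) (S : Setup π w) :
    DegenData p (heckeAlphaBar Qbar M p) (inclL Qbar M) (inclL Qbar (M * p))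
      ((inclL Qbar (M * p)).comp (w : _ →+* _)) (redOne S) (redTwo S) where
  fin := finiteAlong_heckeAlphaBar Qbar M p Jan.DegreeWiring.jAlg
  deg := AL.finrankAlong_alpha_of_not_dvd Qbar M p hpf.out hpM
  comp₁ x := by rw [inclL_apply, inclL_apply, coe_heckeAlphaBar]
  comp₂ _ x := by
    rw [RingHom.comp_apply, inclL_apply, inclL_apply]
    have : (w : _ →+* _) (heckeAlphaBar Qbar M p x) = heckeBetaBar Qbar M p x := S.al.alpha x
    rw [this, coe_heckeBetaBar]
  gen := by
    refine ⟨heckeBetaBar Qbar M p (jB Qbar M), ?_⟩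
    rw [RingHom.comp_apply, inclL_apply]
    have : (w : _ →+* _) (heckeBetaBar Qbar M p (jB Qbar M)) = heckeAlphaBar Qbar M p (jB Qbar M) :=
      S.al.beta _
    rw [this, coe_heckeAlphaBar, coe_jB]
    exact coeff_jL_neg_one Qbar
  gauss₁ := isGauss_redOne S
  gauss₂ := isGauss_redTwo S
  root := exists_primitiveRoot_unit A p

theorem degenBeta (hpM : ¬ p ∣ M) (S : Setup π w) :
    DegenData p (heckeBetaBar Qbar M p) (inclL Qbar M) 
      ((inclL Qbar (M * p)).comp (w : _ →+* _)) (inclL Qbar (M * p)) (redTwo S) (redOne S) where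
  fin := finiteAlong_heckeBetaBar Qbar M p Jan.DegreeWiring.jAlg
  deg := AL.finrankAlong_beta_of_not_dvd Qbar M p hpf.out hpM
  comp₁ x := by
    rw [RingHom.comp_apply, inclL_apply, inclL_apply]
    have : (w : _ →+* _) (heckeBetaBar Qbar M p x) = heckeAlphaBar Qbar M p x := S.al.beta x
    rw [this, coe_heckeAlphaBar]
  comp₂ _ x := by rw [inclL_apply, inclL_apply, coe_heckeBetaBar]
  gen := by
    refine ⟨heckeAlphaBar Qbar M p (jB Qbar M), ?_⟩
    rw [inclL_apply, coe_heckeAlphaBar, coe_jB]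
    exact coeff_jL_neg_one Qbar
  gauss₁ := isGauss_redTwo S
  gauss₂ := isGauss_redOne S
  root := exists_primitiveRoot_unit A p

variable [IsAlgClosed k] [CharP k p]
  [FunctionField (AlgebraicClosure ℚ) (modularFunctionFieldBar (M * p))]
  [FunctionField (AlgebraicClosure ℚ) (modularFunctionFieldBar M)]
  [FunctionField k (modularFunctionFieldFullC k M)]

theorem improves_alpha (hpM : ¬ p ∣ M) (S : Setup π w) {x : JZero (M * p)}
    (hα : PushZero (heckeAlphaBar (AlgebraicClosure ℚ) M p) x) :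
    Improves (single S.surj (redOne S)) (single S.surj (redTwo S)) p
      {f : modularFunctionFieldBar (M * p) | Rep p x f} := by
  have := isFF1_modular (AlgebraicClosure ℚ) Jan.DegreeWiring.jAlg M
  exact (degenAlpha hpM S).improves S.surj
    (heckeAlphaBarIntegral (AlgebraicClosure ℚ) M p Jan.DegreeWiring.jAlg)
    (Jan.RelFundamental.normFormulaAlong _ _) (fun B hB => hα _ B hB)

theorem improves_beta (hpM : ¬ p ∣ M) (S : Setup π w) {x : JZero (M * p)}
    (hβ : PushZero (heckeBetaBar (AlgebraicClosure ℚ) M p) x) :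
    Improves (single S.surj (redTwo S)) (single S.surj (redOne S)) p
      {f : modularFunctionFieldBar (M * p) | Rep p x f} := by
  have := isFF1_modular (AlgebraicClosure ℚ) Jan.DegreeWiring.jAlg M
  exact (degenBeta hpM S).improves S.surj
    (heckeBetaBarIntegral (AlgebraicClosure ℚ) M p Jan.DegreeWiring.jAlg)
    (Jan.RelFundamental.normFormulaAlong _ _) (fun B hB => hβ _ B hB)

theorem smul_polesOf_inv {K F : Type*} [Field K] [Field F] [Algebra K F]
    [HasPrincipalDivisors K F] (g : SemilinearAut K F) {y : F} (h : g • y = y) :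
    g • polesOf (K := K) y⁻¹ = polesOf (K := K) y⁻¹ := by
  rw [ModGal.smul_polesOf, smul_inv'', h]

theorem smul_j_sub (N : ℕ) [NeZero N] (τ : AlgebraicClosure ℚ ≃ₐ[ℚ] AlgebraicClosure ℚ)
    {a : AlgebraicClosure ℚ} (h : τ a = a) :
    arithmeticGalois (modularFunctionFieldFull N) τ •
      (Fermat.Agent.JRED.jL (AlgebraicClosure ℚ) N - algebraMap (AlgebraicClosure ℚ) _ a) =
      Fermat.Agent.JRED.jL (AlgebraicClosure ℚ) N - algebraMap (AlgebraicClosure ℚ) _ a := by
  rw [smul_sub, ModGal.smul_jL, ModGal.smul_algebraMap', h]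

set_option maxHeartbeats 2000000 in
/-- The properties of an adapted translate of the coordinate. -/
theorem exists_translate (hA : A.LiesOverPrime p) (S : Setup π w)
    {X : NodalDatum (AlgebraicClosure ℚ) (modularFunctionFieldBar (M * p)) k
      (modularFunctionFieldFullC k M) (modularFunctionFieldFullC k M) A π}
    (hX : IsModularNodal S X) {τ : AlgebraicClosure ℚ ≃ₐ[ℚ] AlgebraicClosure ℚ}
    (hτ : τ ∈ A.inertiaSubgroupIn ℚ) :
    ∃ X' : NodalDatum (AlgebraicClosure ℚ) (modularFunctionFieldBar (M * p)) k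
      (modularFunctionFieldFullC k M) (modularFunctionFieldFullC k M) A π,
      X'.R₁ = redOne S ∧ X'.R₂ = redTwo S ∧
      IsCompat X' (arithmeticGalois (modularFunctionFieldFull (M * p)) τ) 1 1 ∧
      (arithmeticGalois (modularFunctionFieldFull (M * p)) τ •
        polesOf (K := AlgebraicClosure ℚ) X'.x⁻¹ = polesOf (K := AlgebraicClosure ℚ) X'.x⁻¹) ∧
      ∀ (m : ℕ) (x : JZero (M * p)), InTorus X m x → InTorus X' m x := by
  have hp := hpf.out
  have hπ := S.surj
  obtain ⟨a₀, ha₀, -, -⟩ := hX.shift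
  obtain ⟨a₁, ha₁, hfix⟩ := Fermat.Agent.Flat.LiftInv.exists_lift hp hA hπ
    (ker_eq_maximalIdeal hπ) (π a₀)
  have hδ : π (a₁ - a₀) = 0 := by rw [map_sub, ha₁, sub_self]
  obtain ⟨X', e₁, e₂, hx⟩ := exists_translate_aux X (a₁ - a₀) hδ
  have hx' : X'.x = Fermat.Agent.JRED.jL (AlgebraicClosure ℚ) (M * p) -
      algebraMap (AlgebraicClosure ℚ) _ (a₁ : AlgebraicClosure ℚ) := by
    have e : ((a₁ - a₀ : A) : AlgebraicClosure ℚ) = a₁ - a₀ := rfl
    rw [hx, ha₀, e, map_sub]
    ring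
  have hR₁ : X'.R₁ = redOne S := e₁.trans hX.eq₁
  have hR₂ : X'.R₂ = redTwo S := e₂.trans hX.eq₂
  refine ⟨X', hR₁, hR₂,
    ModGal.isCompat_inertia hp S X' hR₁ hR₂ hx' (ESGalois.isResidual_one_of_inertia hπ hτ),
    ?_, fun m x h => inTorus_congr e₁ e₂ h⟩
  rw [hx']
  exact smul_polesOf_inv _ (smul_j_sub (M * p) τ (hfix τ hτ))

/-- **(M1)**, modular form: inertia acts through the mod `p` cyclotomic character on the toric
classes of `J₀(Mp)[p]` killed by the two push-forwards to level `M`. -/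
theorem modular_smul_eq_nsmul (hA : A.LiesOverPrime p) (hpM : ¬ p ∣ M) (S : Setup π w)
    {X : NodalDatum (AlgebraicClosure ℚ) (modularFunctionFieldBar (M * p)) k
      (modularFunctionFieldFullC k M) (modularFunctionFieldFullC k M) A π}
    (hX : IsModularNodal S X) {x : JZero (M * p)} (hpx : p • x = 0) (hx : InTorus X p x)
    (hα : PushZero (heckeAlphaBar (AlgebraicClosure ℚ) M p) x)
    (hβ : PushZero (heckeBetaBar (AlgebraicClosure ℚ) M p) x)
    {τ : AlgebraicClosure ℚ ≃ₐ[ℚ] AlgebraicClosure ℚ} (hτ : τ ∈ A.inertiaSubgroupIn ℚ) {a : ℕ}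
    (ha : ∀ ζ : AlgebraicClosure ℚ, ζ ^ p = 1 → τ ζ = ζ ^ a) : τ • x = a • x := by
  have hp := hpf.out
  obtain ⟨X', hR₁, hR₂, C', hzeros, ht⟩ := exists_translate hA S hX hτ
  obtain ⟨ζ, hζ⟩ := HasEnoughRootsOfUnity.exists_primitiveRoot (AlgebraicClosure ℚ) p
  have H₁ := improves_alpha hpM S hα
  have H₂ := improves_beta hpM S hβ
  rw [← hR₁, ← hR₂] at H₁ H₂
  exact smul_eq_nsmul S.surj (isArch_of_rankOne (PairShift.rankOne_of_liesOverPrime A hp hA)) C'
    hzeros hζ (a := a) (ha ζ hζ.pow_eq_one) hpx (ht p x hx) H₁ H₂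

end Modular

end Fermat.Agent.DR.Ord
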