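import Fermat.Agent.DR.Ord.Bases
import Fermat.Agent.RR.Corollaries

/-!
# Locally trivial `p`-torsion classes are multiplicative

Residue characteristic `p`.  `R` is a reduction datum of the function field `F / K` with values in
a reduced ring `Fk` (the product of the function fields of the components of a semistable model).
A class `x = [D]`, `p D = div f`, with `f` close to `1` is *multiplicative*: inertia acts on it
through the cyclotomic character.
-/

set_option autoImplicit false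
set_option linter.unusedSectionVars false

noncomputable section

open AlgebraicCurve Fermat.Agent.RR

namespace Fermat.Agent.DR.Ord

variable {K F k Fk : Type*} [Field K] [Field F] [Algebra K F] [IsAlgClosed K] [FunctionField K F]
  [Field k] [CommRing Fk] [Algebra k Fk] {A : ValuationSubring K} {π : A →+* k}

/-- `p`-th roots of `1` are `1` in a reduced ring of characteristic `p`. -/
theorem eq_one_of_pow_eq_one {S : Type*} [CommRing S] [IsReduced S] (p : ℕ) [Fact p.Prime]
    [CharP S p] {x : S} (h : x ^ p = 1) : x = 1 := by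
  have h1 : (x - 1) ^ p = 0 := by
    rw [sub_pow_char, h, one_pow, sub_self]
  have h2 := pow_eq_zero_iff (Fact.out : p.Prime).ne_zero |>.mp h1
  exact sub_eq_zero.mp h2

/-- The geometric input at the divisors `E`, `E'`. -/
structure Glue (R : NormRed K F k Fk A π) (p : ℕ) (E E' : Divisor K F) : Prop where
  bases : R.HasBases
  nonneg : 0 ≤ E
  nonneg' : 0 ≤ E'
  disj : ∀ P, E P = 0 ∨ E' P = 0
  big : 2 * (genusFF K F : ℤ) - 2 < Divisor.degree E
  big' : 2 * (genusFF K F : ℤ) - 2 < Divisor.degree E'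
  root : ∀ n : ℕ, 0 < n → ∀ t : Fk, t ^ p ∈ R.red (riemannRochSpace ((p * n) • E)) →
    t ∈ R.red (riemannRochSpace (n • E))
  root' : ∀ n : ℕ, 0 < n → ∀ t : Fk, t ^ p ∈ R.red (riemannRochSpace ((p * n) • E')) →
    t ∈ R.red (riemannRochSpace (n • E'))
  root'' : ∀ n : ℕ, 0 < n → ∀ t : Fk, t ^ p ∈ R.red (riemannRochSpace ((p * n) • (E + E'))) →
    t ∈ R.red (riemannRochSpace (n • (E + E')))
  split : ∀ n : ℕ, 0 < n → ∀ r ∈ R.red (riemannRochSpace ((p * n) • E)),
    ∀ r' ∈ R.red (riemannRochSpace ((p * n) • E')),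
      r - r' ∈ R.red (riemannRochSpace (n • (E + E'))) →
      r ∈ R.red (riemannRochSpace (n • E)) ∧ r' ∈ R.red (riemannRochSpace (n • E'))
  const : ∀ n : ℕ, 0 < n → ∀ r ∈ R.red (riemannRochSpace (n • E)),
    r ∈ R.red (riemannRochSpace (n • E')) → ∃ c : k, r = algebraMap k Fk c

/-! ### Divisors -/

theorem mul_mem_rr {D D' : Divisor K F} {f g : F} (hf : f ∈ riemannRochSpace D)
    (hg : g ∈ riemannRochSpace D') : f * g ∈ riemannRochSpace (D + D') := by
  rw [mem_riemannRochSpace_iff] at hf hg ⊢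
  intro v
  rcases eq_or_ne f 0 with rfl | hf0
  · left; simp
  rcases eq_or_ne g 0 with rfl | hg0
  · left; simp
  right
  have h1 := (hf v).resolve_left hf0
  have h2 := (hg v).resolve_left hg0
  rw [v.ord_mul hf0 hg0, Finsupp.add_apply]
  linarith

theorem one_mem_rr_zero : (1 : F) ∈ riemannRochSpace (0 : Divisor K F) :=
  one_mem_riemannRochSpace le_rfl

theorem pow_mem_rr {D : Divisor K F} {f : F} (hf : f ∈ riemannRochSpace D) (n : ℕ) :
    f ^ n ∈ riemannRochSpace (n • D) := by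
  induction n with
  | zero => simpa using one_mem_rr_zero
  | succ n ih =>
    rw [pow_succ, add_smul, one_smul]
    exact mul_mem_rr ih hf

theorem rr_mono {D D' : Divisor K F} (h : D ≤ D') : riemannRochSpace D ≤ riemannRochSpace D' := by
  intro f hf
  rw [mem_riemannRochSpace_iff] at hf ⊢
  intro v
  rcases hf v with h0 | h0
  · exact Or.inl h0
  · right
    have := Finsupp.le_def.mp h v
    linarith

/-- `D = (1/p) div f`. -/
def IsRoot (p : ℕ) (f : F) (D : Divisor K F) : Prop := f ≠ 0 ∧ ∀ v : Place K F, v.ord f = p * D v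

theorem IsRoot.degree {p : ℕ} (hp : 0 < p) {f : F} {D : Divisor K F} (h : IsRoot p f D) :
    Divisor.degree D = 0 := by
  have h1 : (p : ℤ) • D = divOf f := by
    ext v
    rw [divOf_apply, h.2 v]
    simp
  have h2 := degree_divOf (K := K) f
  rw [← h1, map_zsmul, smul_eq_mul] at h2
  have : (p : ℤ) ≠ 0 := by exact_mod_cast hp.ne'
  exact (mul_eq_zero.mp h2).resolve_left this

theorem IsRoot.mem_iff {p : ℕ} (hp : 0 < p) {f : F} {D : Divisor K F} (h : IsRoot p f D)
    (E : Divisor K F) (g : F) :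
    g ∈ riemannRochSpace (E - D) ↔ g ^ p / f ∈ riemannRochSpace (p • E) := by
  rw [mem_riemannRochSpace_iff, mem_riemannRochSpace_iff]
  refine forall_congr' fun v => ?_
  rcases eq_or_ne g 0 with rfl | hg
  · simp [hp.ne']
  have h1 : g ^ p / f ≠ 0 := div_ne_zero (pow_ne_zero p hg) h.1
  rw [or_iff_right hg, or_iff_right h1, ord_div v (pow_ne_zero p hg) h.1, ord_pow, h.2 v]
  simp only [Finsupp.coe_sub, Pi.sub_apply, Finsupp.coe_smul, Pi.smul_apply, nsmul_eq_mul]
  have hp' : (0 : ℤ) < p := by exact_mod_cast hp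
  constructor
  · intro h2
    nlinarith
  · intro h2
    by_contra h3
    push Not at h3
    nlinarith

theorem IsRoot.exists_pow {p : ℕ} (hp : 0 < p) {f : F} {D : Divisor K F} (h : IsRoot p f D)
    (hD : Divisor.IsPrincipal D) : ∃ g : F, g ≠ 0 ∧ f = g ^ p ∧ ∀ v : Place K F, D v = v.ord g := by
  obtain ⟨g, hg, hgD⟩ := hD
  have h1 : divOf (K := K) f = divOf (g ^ p) := by
    ext v
    rw [divOf_apply, divOf_apply, h.2 v, ord_pow, hgD]
  obtain ⟨c, hc, hfc⟩ := (divOf_eq_iff h.1 (pow_ne_zero p hg)).mp h1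
  obtain ⟨d, hd⟩ := IsAlgClosed.exists_pow_nat_eq c hp
  have hd0 : d ≠ 0 := by
    rintro rfl
    rw [zero_pow hp.ne'] at hd
    exact hc hd.symm
  refine ⟨d • g, smul_ne_zero hd0 hg, ?_, fun v => ?_⟩
  · rw [hfc, smul_pow, hd]
  · rw [ord_smul v hd0, hgD]

theorem IsRoot.principal_of_pow {p : ℕ} (hp : 0 < p) {f g : F} {D : Divisor K F}
    (h : IsRoot p f D) (hg : f = g ^ p) : Divisor.IsPrincipal D := by
  refine ⟨g, fun h0 => h.1 (by rw [hg, h0, zero_pow hp.ne']), fun v => ?_⟩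
  have h1 := h.2 v
  rw [hg, ord_pow] at h1
  have hp' : (p : ℤ) ≠ 0 := by exact_mod_cast hp.ne'
  exact (mul_left_cancel₀ hp' h1).symm

/-! ### Twisting by a root -/

variable {R : NormRed K F k Fk A π} {p : ℕ} [hpf : Fact p.Prime] [CharP Fk p] [IsReduced Fk]

/-- The reduction of `L(E - D)` equals the reduction of `L(E)`. -/
theorem red_twist (hB : R.HasBases) {E : Divisor K F}
    (big : 2 * (genusFF K F : ℤ) - 2 < Divisor.degree E)
    (root : ∀ t : Fk, t ^ p ∈ R.red (riemannRochSpace (p • E)) → t ∈ R.red (riemannRochSpace E))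
    {f : F} {D : Divisor K F} (hfD : IsRoot p f D) (hfΛ : f ∈ R.Λ) (hf1 : R.res f = 1) :
    R.red (riemannRochSpace (E - D)) = R.red (riemannRochSpace E) := by
  have hp := hpf.out.pos
  apply hB.red_eq_of_le
  · rintro u ⟨h, hh, hΛ, rfl⟩
    apply root
    rw [← R.res_pow hΛ]
    have h1 := (hfD.mem_iff hp E h).mp hh
    have h2 : h ^ p / f ∈ R.Λ := by
      rw [div_eq_mul_inv]
      exact R.Λ.mul_mem (R.Λ.pow_mem hΛ p) (R.inv_mem hfΛ hf1)
    have h3 : R.res (h ^ p / f) = R.res (h ^ p) := by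
      rw [div_eq_mul_inv, R.res_mul (R.Λ.pow_mem hΛ p) (R.inv_mem hfΛ hf1), R.res_inv hfΛ hf1,
        mul_one]
    rw [← h3]
    exact R.res_mem_red h1 h2
  · have hdeg : Divisor.degree (E - D) = Divisor.degree E := by
      rw [map_sub, hfD.degree hp, sub_zero]
    have h1 := finrank_riemannRochSpace_eq big
    have h2 := finrank_riemannRochSpace_eq (D := E - D) (by rwa [hdeg])
    rw [hdeg] at h2
    exact_mod_cast h2.trans h1.symm

/-! ### Pairs -/

/-- A pair of sections of `O(E - D)` and `O(E' - D)` with reduction `1`. -/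
structure IsPair (R : NormRed K F k Fk A π) (E E' D : Divisor K F) (h h' : F) : Prop where
  mem : h ∈ riemannRochSpace (E - D)
  mem' : h' ∈ riemannRochSpace (E' - D)
  int : h ∈ R.Λ
  int' : h' ∈ R.Λ
  res : R.res h = 1
  res' : R.res h' = 1

/-- The binomial formula modulo `p`. -/
theorem exists_add_pow_eq {S : Type*} [CommRing S] {p : ℕ} (hp : p.Prime) (x y : S) :
    ∃ q : S, (x + y) ^ p = x ^ p + p * x ^ (p - 1) * y + p * y ^ 2 * q + y ^ p := by
  obtain ⟨m, rfl⟩ : ∃ m, p = m + 2 := ⟨p - 2, by have := hp.two_le; omega⟩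
  have h1 : ∀ i ∈ Finset.range m, ∃ q : S, x ^ (i + 1) * y ^ (m + 2 - (i + 1)) *
      ((m + 2).choose (i + 1) : S) = ((m + 2 : ℕ) : S) * y ^ 2 * q := by
    intro i hi
    rw [Finset.mem_range] at hi
    obtain ⟨c, hc⟩ := hp.dvd_choose_self (Nat.succ_ne_zero i) (by omega : i + 1 < m + 2)
    have h2 : m + 2 - (i + 1) = 2 + (m - 1 - i) := by omega
    refine ⟨x ^ (i + 1) * y ^ (m - 1 - i) * c, ?_⟩
    have hc' : ((m + 2).choose (i + 1) : S) = ((m + 2 : ℕ) : S) * c := by
      rw [show (m + 2).choose (i + 1) = (m + 2) * c from hc]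
      push_cast
      ring
    rw [hc', h2, pow_add]
    ring
  choose! q hq using h1
  refine ⟨∑ i ∈ Finset.range m, q i, ?_⟩
  rw [add_pow, Finset.sum_range_succ, Finset.sum_range_succ, Finset.sum_range_succ',
    Finset.sum_congr rfl hq, ← Finset.mul_sum]
  have h3 : m + 2 - (m + 1) = 1 := by omega
  have h4 : m + 2 - 1 = m + 1 := by omega
  have h5 : (m + 2).choose (m + 1) = m + 2 := by
    rw [show m + 2 = (m + 1) + 1 from rfl, Nat.choose_succ_self_right]
  rw [h3, h4, h5]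
  simp only [pow_one, Nat.sub_zero, Nat.choose_zero_right, Nat.choose_self, Nat.sub_self, pow_zero,
    Nat.cast_one, mul_one, one_mul]
  ring

theorem exists_binom {p : ℕ} (hp : p.Prime) {h' z : F} (hh' : h' ∈ R.Λ) (hz : z ∈ R.Λ) {c : K}
    (hc : c ∈ A) : ∃ q ∈ R.Λ, (h' + algebraMap K F c * z) ^ p = h' ^ p +
      algebraMap K F (p * c) * (h' ^ (p - 1) * z) + algebraMap K F (p * c ^ 2) * (z ^ 2 * q) +
      algebraMap K F (c ^ p) * z ^ p := by
  obtain ⟨q, hq⟩ := exists_add_pow_eq hp (⟨h', hh'⟩ : R.Λ)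
    (⟨algebraMap K F c, R.const_mem hc⟩ * ⟨z, hz⟩)
  refine ⟨q, q.2, ?_⟩
  have := congrArg (Subtype.val) hq
  push_cast at this
  rw [this]
  push_cast
  ring

theorem algebraMap_injective (R : NormRed K F k Fk A π) :
    Function.Injective (algebraMap k Fk) := by
  have := R.nontrivial
  exact (algebraMap k Fk).injective

/-- Rescaling so that both `h ^ p / f` and `h' ^ p / f` are close to `1`. -/
theorem exists_rescale {E E' : Divisor K F} (G : Glue R p E E') {n : ℕ} (hn : 0 < n) {f : F}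
    {D : Divisor K F} (hfD : IsRoot p f D) (hfΛ : f ∈ R.Λ) (hf1 : R.res f = 1) {h h' : F}
    (hP : IsPair R (n • E) (n • E') D h h') {μ : K} (hμ : μ ≠ 0) {s : F} (hs : s ∈ R.Λ)
    (hdiff : h ^ p / f - h' ^ p / f = algebraMap K F μ * s) :
    ∃ (κ : K) (r r' : F), A.valuation (κ - 1) < 1 ∧ r ∈ riemannRochSpace ((p * n) • E) ∧
      r' ∈ riemannRochSpace ((p * n) • E') ∧ r ∈ R.Λ ∧ r' ∈ R.Λ ∧
      algebraMap K F (κ ^ p) * (h ^ p / f) = 1 + algebraMap K F μ * r ∧
      algebraMap K F (κ ^ p) * (h' ^ p / f) = 1 + algebraMap K F μ * r' ∧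
      R.res r - R.res r' = R.res s := by
  classical
  have hp := hpf.out.pos
  have hpn : 0 < p * n := Nat.mul_pos hp hn
  have hFk := R.nontrivial
  -- the functions `a`, `b`
  have hfinv : f⁻¹ ∈ R.Λ := R.inv_mem hfΛ hf1
  have mem_int : ∀ {g : F}, g ∈ R.Λ → g ^ p / f ∈ R.Λ := fun hg => by
    rw [div_eq_mul_inv]; exact R.Λ.mul_mem (R.Λ.pow_mem hg p) hfinv
  have res_int : ∀ {g : F}, g ∈ R.Λ → R.res g = 1 → R.res (g ^ p / f) = 1 := fun hg hg1 => by
    rw [div_eq_mul_inv, R.res_mul (R.Λ.pow_mem hg p) hfinv, R.res_pow hg, hg1, one_pow, one_mul,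
      R.res_inv hfΛ hf1]
  have oneE : (1 : F) ∈ riemannRochSpace ((p * n) • E) :=
    one_mem_riemannRochSpace (smul_nonneg (Nat.zero_le _) G.nonneg)
  have oneE' : (1 : F) ∈ riemannRochSpace ((p * n) • E') :=
    one_mem_riemannRochSpace (smul_nonneg (Nat.zero_le _) G.nonneg')
  have haE : h ^ p / f ∈ riemannRochSpace ((p * n) • E) := by
    have := (hfD.mem_iff hp (n • E) h).mp hP.mem
    rwa [smul_smul] at this
  have hbE : h' ^ p / f ∈ riemannRochSpace ((p * n) • E') := by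
    have := (hfD.mem_iff hp (n • E') h').mp hP.mem'
    rwa [smul_smul] at this
  set a : F := h ^ p / f - 1 with ha
  set b : F := h' ^ p / f - 1 with hb
  have haV : a ∈ riemannRochSpace ((p * n) • E) := Submodule.sub_mem _ haE oneE
  have haΛ : a ∈ R.Λ := R.Λ.sub_mem (mem_int hP.int) R.Λ.one_mem
  have ha0 : R.res a = 0 := by
    rw [ha, R.res_sub (mem_int hP.int) R.Λ.one_mem, res_int hP.int hP.res, R.res_one, sub_self]
  have hab : a - b = algebraMap K F μ * s := by rw [← hdiff, ha, hb]; ring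
  obtain ⟨d, e, he, hspan⟩ := G.bases (riemannRochSpace ((p * n) • E)) inferInstance
  obtain ⟨u, hu⟩ := NormRed.IsOrtho.exists_coeff hspan oneE
  obtain ⟨x, hx⟩ := NormRed.IsOrtho.exists_coeff hspan haV
  have huA : ∀ i, u i ∈ A := fun i => by
    rw [← A.valuation_le_one_iff]
    refine (he.valuation_le u i).trans ?_
    rw [← hu, R.nrm_one]
  have hres1 : (1 : Fk) = ∑ i, π ⟨u i, huA i⟩ • R.res (e i) := by
    rw [← he.res_sum huA, ← hu, R.res_one]
  obtain ⟨i₀, hi₀⟩ : ∃ i₀, π ⟨u i₀, huA i₀⟩ ≠ 0 := by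
    by_contra hall
    push Not at hall
    apply one_ne_zero (α := Fk)
    rw [hres1]
    exact Finset.sum_eq_zero fun i _ => by rw [hall i, zero_smul]
  have hui₀ : A.valuation (u i₀) = 1 := (res_ne_zero_iff R.surj _).mp hi₀
  have hui₀0 : u i₀ ≠ 0 := by
    intro h0
    rw [h0, map_zero] at hui₀
    exact zero_ne_one hui₀
  set c₁ : K := x i₀ / u i₀ with hc₁
  have hc₁lt : A.valuation c₁ < 1 := by
    rw [hc₁, map_div₀, hui₀, div_one]
    refine (he.valuation_le x i₀).trans_lt ?_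
    rw [← hx, R.nrm_lt_one_iff]
    exact ⟨haΛ, ha0⟩
  have hμpos : (0 : A.ValueGroup) < A.valuation μ :=
    zero_lt_iff.mpr ((Valuation.ne_zero_iff _).mpr hμ)
  have hkey : R.nrm (a - algebraMap K F c₁) ≤ A.valuation μ := by
    by_contra hlt
    rw [not_le] at hlt
    have hne : a - algebraMap K F c₁ ≠ 0 := by
      intro h0
      rw [h0, R.nrm_zero] at hlt
      exact not_lt_zero hlt
    obtain ⟨l, hl, hnl, y, hy, hyΛ, hy0⟩ := R.exists_nrm hne
    have hlμ : A.valuation (μ / l) < 1 := by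
      rw [map_div₀, ← hnl]
      exact (div_lt_one₀ (hμpos.trans hlt)).mpr hlt
    -- `y`, `y'` are both sections
    have hyeq : y = algebraMap K F l⁻¹ * (a - algebraMap K F c₁) := by
      rw [hy, ← mul_assoc, ← map_mul, inv_mul_cancel₀ hl, map_one, one_mul]
    have hyV : y ∈ riemannRochSpace ((p * n) • E) := by
      rw [hyeq, ← Algebra.smul_def]
      refine Submodule.smul_mem _ _ (Submodule.sub_mem _ haV ?_)
      rw [Algebra.algebraMap_eq_smul_one]
      exact Submodule.smul_mem _ _ oneE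
    have hy'Λ : algebraMap K F (μ / l) * s ∈ R.Λ :=
      R.Λ.mul_mem (R.const_mem ((A.valuation_le_one_iff _).mp hlμ.le)) hs
    have hy'eq : y - algebraMap K F (μ / l) * s = algebraMap K F l⁻¹ * (b - algebraMap K F c₁) := by
      have h1 : b = a - algebraMap K F μ * s := by rw [← hab]; ring
      have h2 : algebraMap K F (μ / l) = algebraMap K F l⁻¹ * algebraMap K F μ := by
        rw [← map_mul, div_eq_mul_inv, mul_comm]
      rw [hyeq, h1, h2]
      ring
    have hy'V : y - algebraMap K F (μ / l) * s ∈ riemannRochSpace ((p * n) • E') := by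
      rw [hy'eq, ← Algebra.smul_def]
      refine Submodule.smul_mem _ _ (Submodule.sub_mem _ (Submodule.sub_mem _ hbE oneE') ?_)
      rw [Algebra.algebraMap_eq_smul_one]
      exact Submodule.smul_mem _ _ oneE'
    have hres : R.res (y - algebraMap K F (μ / l) * s) = R.res y := by
      rw [R.res_sub hyΛ hy'Λ, R.res_const_mul_eq_zero hlμ hs, sub_zero]
    obtain ⟨c, hc⟩ := G.const (p * n) hpn (R.res y) (R.res_mem_red hyV hyΛ)
      (by rw [← hres]; exact R.res_mem_red hy'V (R.Λ.sub_mem hyΛ hy'Λ))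
    -- coefficients of `y`
    set yc : Fin d → K := fun i => l⁻¹ * (x i - c₁ * u i) with hyc
    have hysum : y = ∑ i, yc i • e i := by
      rw [hyeq, hx, Algebra.algebraMap_eq_smul_one (A := F) c₁, hu, ← Algebra.smul_def,
        Finset.smul_sum, ← Finset.sum_sub_distrib, Finset.smul_sum]
      refine Finset.sum_congr rfl fun i _ => ?_
      rw [hyc, smul_smul, ← sub_smul, smul_smul]
    have hycA : ∀ i, yc i ∈ A := fun i => by
      rw [← A.valuation_le_one_iff]
      refine (he.valuation_le yc i).trans ?_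
      rw [← hysum, R.nrm_le_one_iff]
      exact hyΛ
    have hyc0 : yc i₀ = 0 := by
      rw [hyc, hc₁]
      simp only
      rw [div_mul_cancel₀ _ hui₀0, sub_self, mul_zero]
    have h1 : ∑ i, (π ⟨yc i, hycA i⟩ - c * π ⟨u i, huA i⟩) • R.res (e i) = 0 := by
      simp only [sub_smul, Finset.sum_sub_distrib, mul_smul]
      rw [← Finset.smul_sum, ← he.res_sum hycA, ← hysum, ← hres1, hc,
        Algebra.algebraMap_eq_smul_one, sub_self]
    have h2 := (linearIndependent_iff'.mp he.li) Finset.univ _ h1 i₀ (Finset.mem_univ _)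
    have h3 : π ⟨yc i₀, hycA i₀⟩ = 0 := by
      have : (⟨yc i₀, hycA i₀⟩ : A) = 0 := Subtype.ext hyc0
      rw [this, map_zero]
    rw [h3, zero_sub, neg_eq_zero] at h2
    have h4 : c = 0 := (mul_eq_zero.mp h2).resolve_right hi₀
    rw [h4, map_zero] at hc
    exact hy0 hc
  obtain ⟨r₀, hr₀Λ, hr₀⟩ := R.exists_eq_mul_of_nrm_le hμ hkey
  -- the scaling constant
  have h1c : A.valuation (1 + c₁) = 1 := by
    rw [Valuation.map_add_eq_of_lt_left _ (by rwa [map_one]), map_one]
  have h1c0 : 1 + c₁ ≠ 0 := by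
    intro h0
    rw [h0, map_zero] at h1c
    exact zero_ne_one h1c
  obtain ⟨κ, hκ⟩ := IsAlgClosed.exists_pow_nat_eq (1 + c₁)⁻¹ hp
  have hinv : A.valuation (1 + c₁)⁻¹ = 1 := by rw [map_inv₀, h1c, inv_one]
  have hκ1 : A.valuation κ = 1 := by
    have : A.valuation κ ^ p = 1 := by rw [← map_pow, hκ, hinv]
    exact (pow_eq_one_iff.mp this).resolve_right hp.ne'
  have hκA : κ ∈ A := (A.valuation_le_one_iff κ).mp hκ1.le
  have hinvA : (1 + c₁)⁻¹ ∈ A := (A.valuation_le_one_iff _).mp hinv.le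
  have hc₁A : c₁ ∈ A := (A.valuation_le_one_iff _).mp hc₁lt.le
  have hπinv : π ⟨(1 + c₁)⁻¹, hinvA⟩ = 1 := by
    have h2 : (⟨(1 + c₁)⁻¹, hinvA⟩ : A) * (1 + ⟨c₁, hc₁A⟩) = 1 := by
      apply Subtype.ext
      show (1 + c₁)⁻¹ * (1 + c₁) = 1
      exact inv_mul_cancel₀ h1c0
    have h3 := congrArg π h2
    rw [map_mul, map_add, map_one, (res_eq_zero_iff R.surj ⟨c₁, hc₁A⟩).mpr hc₁lt, add_zero,
      mul_one] at h3
    exact h3
  have hπκ : π ⟨κ, hκA⟩ = 1 := by
    have h2 : (⟨κ, hκA⟩ : A) ^ p = ⟨(1 + c₁)⁻¹, hinvA⟩ := Subtype.ext hκ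
    have h3 := congrArg π h2
    rw [map_pow, hπinv] at h3
    have h4 : (algebraMap k Fk (π ⟨κ, hκA⟩)) ^ p = 1 := by rw [← map_pow, h3, map_one]
    have h5 := eq_one_of_pow_eq_one p h4
    rw [← map_one (algebraMap k Fk)] at h5
    exact algebraMap_injective R h5
  have hκlt : A.valuation (κ - 1) < 1 := by
    have := (res_eq_zero_iff R.surj (⟨κ, hκA⟩ - 1)).mp (by rw [map_sub, hπκ, map_one, sub_self])
    simpa using this
  have hr₀V : r₀ ∈ riemannRochSpace ((p * n) • E) := by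
    have h2 : r₀ = μ⁻¹ • (a - algebraMap K F c₁) := by
      rw [hr₀, Algebra.smul_def, ← mul_assoc, ← map_mul, inv_mul_cancel₀ hμ, map_one, one_mul]
    rw [h2]
    refine Submodule.smul_mem _ _ (Submodule.sub_mem _ haV ?_)
    rw [Algebra.algebraMap_eq_smul_one]
    exact Submodule.smul_mem _ _ oneE
  have hb' : b - algebraMap K F c₁ = algebraMap K F μ * (r₀ - s) := by
    have h1 : b = a - algebraMap K F μ * s := by rw [← hab]; ring
    have h2 : b - algebraMap K F c₁ = (a - algebraMap K F c₁) - algebraMap K F μ * s := by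
      rw [h1]; ring
    rw [h2, hr₀]; ring
  have hr₀V' : r₀ - s ∈ riemannRochSpace ((p * n) • E') := by
    have h2 : r₀ - s = μ⁻¹ • (b - algebraMap K F c₁) := by
      rw [hb', Algebra.smul_def, ← mul_assoc, ← map_mul, inv_mul_cancel₀ hμ, map_one, one_mul]
    rw [h2]
    refine Submodule.smul_mem _ _ (Submodule.sub_mem _ (Submodule.sub_mem _ hbE oneE') ?_)
    rw [Algebra.algebraMap_eq_smul_one]
    exact Submodule.smul_mem _ _ oneE'
  refine ⟨κ, (1 + c₁)⁻¹ • r₀, (1 + c₁)⁻¹ • (r₀ - s), hκlt, Submodule.smul_mem _ _ hr₀V,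
    Submodule.smul_mem _ _ hr₀V', R.smul_mem hinvA hr₀Λ,
    R.smul_mem hinvA (R.Λ.sub_mem hr₀Λ hs), ?_, ?_, ?_⟩
  · rw [hκ]
    have h2 : h ^ p / f = 1 + algebraMap K F c₁ + algebraMap K F μ * r₀ := by
      rw [← hr₀, ha]; ring
    have h3 : algebraMap K F (1 + c₁)⁻¹ * (1 + algebraMap K F c₁) = 1 := by
      rw [← map_one (algebraMap K F), ← map_add, ← map_mul, inv_mul_cancel₀ h1c0]
    rw [h2, mul_add, h3, Algebra.smul_def]
    ring
  · rw [hκ]
    have h2 : h' ^ p / f = 1 + algebraMap K F c₁ + algebraMap K F μ * (r₀ - s) := by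
      rw [← hb', hb]; ring
    have h3 : algebraMap K F (1 + c₁)⁻¹ * (1 + algebraMap K F c₁) = 1 := by
      rw [← map_one (algebraMap K F), ← map_add, ← map_mul, inv_mul_cancel₀ h1c0]
    rw [h2, mul_add, h3, Algebra.smul_def]
    ring
  · rw [R.res_smul hinvA hr₀Λ, R.res_smul hinvA (R.Λ.sub_mem hr₀Λ hs), hπinv, one_smul, one_smul,
      R.res_sub hr₀Λ hs]
    ring

end Fermat.Agent.DR.Ord
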