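import Fermat.Agent.DR.Ord.Classes
import Fermat.Agent.DR.AtP.Kummer

/-!
# The toric part of the `p`-power torsion and the cyclotomic character
-/

set_option autoImplicit false
set_option linter.unusedSectionVars false

noncomputable section

open AlgebraicCurve Fermat.Agent.RR Fermat.Agent.JRED

namespace Fermat.Agent.DR.Ord

/-! ### Cyclotomic uniformizer -/

section Cyc

variable {K : Type*} [Field K] {A : ValuationSubring K} {p : ℕ}

/-- `τϖ/ϖ ≡ a` for `ϖ = ζ - 1` and `τ ζ = ζ ^ a`. -/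
theorem valuation_cyc_lt_one (hp : p.Prime) {ζ : K} (hζ : IsPrimitiveRoot ζ p)
    (hvp : A.valuation (p : K) < 1) (τ : K →+* K) {a : ℕ} (ha : τ ζ = ζ ^ a) :
    A.valuation (τ (ζ - 1) / (ζ - 1) + (((p - 1) * a : ℕ) : K)) < 1 := by
  have hϖ0 : ζ - 1 ≠ 0 := AtP.zeta_sub_one_ne_zero hp hζ
  have hϖ1 : A.valuation (ζ - 1) < 1 := by
    have := AtP.v_zeta_sub_one_pow (v := A.valuation) hp hζ
    rw [← this] at hvp
    by_contra h
    rw [not_lt] at h
    exact absurd (one_le_pow₀ h) (not_le.mpr hvp)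
  have h1 : τ (ζ - 1) / (ζ - 1) = ∑ i ∈ Finset.range a, ζ ^ i := by
    rw [map_sub, map_one, ha, div_eq_iff hϖ0, geom_sum_mul]
  have h2 : A.valuation (∑ i ∈ Finset.range a, (ζ ^ i - 1)) < 1 := by
    refine (A.valuation.map_sum_le (g := A.valuation (ζ - 1)) fun i _ => ?_).trans_lt hϖ1
    exact AtP.v_zeta_pow_sub_one_le hp hζ i
  have h3 : τ (ζ - 1) / (ζ - 1) + (((p - 1) * a : ℕ) : K) =
      ∑ i ∈ Finset.range a, (ζ ^ i - 1) + (p : K) * a := by
    rw [h1, Finset.sum_sub_distrib, Finset.sum_const, Finset.card_range, nsmul_eq_mul, mul_one]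
    have : ((p - 1 : ℕ) : K) = (p : K) - 1 := by
      rw [Nat.cast_sub hp.one_lt.le, Nat.cast_one]
    rw [Nat.cast_mul, this]
    ring
  rw [h3]
  refine A.valuation.map_add_lt h2 ?_
  rw [map_mul]
  exact mul_lt_one_of_lt_of_le hvp (AtP.v_natCast_le a)

end Cyc

variable {K F k F₁ F₂ : Type*} [Field K] [Field F] [Algebra K F] [Field k] [Field F₁] [Field F₂]
  [Algebra k F₁] [Algebra k F₂] [IsAlgClosed K] [IsAlgClosed k] [FunctionField K F]
  [FunctionField k F₁] [FunctionField k F₂] {A : ValuationSubring K} {π : A →+* k}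

theorem exists_pow_of_red {k₀ E : Type*} [Field k₀] [IsAlgClosed k₀] [Field E] [Algebra k₀ E]
    {π₀ : A →+* k₀} {R : RedDatum K F k₀ E A π₀} (hπ : Function.Surjective π₀) {m : ℕ} (hm : 0 < m)
    {f v : F} {u : E} (hf : R.Red f u) (hu : u ≠ 0) (hv : v ≠ 0)
    (h : ∀ P : Place K F, P.ord f = m * P.ord v) : ∃ w : E, w ≠ 0 ∧ u = w ^ m := by
  have hf0 : f ≠ 0 := RedDatum.ne_zero_of_red hf hu
  have h1 : divOf (K := K) f = divOf (v ^ m) := by
    ext P
    rw [divOf_apply, divOf_apply, ord_pow, h]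
  obtain ⟨c, hc, hcf⟩ := (divOf_eq_iff hf0 (pow_ne_zero m hv)).mp h1
  obtain ⟨c₁, hc₁, w, hw, hcv⟩ := R.normalize v hv
  have h2 := RedDatum.div hπ hf (RedDatum.pow hcv m) (pow_ne_zero m hw)
  have hc₁' : algebraMap K F c₁ ≠ 0 := by simpa using hc₁
  have h3 : f / (algebraMap K F c₁ * v) ^ m = algebraMap K F (c / c₁ ^ m) := by
    rw [hcf, Algebra.smul_def, mul_pow, map_div₀, map_pow]
    field_simp
  rw [h3] at h2
  have hA := RedDatum.mem_of_red_const hπ h2
  have h4 := R.unique (R.const ⟨_, hA⟩) h2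
  have h5 : u = algebraMap k₀ E (π₀ ⟨_, hA⟩) * w ^ m := by
    rw [h4, div_mul_cancel₀ _ (pow_ne_zero m hw)]
  have hne : algebraMap k₀ E (π₀ ⟨_, hA⟩) ≠ 0 := by
    intro h0
    rw [h0, zero_mul] at h5
    exact hu h5
  obtain ⟨d, hd⟩ := IsAlgClosed.exists_pow_nat_eq (π₀ ⟨_, hA⟩) hm
  refine ⟨algebraMap k₀ E d * w, mul_ne_zero ?_ hw, ?_⟩
  · intro h0
    apply hne
    rw [← hd, map_pow, h0, zero_pow hm.ne']
  · rw [h5, mul_pow, ← map_pow, hd]

/-- A `p`-torsion class which is toric at some level `p ^ r` is toric at level `p`. -/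
theorem inTorus_of_pow {X : NodalDatum K F k F₁ F₂ A π} (hπ : Function.Surjective π) {p : ℕ}
    [hpf : Fact p.Prime] [CharP k p] {x : Pic0 K F} (hx : p • x = 0) {r : ℕ} (hr : 1 ≤ r)
    (h : InTorus X (p ^ r) x) : InTorus X p x := by
  have hp := hpf.out
  have hc₁ : CharP F₁ p := charP_of_injective_algebraMap (algebraMap k F₁).injective p
  have hc₂ : CharP F₂ p := charP_of_injective_algebraMap (algebraMap k F₂).injective p
  obtain ⟨s, rfl⟩ : ∃ s, r = s + 1 := ⟨r - 1, by omega⟩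
  obtain ⟨D, f, rfl, H⟩ := h
  obtain ⟨D', f', u', hD', H'⟩ := exists_rep X hp.pos hx
  obtain ⟨v, hv0, hdiv⟩ := pic0_mk_eq_iff.mp hD'
  have hps : 0 < p ^ s := pow_pos hp.pos s
  have H2 : IsRootDiv X (p ^ (s + 1)) (D' : Divisor K F) (f' ^ p ^ s) (u' ^ p ^ s) :=
    { pos := pow_pos hp.pos _
      ne_zero := pow_ne_zero _ H'.ne_zero
      div_eq := fun P => by
        rw [ord_pow, ← H'.div_eq, pow_succ]
        push_cast
        ring
      red := H'.red.pow _
      ne₁ := pow_ne_zero _ H'.ne₁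
      ne₂ := pow_ne_zero _ H'.ne₂ }
  have H3 := H2.sub hπ H
  have h4 : ∀ P : Place K F, P.ord (f' ^ p ^ s * f⁻¹) = (p ^ (s + 1) : ℕ) * P.ord v := by
    intro P
    rw [← H3.div_eq, hdiv]
  obtain ⟨w₁, hw₁, e₁⟩ := exists_pow_of_red hπ H3.pos H3.red.1 H3.ne₁ hv0 h4
  obtain ⟨w₂, hw₂, e₂⟩ := exists_pow_of_red hπ H3.pos H3.red.2 H3.ne₂ hv0 h4
  have f₁ : u'.1 = w₁ ^ p := by
    have h5 : u'.1 ^ p ^ s = (w₁ ^ p) ^ p ^ s := by
      rw [← pow_mul, ← pow_succ', ← e₁]
      simp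
    exact iterateFrobenius_inj F₁ p s h5
  have f₂ : u'.2 = w₂ ^ p := by
    have h5 : u'.2 ^ p ^ s = (w₂ ^ p) ^ p ^ s := by
      rw [← pow_mul, ← pow_succ', ← e₂]
      simp
    exact iterateFrobenius_inj F₂ p s h5
  have hdeg₁ : divOf (K := k) w₁ ∈ Divisor.degZero (K := k) (F := F₁) :=
    Divisor.mem_degZero.mpr (degree_divOf w₁)
  have hdeg₂ : divOf (K := k) w₂ ∈ Divisor.degZero (K := k) (F := F₂) :=
    Divisor.mem_degZero.mpr (degree_divOf w₂)
  have hspec : Spec X p (Pic0.mk D) 0 0 := by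
    refine ⟨D', f', u', ⟨_, hdeg₁⟩, ⟨_, hdeg₂⟩, hD', pic0_mk_eq_zero_iff.mpr (isPrincipal_divOf hw₁),
      pic0_mk_eq_zero_iff.mpr (isPrincipal_divOf hw₂), H', fun P => ?_, fun P => ?_⟩
    · rw [f₁, ord_pow]
      show (p : ℤ) * (divOf (K := k) w₁) P = _
      rw [divOf_apply]
    · rw [f₂, ord_pow]
      show (p : ℤ) * (divOf (K := k) w₂) P = _
      rw [divOf_apply]
  exact hspec.inTorus

/-- The subgroup of toric classes of level `m`. -/
def toric (X : NodalDatum K F k F₁ F₂ A π) (hπ : Function.Surjective π) (m : ℕ) (hm : 0 < m) :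
    AddSubgroup (Pic0 K F) where
  carrier := {x | InTorus X m x}
  zero_mem' := (Spec.zero hm).inTorus
  add_mem' := fun h h' => h.add h'
  neg_mem' := fun h => h.neg hπ

theorem mem_toric {X : NodalDatum K F k F₁ F₂ A π} {hπ : Function.Surjective π} {m : ℕ}
    {hm : 0 < m} {x : Pic0 K F} : x ∈ toric X hπ m hm ↔ InTorus X m x := Iff.rfl

/-- Inertia acts trivially on `J[m]` modulo the toric part. -/
theorem inTorus_smul_sub {X : NodalDatum K F k F₁ F₂ A π} (hπ : Function.Surjective π)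
    {g : SemilinearAut K F} (C : IsCompat X g 1 1) {m : ℕ} (hm : 0 < m) {x : Pic0 K F}
    (hx : m • x = 0) : InTorus X m (g • x - x) := by
  obtain ⟨D, f, u, rfl, H⟩ := exists_rep X hm hx
  exact ⟨SemilinearAut.degZeroSMulHom g D - D, _, rfl, C.inertial_sub hπ H⟩

/-- **(M1)** Inertia acts through the mod `p` cyclotomic character on the toric `p`-torsion
classes for which both one-sided improvements are possible. -/
theorem smul_eq_nsmul {X : NodalDatum K F k F₁ F₂ A π} (hπ : Function.Surjective π)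
    {p : ℕ} [hpf : Fact p.Prime] [CharP k p] (hA : IsArch A)
    {g : SemilinearAut K F} (C : IsCompat X g 1 1)
    (hzeros : g • polesOf (K := K) X.x⁻¹ = polesOf (K := K) X.x⁻¹)
    {ζ : K} (hζ : IsPrimitiveRoot ζ p) {a : ℕ} (ha : SemilinearAut.baseAut g ζ = ζ ^ a)
    {x : Pic0 K F} (hpx : p • x = 0) (hx : InTorus X p x)
    (H₁ : Improves (single hπ X.R₁) (single hπ X.R₂) p {f | Rep p x f})
    (H₂ : Improves (single hπ X.R₂) (single hπ X.R₁) p {f | Rep p x f}) :
    g • x = a • x := by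
  have hp := hpf.out
  have hpK : (p : K) ≠ 0 := by
    intro h0
    have h1 := AtP.v_zeta_sub_one_pow (v := A.valuation) hp hζ
    rw [h0, map_zero] at h1
    have h2 := (pow_eq_zero_iff (n := p - 1) (by have := hp.two_le; omega)).mp h1
    rw [map_eq_zero] at h2
    exact AtP.zeta_sub_one_ne_zero hp hζ h2
  have hvp : A.valuation (p : K) < 1 := by
    have h1 : ((p : A) : K) = (p : K) := by simp
    rw [← h1]
    refine (res_eq_zero_iff hπ _).mp ?_
    rw [map_natCast, CharP.cast_eq_zero]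
  have hϖ1 : A.valuation (ζ - 1) < 1 := by
    have := AtP.v_zeta_sub_one_pow (v := A.valuation) hp hζ
    rw [← this] at hvp
    by_contra h
    rw [not_lt] at h
    exact absurd (one_le_pow₀ h) (not_le.mpr hvp)
  have h1 := smul_add_nsmul_eq_zero hπ hA hpK C hzeros (AtP.zeta_sub_one_ne_zero hp hζ) hϖ1
    (AtP.v_zeta_sub_one_pow (v := A.valuation) hp hζ) hx H₁ H₂
    (valuation_cyc_lt_one hp hζ hvp (SemilinearAut.baseAut g : K →+* K) ha)
  have h2 : ((p - 1) * a) • x = - (a • x) := by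
    rw [eq_neg_iff_add_eq_zero, ← add_nsmul]
    have : (p - 1) * a + a = a * p := by
      obtain ⟨n, rfl⟩ : ∃ n, p = n + 1 := ⟨p - 1, by have := hp.pos; omega⟩
      rw [Nat.add_sub_cancel]; ring
    rw [this, mul_nsmul', hpx, nsmul_zero]
  rwa [h2, ← sub_eq_add_neg, sub_eq_zero] at h1

end Fermat.Agent.DR.Ord
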