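import Fermat.Agent.DR.Ord.TwistProd
import Fermat.Agent.DR.Ord.Toric
import Fermat.Agent.DR.Mod.Basic

/-!
# The norm estimate

`φ : E → F` of degree `p + 1`, `e₁ e₂ : F → K((q))` with `e₁ ∘ φ = inE`, `e₂ ∘ φ = inE(q^p)`.
Then `N_φ(f)(q^p) = e₁(f)(q^p) ∏ e₂(f)(ζ^j q)`, and `f / φ(N_φ f)` is very close to `1` for `e₁`.
-/

set_option autoImplicit false
set_option linter.unusedSectionVars false

noncomputable section

open ModularCurve AlgebraicCurve Fermat.Agent.RR Fermat.Agent.S28 Fermat.Agent.JRED Fermat.Agent.JRED.ES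
  Fermat.Agent.Jan.HeckeNorm

namespace Fermat.Agent.DR.Ord

section Relation

/-- **(R)** The norm along a degeneracy map in terms of the two expansions. -/
theorem qExpand_norm {L E F : Type*} [Field L] [CharZero L] [Field E] [Field F] [Algebra L E]
    [Algebra L F] {p : ℕ} [hpf : Fact p.Prime] (φ : E →ₐ[L] F) (hfin : FiniteAlong L φ)
    (hdeg : finrankAlong L φ = p + 1) (inE : E →+* LaurentSeries L)
    (e₁ e₂ : F →+* LaurentSeries L) (h₁ : ∀ x, e₁ (φ x) = inE x)
    (h₂ : ∀ x, e₂ (φ x) = qExpand L p (inE x)) {ζ : Lˣ} (hζ : IsPrimitiveRoot ζ p)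
    {y : F} (hy : (e₂ y).coeff (-1) = 1) (f : F) :
    qExpand L p (inE (normAlong φ f)) = qExpand L p (e₁ f) * twistProd p ζ (e₂ f) := by
  have hp := hpf.out
  let ι : Option (Fin p) → (F →+* LaurentSeries L) := fun o => o.elim ((qExpand L p).comp e₁)
    (fun b => (twist (ζ ^ (b : ℕ))).comp e₂)
  have hnone : ∀ x, ι none x = qExpand L p (e₁ x) := fun _ => rfl
  have hsome : ∀ (b : Fin p) x, ι (some b) x = twist (ζ ^ (b : ℕ)) (e₂ x) := fun _ _ => rfl
  have hι : ∀ i x, ι i (φ x) = ((qExpand L p).comp inE) x := by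
    rintro (_ | b) x
    · rw [hnone, h₁]; rfl
    · rw [hsome, h₂]
      apply twist_qExpand_of_pow_eq_one
      rw [← pow_mul, mul_comm, pow_mul, hζ.pow_eq_one, one_pow]
  have hj : ∀ b : Fin p, (ι (some b) y).coeff (-1) = (((ζ ^ (b : ℕ))⁻¹ : Lˣ) : L) := by
    intro b
    rw [hsome, twist_coeff, zpow_neg_one, hy, mul_one]
  have hj0 : (ι none y).coeff (-1) = 0 := by
    rw [hnone]
    apply qExpand_coeff_of_not_dvd
    intro h
    have h1 : (p : ℤ) ∣ 1 := by simpa using h
    have h2 : p ∣ 1 := by exact_mod_cast h1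
    exact hp.one_lt.ne' (Nat.dvd_one.mp h2)
  have hinj : Function.Injective ι := by
    rintro (_ | b) (_ | c) h
    · rfl
    · exfalso
      have h1 := hj c
      rw [← h, hj0] at h1
      exact Units.ne_zero _ h1.symm
    · exfalso
      have h1 := hj b
      rw [h, hj0] at h1
      exact Units.ne_zero _ h1.symm
    · have h1 := hj b
      rw [h, hj c] at h1
      have h2 : ζ ^ (c : ℕ) = ζ ^ (b : ℕ) := inv_injective (Units.ext h1)
      rw [Fin.ext (hζ.pow_inj c.2 b.2 h2)]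
  have hcard : Fintype.card (Option (Fin p)) = finrankAlong L φ := by
    rw [hdeg, Fintype.card_option, Fintype.card_fin]
  have key := map_normAlong_eq_prod φ hfin ((qExpand L p).comp inE) ι hι hinj hcard f
  rw [Fintype.prod_option, hnone] at key
  exact key

end Relation

section UEstimate

variable {K k : Type*} [Field K] [Field k] {A : ValuationSubring K} {π : A →+* k} {p : ℕ}
  [hpf : Fact p.Prime] [CharP k p]

theorem coeffMap_subtype_injective : Function.Injective (coeffMap A.subtype) :=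
  coeffMap_injective Subtype.val_injective

/-- **The `𝒰`-estimate.** -/
theorem gred_twistProd {ζ : Aˣ} (hζ : IsPrimitiveRoot ζ p) {f N' : LaurentSeries K}
    (hN : qExpand K p N' = twistProd p (Units.map A.subtype.toMonoidHom ζ) f) {c d : A}
    (hc0 : c ≠ 0) (hd0 : d ≠ 0) (h1 : ∃ r : A, p * c = d * r) (h2 : ∃ r : A, c ^ p = d * r)
    {u : LaurentSeries k} (hf : GRed π (HahnSeries.C (c : K)⁻¹ * (f - 1)) u) :
    ∃ u', GRed π (HahnSeries.C (d : K)⁻¹ * (N' - 1)) u' := by
  have hp := hpf.out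
  obtain ⟨a, b, hb, hab, -⟩ := hf
  obtain ⟨r₁, hr₁⟩ := h1
  obtain ⟨r₂, hr₂⟩ := h2
  obtain ⟨α, β, hαβ⟩ := exists_twistProd_eq hζ a b c
  obtain ⟨nb, hnb⟩ := exists_qExpand_eq_twistProd p hζ b
  obtain ⟨nab, hnab⟩ := exists_qExpand_eq_twistProd p hζ (b + HahnSeries.C c * a)
  have hcK : (c : K) ≠ 0 := fun h => hc0 (Subtype.ext h)
  have hdK : (d : K) ≠ 0 := fun h => hd0 (Subtype.ext h)
  -- the numerator
  have hfb : f * coeffMap A.subtype b = coeffMap A.subtype (b + HahnSeries.C c * a) := by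
    have e1 : (f - 1) * coeffMap A.subtype b =
        HahnSeries.C (c : K) * coeffMap A.subtype a := by
      rw [← hab, ← mul_assoc, ← mul_assoc, ← map_mul, mul_inv_cancel₀ hcK, map_one, one_mul]
    have e2 : coeffMap A.subtype (HahnSeries.C c) = HahnSeries.C (c : K) := by
      rw [coeffMap_const]; rfl
    rw [map_add, map_mul, e2, ← e1]
    ring
  set γ : LaurentSeries A := HahnSeries.C r₁ * α + HahnSeries.C r₂ * β with hγ
  have hγ1 : twistProd p ζ (b + HahnSeries.C c * a) = twistProd p ζ b + HahnSeries.C d * γ := by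
    rw [hαβ, hr₁, hr₂, hγ, map_mul, map_mul]
    ring
  obtain ⟨nγ, hnγ⟩ : ∃ nγ : LaurentSeries A, qExpand A p nγ = γ := by
    refine (mem_range_qExpand_iff p γ).mpr fun n hn => ?_
    have h3 : HahnSeries.C d * γ = qExpand A p (nab - nb) := by
      rw [map_sub, hnab, hnb, hγ1]; ring
    have h4 : (HahnSeries.C d * γ).coeff n = 0 := by
      rw [h3]; exact qExpand_coeff_of_not_dvd _ _ hn
    rw [HahnSeries.C_mul_eq_smul, HahnSeries.coeff_smul, smul_eq_mul] at h4
    exact (mul_eq_zero.mp h4).resolve_left hd0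
  have hnab' : nab = nb + HahnSeries.C d * nγ := by
    apply qExpand_injective p
    rw [hnab, hγ1, map_add, map_mul, hnb, hnγ]
    congr 2
    rw [HahnSeries.C_apply, qExpand_single, mul_zero]
  -- the image
  have hmain : N' * coeffMap A.subtype nb = coeffMap A.subtype nab := by
    apply qExpand_injective p
    rw [map_mul, hN, ← coeffMap_qExpand, ← coeffMap_qExpand, hnb, hnab, coeffMap_twistProd',
      coeffMap_twistProd', ← hfb, twistProd_mul]
  have hd' : coeffMap A.subtype (HahnSeries.C d) = HahnSeries.C (d : K) := by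
    rw [coeffMap_const]; rfl
  have hπ : coeffMap π nb ≠ 0 := by
    intro h0
    have h5 : coeffMap π (qExpand A p nb) = 0 := by rw [coeffMap_qExpand, h0, map_zero]
    rw [hnb, coeffMap_twistProd p hp π hζ.pow_eq_one] at h5
    exact hb (pow_eq_zero_iff hp.ne_zero |>.mp h5)
  refine ⟨coeffMap π nγ / coeffMap π nb, nγ, nb, hπ, ?_, div_mul_cancel₀ _ hπ⟩
  have h6 : (N' - 1) * coeffMap A.subtype nb = HahnSeries.C (d : K) * coeffMap A.subtype nγ := by
    rw [sub_mul, hmain, hnab', map_add, map_mul, hd']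
    ring
  rw [mul_assoc, h6, ← mul_assoc, ← map_mul, inv_mul_cancel₀ hdK, map_one, one_mul]

end UEstimate

theorem NormRed.nrm_inv_sub_one {K F k Fk : Type*} [Field K] [Field F] [Algebra K F] [Field k]
    [CommRing Fk] [IsDomain Fk] [Algebra k Fk] {A : ValuationSubring K} {π : A →+* k}
    (N : NormRed K F k Fk A π) {h : F} (hh : N.nrm (h - 1) < 1) :
    N.nrm (h⁻¹ - 1) = N.nrm (h - 1) := by
  have h2 : N.nrm h = 1 := N.nrm_eq_one_of_sub hh
  have h0 : h ≠ 0 := by
    rintro rfl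
    rw [N.nrm_zero] at h2
    exact zero_ne_one h2
  have h3 : h⁻¹ - 1 = -((h - 1) / h) := by
    field_simp
    ring
  rw [h3, N.nrm_neg, N.nrm_div, h2, div_one]

section Estimate

variable {K E F k F₁ F₂ : Type*} [Field K] [CharZero K] [Field E] [Field F] [Algebra K E]
  [Algebra K F] [Field k] [Field F₁] [Field F₂] [Algebra k F₁] [Algebra k F₂]
  {A : ValuationSubring K} {π : A →+* k} {p : ℕ} [hpf : Fact p.Prime] [CharP k p]

/-- The reduction datum `R` is the Gauss reduction for the expansion `e`. -/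
def IsGauss {Fi : Type*} [Field Fi] [Algebra k Fi] (R : RedDatum K F k Fi A π)
    (e : F →+* LaurentSeries K) : Prop :=
  (∀ c : K, e (algebraMap K F c) = HahnSeries.C c) ∧
    ∀ w : F, (∃ u, R.Red w u) ↔ ∃ u, GRed π (e w) u

theorem IsGauss.nrm_le_iff {hπ : Function.Surjective π} {R : RedDatum K F k F₁ A π}
    {e : F →+* LaurentSeries K} (h : IsGauss R e) {w : F} {c : K} (hc : c ≠ 0) :
    (single hπ R).nrm w ≤ A.valuation c ↔ ∃ u, GRed π (HahnSeries.C c⁻¹ * e w) u := by
  rw [NormRed.nrm_le_iff_mem _ hc]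
  have := h.2 (algebraMap K F c⁻¹ * w)
  rw [map_mul, h.1] at this
  exact this

variable (p) in
/-- The data of a degeneracy map with its two expansions. -/
structure DegenData (φ : E →ₐ[K] F) (inE : E →+* LaurentSeries K) (e₁ e₂ : F →+* LaurentSeries K)
    (R₁ : RedDatum K F k F₁ A π) (R₂ : RedDatum K F k F₂ A π) : Prop where
  fin : FiniteAlong K φ
  deg : finrankAlong K φ = p + 1
  comp₁ : ∀ x, e₁ (φ x) = inE x
  comp₂ : ∀ (_ : NeZero p) (x : E), e₂ (φ x) = qExpand K p (inE x)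
  gen : ∃ y : F, (e₂ y).coeff (-1) = 1
  gauss₁ : IsGauss R₁ e₁
  gauss₂ : IsGauss R₂ e₂
  root : ∃ ζ : Aˣ, IsPrimitiveRoot ζ p

variable {φ : E →ₐ[K] F} {inE : E →+* LaurentSeries K} {e₁ e₂ : F →+* LaurentSeries K}
  {R₁ : RedDatum K F k F₁ A π} {R₂ : RedDatum K F k F₂ A π}

theorem DegenData.nrm₂_le (D : DegenData p φ inE e₁ e₂ R₁ R₂) (hπ : Function.Surjective π)
    (x : E) : (single hπ R₂).nrm (φ x) ≤ (single hπ R₁).nrm (φ x) := by
  rcases eq_or_ne (φ x) 0 with h0 | h0
  · rw [h0, NormRed.nrm_zero, NormRed.nrm_zero]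
  obtain ⟨c, hc, hn, -⟩ := (single hπ R₁).exists_nrm h0
  rw [hn, D.gauss₂.nrm_le_iff hc]
  obtain ⟨u, hu⟩ := (D.gauss₁.nrm_le_iff hc).mp hn.le
  rw [D.comp₁] at hu
  refine ⟨qExpand k p u, ?_⟩
  have h1 := Mod.GRed.qExpand hu p
  rwa [map_mul, HahnSeries.C_apply, qExpand_single, mul_zero, ← HahnSeries.C_apply,
    ← D.comp₂] at h1

/-- **The norm estimate.** -/
theorem DegenData.estimate (D : DegenData p φ inE e₁ e₂ R₁ R₂) (hπ : Function.Surjective π)
    {f : F} (hf1 : (single hπ R₁).nrm (f - 1) < 1) (hf2 : (single hπ R₂).nrm (f - 1) < 1) :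
    (single hπ R₁).nrm (f * (φ (normAlong φ f))⁻¹ - 1) ≤
      max (A.valuation (p : K) * (single hπ R₂).nrm (f - 1))
        ((single hπ R₂).nrm (f - 1) ^ p) ∧
    (single hπ R₂).nrm (f * (φ (normAlong φ f))⁻¹ - 1) ≤
      max ((single hπ R₁).nrm (f - 1)) ((single hπ R₂).nrm (f - 1)) := by
  classical
  have hp := hpf.out
  set N₁ := single hπ R₁ with hN₁
  set N₂ := single hπ R₂ with hN₂
  rcases eq_or_ne (f - 1) 0 with hf0 | hf0
  · have hf : f = 1 := sub_eq_zero.mp hf0
    rw [hf, map_one, map_one, inv_one, mul_one, sub_self, NormRed.nrm_zero, NormRed.nrm_zero]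
    exact ⟨zero_le, zero_le⟩
  have hfne : f ≠ 0 := by
    rintro rfl
    rw [zero_sub, N₁.nrm_neg, N₁.nrm_one] at hf1
    exact lt_irrefl _ hf1
  have hf1' : N₁.nrm f = 1 := N₁.nrm_eq_one_of_sub hf1
  have hf2' : N₂.nrm f = 1 := N₂.nrm_eq_one_of_sub hf2
  set G := φ (normAlong φ f) with hG
  have hG0 : G ≠ 0 := (map_ne_zero φ).mpr (normAlong_ne_zero φ D.fin hfne)
  obtain ⟨c, hc0, hc, -⟩ := N₂.exists_nrm hf0
  have hcA : c ∈ A := by
    rw [← A.valuation_le_one_iff, ← hc]
    exact hf2.le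
  -- the bound
  obtain ⟨d, hd0, hdv, hr₁, hr₂⟩ : ∃ d : A, d ≠ 0 ∧
      A.valuation (d : K) = max (A.valuation (p : K) * A.valuation c) (A.valuation c ^ p) ∧
      (∃ r : A, p * ⟨c, hcA⟩ = d * r) ∧ (∃ r : A, (⟨c, hcA⟩ : A) ^ p = d * r) := by
    have hpK : (p : K) ≠ 0 := by exact_mod_cast hp.ne_zero
    rcases le_total (A.valuation (p : K) * A.valuation c) (A.valuation c ^ p) with h | h
    · refine ⟨⟨c, hcA⟩ ^ p, ?_, ?_, ?_, ⟨1, by rw [mul_one]⟩⟩
      · intro h0
        have := congrArg (fun z : A => (z : K)) h0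
        simp only [SubmonoidClass.coe_pow, ZeroMemClass.coe_zero] at this
        exact pow_ne_zero p hc0 this
      · rw [max_eq_right h, SubmonoidClass.coe_pow, map_pow]
      · have h1 : p * c / c ^ p ∈ A := by
          rw [← A.valuation_le_one_iff, map_div₀, map_mul, map_pow]
          exact div_le_one_of_le₀ h zero_le
        refine ⟨⟨_, h1⟩, Subtype.ext ?_⟩
        push_cast
        field_simp
    · refine ⟨p * ⟨c, hcA⟩, ?_, ?_, ⟨1, by rw [mul_one]⟩, ?_⟩
      · intro h0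
        have := congrArg (fun z : A => (z : K)) h0
        simp only [MulMemClass.coe_mul, SubringClass.coe_natCast, ZeroMemClass.coe_zero] at this
        exact mul_ne_zero hpK hc0 this
      · rw [max_eq_left h, MulMemClass.coe_mul, map_mul, SubringClass.coe_natCast]
      · have h1 : c ^ p / (p * c) ∈ A := by
          rw [← A.valuation_le_one_iff, map_div₀, map_mul, map_pow]
          exact div_le_one_of_le₀ h zero_le
        refine ⟨⟨_, h1⟩, Subtype.ext ?_⟩
        push_cast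
        field_simp
  have hdK : (d : K) ≠ 0 := fun h => hd0 (Subtype.ext h)
  obtain ⟨ζ, hζ⟩ := D.root
  have hζ' : IsPrimitiveRoot (Units.map A.subtype.toMonoidHom ζ) p := by
    refine hζ.map_of_injective (f := Units.map A.subtype.toMonoidHom) ?_
    exact Units.map_injective Subtype.val_injective
  obtain ⟨y, hy⟩ := D.gen
  have hrel := qExpand_norm φ D.fin D.deg inE e₁ e₂ D.comp₁ (D.comp₂ _) hζ' hy f
  -- first estimate
  have h1 : N₁.nrm (G / f - 1) ≤ A.valuation (d : K) := by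
    rw [D.gauss₁.nrm_le_iff hdK, map_sub, map_one]
    obtain ⟨u, hu⟩ := (D.gauss₂.nrm_le_iff hc0).mp hc.le
    rw [map_sub, map_one] at hu
    refine gred_twistProd hζ ?_ (c := ⟨c, hcA⟩) (fun h => hc0 (congrArg Subtype.val h)) hd0 hr₁ hr₂
      hu
    have he1f : e₁ f ≠ 0 := (map_ne_zero e₁).mpr hfne
    have hne : qExpand K p (e₁ f) ≠ 0 := by
      rw [← map_zero (qExpand K p)]
      exact fun h => he1f (qExpand_injective p h)
    rw [map_div₀, map_div₀, hG, D.comp₁, hrel, mul_div_cancel_left₀ _ hne]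
  have hd1 : A.valuation (d : K) < 1 := by
    rw [hdv, ← hc]
    refine max_lt ?_ (pow_lt_one₀ zero_le hf2 hp.ne_zero)
    exact (mul_le_of_le_one_left zero_le (AtP.v_natCast_le p)).trans_lt hf2
  have hdle : A.valuation (d : K) ≤ N₂.nrm (f - 1) := by
    rw [hdv, ← hc]
    refine max_le (mul_le_of_le_one_left zero_le (AtP.v_natCast_le p)) ?_
    exact pow_le_of_le_one zero_le hf2.le hp.ne_zero
  constructor
  · have h3 : f * G⁻¹ = (G / f)⁻¹ := by rw [inv_div, div_eq_mul_inv]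
    rw [h3, N₁.nrm_inv_sub_one (h1.trans_lt hd1), hc, ← hdv]
    exact h1
  · have h4 : N₁.nrm (G - 1) ≤ max (N₁.nrm (f - 1)) (N₂.nrm (f - 1)) := by
      have h5 : G = G / f * f := (div_mul_cancel₀ _ hfne).symm
      rw [h5]
      refine (N₁.nrm_mul_sub_one_le hf1'.le).trans (max_le ?_ (le_max_left _ _))
      exact (h1.trans hdle).trans (le_max_right _ _)
    have h6 : N₂.nrm (G - 1) ≤ max (N₁.nrm (f - 1)) (N₂.nrm (f - 1)) := by
      refine le_trans ?_ h4
      have := D.nrm₂_le hπ (normAlong φ f - 1)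
      rwa [map_sub, map_one] at this
    have h7 : N₂.nrm (G - 1) < 1 := h6.trans_lt (max_lt hf1 hf2)
    have h8 : N₂.nrm G⁻¹ = 1 := by rw [N₂.nrm_inv, N₂.nrm_eq_one_of_sub h7, inv_one]
    refine (N₂.nrm_mul_sub_one_le h8.le).trans (max_le (le_max_right _ _) ?_)
    rw [N₂.nrm_inv_sub_one h7]
    exact h6

/-- Classes killed by the push-forward can be improved. -/
theorem DegenData.improves [IsAlgClosed K] [FunctionField K F] [FunctionField K E]
    (D : DegenData p φ inE e₁ e₂ R₁ R₂) (hπ : Function.Surjective π)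
    (hφ : φ.toRingHom.IsIntegral) (hN : NormFormulaAlong K φ D.fin) {x : Pic0 K F}
    (hx : ∀ B : Divisor.degZero (K := K) (F := F), Pic0.mk B = x →
      (Divisor.pushforwardAlong φ hφ (B : Divisor K F)).IsPrincipal) :
    Improves (single hπ R₁) (single hπ R₂) p {f | Rep p x f} := by
  have hp := hpf.out
  rintro f ⟨hf0, B, hB, hdiv⟩ hf1 hf2
  obtain ⟨v, hv0, hv⟩ := hx B hB
  have hNf : ∀ P : Place K E, P.ord (normAlong φ f) = p * P.ord v := by
    intro P
    rw [← pushforwardAlong_eq_ord φ hφ D.fin hN (D := p • (B : Divisor K F)) hf0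
      (fun w => by rw [Finsupp.smul_apply, nsmul_eq_mul, hdiv]) P, map_nsmul, Finsupp.smul_apply,
      nsmul_eq_mul, hv]
  obtain ⟨w, hw0, hw⟩ := eq_const_mul_pow hp.pos (normAlong_ne_zero φ D.fin hf0) hv0 hNf
  refine ⟨(φ w)⁻¹, inv_ne_zero ((map_ne_zero φ).mpr hw0), ?_⟩
  have h1 : f * (φ w)⁻¹ ^ p = f * (φ (normAlong φ f))⁻¹ := by
    rw [hw, map_pow, inv_pow]
  rw [h1]
  exact D.estimate hπ hf1 hf2

end Estimate

end Fermat.Agent.DR.Ord
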