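import Mathlib

/-!
# Reduction data with values in a reduced ring, and the associated norm

`K ⊇ A → k` is a valuation ring with its residue field, `F / K` a field and `Fk` a commutative
`k`-algebra (typically a finite product of fields).  A `NormRed` is a subring `Λ` of `F` with a
reduction map `ρ : Λ → Fk` such that every nonzero `w ∈ F` can be scaled by a constant to have
nonzero reduction.  It defines a power-multiplicative norm on `F` with values in the value group
of `A`.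
-/

set_option autoImplicit false

noncomputable section

namespace Fermat.Agent.DR.Ord

open Polynomial

section Defs

variable (K F k Fk : Type*) [Field K] [Field F] [Algebra K F] [Field k] [CommRing Fk] [Algebra k Fk]

/-- A reduction datum with values in a commutative ring `Fk`. -/
structure NormRed (A : ValuationSubring K) (π : A →+* k) where
  Λ : Subring F
  ρ : Λ →+* Fk
  surj : Function.Surjective π
  mem_const : ∀ a : A, algebraMap K F a ∈ Λ
  ρ_const : ∀ a : A, ρ ⟨algebraMap K F a, mem_const a⟩ = algebraMap k Fk (π a)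
  normalize : ∀ w : F, w ≠ 0 → ∃ c : K, c ≠ 0 ∧ ∃ h : algebraMap K F c * w ∈ Λ,
    ρ ⟨algebraMap K F c * w, h⟩ ≠ 0

end Defs

variable {K F k Fk : Type*} [Field K] [Field F] [Algebra K F] [Field k] [CommRing Fk]
  [Algebra k Fk] {A : ValuationSubring K} {π : A →+* k}

theorem res_eq_zero_iff (hπ : Function.Surjective π) (a : A) :
    π a = 0 ↔ A.valuation (a : K) < 1 := by
  have hmax : (RingHom.ker π).IsMaximal := RingHom.ker_isMaximal_of_surjective π hπ
  have h1 : RingHom.ker π = IsLocalRing.maximalIdeal A := IsLocalRing.eq_maximalIdeal hmax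
  rw [← RingHom.mem_ker, h1, ← A.valuation_lt_one_iff]

theorem res_ne_zero_iff (hπ : Function.Surjective π) (a : A) :
    π a ≠ 0 ↔ A.valuation (a : K) = 1 := by
  rw [Ne, res_eq_zero_iff hπ, not_lt]
  exact ⟨fun h => le_antisymm (A.valuation_le_one a) h, fun h => h.ge⟩

namespace NormRed

variable (R : NormRed K F k Fk A π)

open Classical in
/-- The reduction as a total function (`0` outside of `Λ`). -/
def res (w : F) : Fk := if h : w ∈ R.Λ then R.ρ ⟨w, h⟩ else 0

theorem res_of_mem {w : F} (h : w ∈ R.Λ) : R.res w = R.ρ ⟨w, h⟩ := dif_pos h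

theorem res_const {a : K} (ha : a ∈ A) :
    R.res (algebraMap K F a) = algebraMap k Fk (π ⟨a, ha⟩) := by
  rw [R.res_of_mem (R.mem_const ⟨a, ha⟩)]
  exact R.ρ_const ⟨a, ha⟩

theorem const_mem {a : K} (ha : a ∈ A) : algebraMap K F a ∈ R.Λ := R.mem_const ⟨a, ha⟩

theorem res_one : R.res 1 = 1 := by
  rw [R.res_of_mem R.Λ.one_mem]
  exact map_one R.ρ

theorem res_zero : R.res 0 = 0 := by
  rw [R.res_of_mem R.Λ.zero_mem]
  exact map_zero R.ρ

theorem res_add {w w' : F} (h : w ∈ R.Λ) (h' : w' ∈ R.Λ) :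
    R.res (w + w') = R.res w + R.res w' := by
  rw [R.res_of_mem h, R.res_of_mem h', R.res_of_mem (R.Λ.add_mem h h'), ← map_add]
  rfl

theorem res_mul {w w' : F} (h : w ∈ R.Λ) (h' : w' ∈ R.Λ) :
    R.res (w * w') = R.res w * R.res w' := by
  rw [R.res_of_mem h, R.res_of_mem h', R.res_of_mem (R.Λ.mul_mem h h'), ← map_mul]
  rfl

theorem res_neg {w : F} (h : w ∈ R.Λ) : R.res (-w) = -R.res w := by
  rw [R.res_of_mem h, R.res_of_mem (R.Λ.neg_mem h), ← map_neg]
  rfl

theorem res_sub {w w' : F} (h : w ∈ R.Λ) (h' : w' ∈ R.Λ) :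
    R.res (w - w') = R.res w - R.res w' := by
  rw [sub_eq_add_neg, R.res_add h (R.Λ.neg_mem h'), R.res_neg h', sub_eq_add_neg]

theorem res_pow {w : F} (h : w ∈ R.Λ) (n : ℕ) : R.res (w ^ n) = R.res w ^ n := by
  induction n with
  | zero => simp [R.res_one]
  | succ n ih => rw [pow_succ, pow_succ, R.res_mul (R.Λ.pow_mem h n) h, ih]

theorem res_sum {ι : Type*} (s : Finset ι) (f : ι → F) (h : ∀ i ∈ s, f i ∈ R.Λ) :
    R.res (∑ i ∈ s, f i) = ∑ i ∈ s, R.res (f i) := by
  classical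
  induction s using Finset.induction_on with
  | empty => simp [R.res_zero]
  | insert a s ha ih =>
    rw [Finset.sum_insert ha, Finset.sum_insert ha,
      R.res_add (h a (Finset.mem_insert_self a s))
        (R.Λ.sum_mem fun i hi => h i (Finset.mem_insert_of_mem hi)),
      ih fun i hi => h i (Finset.mem_insert_of_mem hi)]

theorem smul_mem {a : K} (ha : a ∈ A) {w : F} (h : w ∈ R.Λ) : a • w ∈ R.Λ := by
  rw [Algebra.smul_def]
  exact R.Λ.mul_mem (R.const_mem ha) h

theorem res_smul {a : K} (ha : a ∈ A) {w : F} (h : w ∈ R.Λ) :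
    R.res (a • w) = π ⟨a, ha⟩ • R.res w := by
  rw [Algebra.smul_def, Algebra.smul_def, R.res_mul (R.const_mem ha) h, R.res_const ha]

theorem res_const_mul_eq_zero {a : K} (ha : A.valuation a < 1) {w : F} (h : w ∈ R.Λ) :
    R.res (algebraMap K F a * w) = 0 := by
  have haA : a ∈ A := (A.valuation_le_one_iff a).mp ha.le
  have h0 : π ⟨a, haA⟩ = 0 := (res_eq_zero_iff R.surj ⟨a, haA⟩).mpr ha
  rw [R.res_mul (R.const_mem haA) h, R.res_const haA, h0, map_zero, zero_mul]

/-- A normalising constant. -/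
theorem exists_normalizer {w : F} (hw : w ≠ 0) :
    ∃ c : K, c ≠ 0 ∧ algebraMap K F c * w ∈ R.Λ ∧ R.res (algebraMap K F c * w) ≠ 0 := by
  obtain ⟨c, hc, h, h0⟩ := R.normalize w hw
  exact ⟨c, hc, h, by rwa [R.res_of_mem h]⟩

open Classical in
/-- The norm. -/
def nrm (w : F) : A.ValueGroup :=
  if hw : w = 0 then 0 else A.valuation (R.exists_normalizer hw).choose⁻¹

@[simp]
theorem nrm_zero : R.nrm 0 = 0 := dif_pos rfl

theorem valuation_le_of_normalizer {w : F} {c c' : K} (hc : c ≠ 0)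
    (h : algebraMap K F c * w ∈ R.Λ) (h0' : R.res (algebraMap K F c' * w) ≠ 0) :
    A.valuation c ≤ A.valuation c' := by
  by_contra hlt
  rw [not_le] at hlt
  -- `c' = a c` with `|a| < 1`
  have hv : A.valuation (c' / c) < 1 := by
    rw [map_div₀]
    have hpos : (0 : A.ValueGroup) < A.valuation c := zero_lt_iff.mpr ((Valuation.ne_zero_iff _).mpr hc)
    exact (div_lt_one₀ hpos).mpr hlt
  apply h0'
  have : algebraMap K F c' * w = algebraMap K F (c' / c) * (algebraMap K F c * w) := by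
    rw [← mul_assoc, ← map_mul, div_mul_cancel₀ _ hc]
  rw [this]
  exact R.res_const_mul_eq_zero hv h

theorem nrm_eq {w : F} {c : K} (hc : c ≠ 0)
    (h : algebraMap K F c * w ∈ R.Λ) (h0 : R.res (algebraMap K F c * w) ≠ 0) :
    R.nrm w = A.valuation c⁻¹ := by
  have hw : w ≠ 0 := by
    rintro rfl
    rw [mul_zero, R.res_zero] at h0
    exact h0 rfl
  unfold nrm
  rw [dif_neg hw]
  obtain ⟨h1, h2, h3⟩ := (R.exists_normalizer hw).choose_spec
  rw [map_inv₀, map_inv₀]
  congr 1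
  exact le_antisymm (R.valuation_le_of_normalizer h1 h2 h0)
    (R.valuation_le_of_normalizer hc h h3)

theorem exists_nrm {w : F} (hw : w ≠ 0) :
    ∃ c : K, c ≠ 0 ∧ R.nrm w = A.valuation c ∧ ∃ z : F, w = algebraMap K F c * z ∧ z ∈ R.Λ ∧
      R.res z ≠ 0 := by
  obtain ⟨c, hc, h, h0⟩ := R.exists_normalizer hw
  refine ⟨c⁻¹, inv_ne_zero hc, R.nrm_eq hc h h0, algebraMap K F c * w, ?_, h, h0⟩
  rw [← mul_assoc, ← map_mul, inv_mul_cancel₀ hc, map_one, one_mul]

theorem nrm_ne_zero {w : F} (hw : w ≠ 0) : R.nrm w ≠ 0 := by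
  obtain ⟨c, hc, h, -⟩ := R.exists_nrm hw
  rw [h]
  exact (Valuation.ne_zero_iff _).mpr hc

theorem nrm_eq_zero_iff {w : F} : R.nrm w = 0 ↔ w = 0 :=
  ⟨fun h => by_contra fun hw => R.nrm_ne_zero hw h, fun h => by rw [h, nrm_zero]⟩

theorem nrm_le_one_iff {w : F} : R.nrm w ≤ 1 ↔ w ∈ R.Λ := by
  rcases eq_or_ne w 0 with rfl | hw
  · simp [R.Λ.zero_mem]
  obtain ⟨c, hc, hn, z, rfl, hz, hz0⟩ := R.exists_nrm hw
  rw [hn]
  constructor
  · intro h
    exact R.Λ.mul_mem (R.const_mem ((A.valuation_le_one_iff c).mp h)) hz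
  · intro h
    by_contra hlt
    rw [not_le] at hlt
    apply hz0
    have hv : A.valuation c⁻¹ < 1 := by
      rw [map_inv₀]
      exact inv_lt_one_of_one_lt₀ hlt
    have : z = algebraMap K F c⁻¹ * (algebraMap K F c * z) := by
      rw [← mul_assoc, ← map_mul, inv_mul_cancel₀ hc, map_one, one_mul]
    rw [this]
    exact R.res_const_mul_eq_zero hv h

theorem nrm_lt_one_iff {w : F} : R.nrm w < 1 ↔ w ∈ R.Λ ∧ R.res w = 0 := by
  rcases eq_or_ne w 0 with rfl | hw
  · simp [R.Λ.zero_mem, R.res_zero]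
  constructor
  · intro h
    refine ⟨R.nrm_le_one_iff.mp h.le, ?_⟩
    obtain ⟨c, hc, hn, z, rfl, hz, hz0⟩ := R.exists_nrm hw
    rw [hn] at h
    exact R.res_const_mul_eq_zero h hz
  · rintro ⟨h, h0⟩
    refine lt_of_le_of_ne (R.nrm_le_one_iff.mpr h) fun h1 => ?_
    obtain ⟨c, hc, hn, z, rfl, hz, hz0⟩ := R.exists_nrm hw
    rw [hn] at h1
    have hcA : c ∈ A := (A.valuation_le_one_iff c).mp h1.le
    have hc0 : π ⟨c, hcA⟩ ≠ 0 := (res_ne_zero_iff R.surj ⟨c, hcA⟩).mpr h1
    rw [R.res_mul (R.const_mem hcA) hz, R.res_const hcA] at h0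
    have hu : IsUnit (algebraMap k Fk (π ⟨c, hcA⟩)) := (IsUnit.mk0 _ hc0).map _
    exact hz0 ((hu.mul_right_eq_zero).mp h0)

theorem nrm_const_mul (c : K) (w : F) :
    R.nrm (algebraMap K F c * w) = A.valuation c * R.nrm w := by
  rcases eq_or_ne c 0 with rfl | hc
  · simp
  rcases eq_or_ne w 0 with rfl | hw
  · simp
  obtain ⟨d, hd, h, h0⟩ := R.exists_normalizer hw
  have h1 : algebraMap K F (d * c⁻¹) * (algebraMap K F c * w) = algebraMap K F d * w := by
    rw [← mul_assoc, ← map_mul, mul_assoc, inv_mul_cancel₀ hc, mul_one]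
  rw [R.nrm_eq (c := d * c⁻¹) (mul_ne_zero hd (inv_ne_zero hc)) (by rwa [h1]) (by rwa [h1]),
    R.nrm_eq hd h h0, mul_inv, inv_inv, map_mul, mul_comm]

theorem nrm_smul (c : K) (w : F) : R.nrm (c • w) = A.valuation c * R.nrm w := by
  rw [Algebra.smul_def, R.nrm_const_mul]

theorem nrm_neg (w : F) : R.nrm (-w) = R.nrm w := by
  have := R.nrm_const_mul (-1) w
  rw [map_neg, map_one, Valuation.map_neg, map_one, one_mul] at this
  rwa [neg_one_mul] at this

/-- If `|w| ≤ |c|` then `w = c w'` with `w'` integral. -/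
theorem exists_eq_mul_of_nrm_le {w : F} {c : K} (hc : c ≠ 0) (h : R.nrm w ≤ A.valuation c) :
    ∃ w' ∈ R.Λ, w = algebraMap K F c * w' := by
  refine ⟨algebraMap K F c⁻¹ * w, ?_, ?_⟩
  · rw [← R.nrm_le_one_iff, R.nrm_const_mul, map_inv₀]
    have hpos : (0 : A.ValueGroup) < A.valuation c := zero_lt_iff.mpr ((Valuation.ne_zero_iff _).mpr hc)
    calc (A.valuation c)⁻¹ * R.nrm w ≤ (A.valuation c)⁻¹ * A.valuation c := by gcongr
      _ = 1 := inv_mul_cancel₀ hpos.ne'
  · rw [← mul_assoc, ← map_mul, mul_inv_cancel₀ hc, map_one, one_mul]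

theorem nrm_mul_le_of_mem {w : F} (c : K) (h : w ∈ R.Λ) :
    R.nrm (algebraMap K F c * w) ≤ A.valuation c := by
  rw [R.nrm_const_mul]
  exact mul_le_of_le_one_right' (R.nrm_le_one_iff.mpr h)

theorem nrm_add_le (w w' : F) : R.nrm (w + w') ≤ max (R.nrm w) (R.nrm w') := by
  wlog hle : R.nrm w ≤ R.nrm w' generalizing w w'
  · rw [add_comm, max_comm]
    exact this w' w (le_of_not_ge hle)
  rw [max_eq_right hle]
  rcases eq_or_ne w' 0 with rfl | hw'
  · rw [nrm_zero, nonpos_iff_eq_zero, R.nrm_eq_zero_iff] at hle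
    simp [hle]
  obtain ⟨c, hc, hn, z, rfl, hz, hz0⟩ := R.exists_nrm hw'
  rw [hn] at hle ⊢
  obtain ⟨y, hy, rfl⟩ := R.exists_eq_mul_of_nrm_le hc hle
  rw [← mul_add]
  exact R.nrm_mul_le_of_mem c (R.Λ.add_mem hy hz)

theorem nrm_sub_le (w w' : F) : R.nrm (w - w') ≤ max (R.nrm w) (R.nrm w') := by
  rw [sub_eq_add_neg]
  exact (R.nrm_add_le _ _).trans_eq (by rw [R.nrm_neg])

theorem nrm_mul_le (w w' : F) : R.nrm (w * w') ≤ R.nrm w * R.nrm w' := by
  rcases eq_or_ne w 0 with rfl | hw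
  · simp
  rcases eq_or_ne w' 0 with rfl | hw'
  · simp
  obtain ⟨c, hc, hn, z, rfl, hz, hz0⟩ := R.exists_nrm hw
  obtain ⟨c', hc', hn', z', rfl, hz', hz0'⟩ := R.exists_nrm hw'
  rw [hn, hn', ← map_mul]
  have : algebraMap K F c * z * (algebraMap K F c' * z') = algebraMap K F (c * c') * (z * z') := by
    rw [map_mul]; ring
  rw [this]
  exact R.nrm_mul_le_of_mem _ (R.Λ.mul_mem hz hz')

theorem nrm_pow [IsReduced Fk] (w : F) (n : ℕ) : R.nrm (w ^ n) = R.nrm w ^ n := by
  rcases Nat.eq_zero_or_pos n with rfl | hn0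
  · rcases subsingleton_or_nontrivial Fk with hs | hs
    · exfalso
      obtain ⟨c, -, h⟩ := R.exists_normalizer (one_ne_zero : (1 : F) ≠ 0)
      exact h.2 (Subsingleton.elim _ _)
    · rw [pow_zero, pow_zero]
      have := R.nrm_eq (w := 1) (c := 1) one_ne_zero (by simp [R.Λ.one_mem])
        (by simp [R.res_one])
      rw [this, inv_one, map_one]
  rcases eq_or_ne w 0 with rfl | hw
  · simp [hn0.ne']
  obtain ⟨c, hc, h, h0⟩ := R.exists_normalizer hw
  have h1 : algebraMap K F (c ^ n) * w ^ n = (algebraMap K F c * w) ^ n := by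
    rw [map_pow, mul_pow]
  rw [R.nrm_eq (c := c ^ n) (pow_ne_zero _ hc) (by rw [h1]; exact R.Λ.pow_mem h n)
    (by rw [h1, R.res_pow h]; exact pow_ne_zero n h0), R.nrm_eq hc h h0, map_inv₀, map_inv₀,
    map_pow, inv_pow]

include R in
theorem nontrivial : Nontrivial Fk := by
  rcases subsingleton_or_nontrivial Fk with hs | hs
  · exfalso
    obtain ⟨c, -, h⟩ := R.exists_normalizer (one_ne_zero : (1 : F) ≠ 0)
    exact h.2 (Subsingleton.elim _ _)
  · exact hs

theorem nrm_one : R.nrm 1 = 1 := by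
  have := R.nontrivial
  have := R.nrm_eq (w := 1) (c := 1) one_ne_zero (by simp [R.Λ.one_mem]) (by simp [R.res_one])
  rw [this, inv_one, map_one]

theorem nrm_const (c : K) : R.nrm (algebraMap K F c) = A.valuation c := by
  have := R.nrm_const_mul c 1
  rwa [mul_one, R.nrm_one, mul_one] at this

/-- Elements with reduction `1` are units of `Λ`. -/
theorem inv_mem_of_res_eq_one {w : F} (h : w ∈ R.Λ) (h1 : R.res w = 1)
    (hmul : ∀ w' : F, R.nrm (w * w') = R.nrm w') : w⁻¹ ∈ R.Λ ∧ R.res w⁻¹ = 1 := by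
  have hn := R.nontrivial
  have hw : w ≠ 0 := by
    rintro rfl
    rw [R.res_zero] at h1
    exact zero_ne_one h1
  have h2 : w⁻¹ ∈ R.Λ := by
    rw [← R.nrm_le_one_iff]
    have := hmul w⁻¹
    rw [mul_inv_cancel₀ hw, R.nrm_one] at this
    exact this.ge
  refine ⟨h2, ?_⟩
  have h3 := R.res_mul h h2
  rwa [mul_inv_cancel₀ hw, R.res_one, h1, one_mul, eq_comm] at h3

/-- Multiplication by an element congruent to `1` preserves the norm. -/
theorem nrm_mul_of_res_eq_one {w : F} (h : w ∈ R.Λ) (h1 : R.res w = 1) (w' : F) :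
    R.nrm (w * w') = R.nrm w' := by
  rcases eq_or_ne w' 0 with rfl | hw'
  · simp
  obtain ⟨c, hc, hm, h0⟩ := R.exists_normalizer hw'
  have h2 : algebraMap K F c * (w * w') = w * (algebraMap K F c * w') := by ring
  rw [R.nrm_eq hc (w := w * w') (by rw [h2]; exact R.Λ.mul_mem h hm)
    (by rw [h2, R.res_mul h hm, h1, one_mul]; exact h0), R.nrm_eq hc hm h0]

theorem inv_mem {w : F} (h : w ∈ R.Λ) (h1 : R.res w = 1) : w⁻¹ ∈ R.Λ :=
  (R.inv_mem_of_res_eq_one h h1 (R.nrm_mul_of_res_eq_one h h1)).1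

theorem res_inv {w : F} (h : w ∈ R.Λ) (h1 : R.res w = 1) : R.res w⁻¹ = 1 :=
  (R.inv_mem_of_res_eq_one h h1 (R.nrm_mul_of_res_eq_one h h1)).2

theorem ne_zero_of_res_eq_one {w : F} (h1 : R.res w = 1) : w ≠ 0 := by
  have := R.nontrivial
  rintro rfl
  rw [R.res_zero] at h1
  exact zero_ne_one h1

/-! ### Orthonormal families -/

/-- `b` is an orthonormal family. -/
structure IsOrtho {ι : Type*} (b : ι → F) : Prop where
  mem : ∀ i, b i ∈ R.Λ
  li : LinearIndependent k fun i => R.res (b i)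

variable {R}

namespace IsOrtho

variable {ι : Type*} [Fintype ι] {b : ι → F}

theorem res_sum (h : R.IsOrtho b) {c : ι → K} (hc : ∀ i, c i ∈ A) :
    R.res (∑ i, c i • b i) = ∑ i, π ⟨c i, hc i⟩ • R.res (b i) := by
  rw [R.res_sum _ _ fun i _ => R.smul_mem (hc i) (h.mem i)]
  exact Finset.sum_congr rfl fun i _ => R.res_smul (hc i) (h.mem i)

theorem sum_mem (h : R.IsOrtho b) {c : ι → K} (hc : ∀ i, c i ∈ A) :
    ∑ i, c i • b i ∈ R.Λ :=
  R.Λ.sum_mem fun i _ => R.smul_mem (hc i) (h.mem i)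

/-- The norm of a combination dominates all the coefficients. -/
theorem valuation_le (h : R.IsOrtho b) (c : ι → K) (i : ι) :
    A.valuation (c i) ≤ R.nrm (∑ i, c i • b i) := by
  classical
  obtain ⟨i₀, -, hmax⟩ := Finset.univ.exists_max_image (fun i => A.valuation (c i))
    ⟨i, Finset.mem_univ i⟩
  refine (hmax i (Finset.mem_univ i)).trans ?_
  rcases eq_or_ne (c i₀) 0 with h0 | h0
  · rw [h0, map_zero]; exact zero_le
  have hd : ∀ j, (c i₀)⁻¹ * c j ∈ A := by
    intro j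
    rw [← A.valuation_le_one_iff, map_mul, map_inv₀]
    have hpos : A.valuation (c i₀) ≠ 0 := (Valuation.ne_zero_iff _).mpr h0
    calc (A.valuation (c i₀))⁻¹ * A.valuation (c j)
        ≤ (A.valuation (c i₀))⁻¹ * A.valuation (c i₀) := by
          gcongr; exact hmax j (Finset.mem_univ j)
      _ = 1 := inv_mul_cancel₀ hpos
  have h1 : ∑ j, ((c i₀)⁻¹ * c j) • b j = (c i₀)⁻¹ • ∑ j, c j • b j := by
    rw [Finset.smul_sum]
    exact Finset.sum_congr rfl fun j _ => by rw [mul_smul]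
  have h2 : ¬ R.nrm (∑ j, ((c i₀)⁻¹ * c j) • b j) < 1 := by
    intro hlt
    have h3 := (R.nrm_lt_one_iff.mp hlt).2
    rw [h.res_sum hd] at h3
    have h4 := (linearIndependent_iff'.mp h.li) Finset.univ
      (fun i => π ⟨(c i₀)⁻¹ * c i, hd i⟩) h3 i₀ (Finset.mem_univ i₀)
    rw [res_eq_zero_iff R.surj] at h4
    simp only [inv_mul_cancel₀ h0, map_one, lt_irrefl] at h4
  rw [h1, R.nrm_smul, not_lt, map_inv₀] at h2
  have hpos : (0 : A.ValueGroup) < A.valuation (c i₀) :=
    zero_lt_iff.mpr ((Valuation.ne_zero_iff _).mpr h0)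
  calc A.valuation (c i₀) = A.valuation (c i₀) * 1 := (mul_one _).symm
    _ ≤ A.valuation (c i₀) * ((A.valuation (c i₀))⁻¹ * R.nrm (∑ j, c j • b j)) := by gcongr
    _ = R.nrm (∑ j, c j • b j) := by rw [← mul_assoc, mul_inv_cancel₀ hpos.ne', one_mul]

theorem nrm_le (h : R.IsOrtho b) {c : ι → K} {γ : A.ValueGroup}
    (hc : ∀ i, A.valuation (c i) ≤ γ) : R.nrm (∑ i, c i • b i) ≤ γ := by
  classical
  have key : ∀ s : Finset ι, R.nrm (∑ i ∈ s, c i • b i) ≤ γ := by
    intro s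
    induction s using Finset.induction_on with
    | empty => simp
    | insert a s ha ih =>
      rw [Finset.sum_insert ha]
      refine (R.nrm_add_le _ _).trans (max_le ?_ ih)
      rw [R.nrm_smul]
      exact (mul_le_of_le_one_right' (R.nrm_le_one_iff.mpr (h.mem a))).trans (hc a)
  exact key _

theorem nrm_le_iff (h : R.IsOrtho b) {c : ι → K} {γ : A.ValueGroup} :
    R.nrm (∑ i, c i • b i) ≤ γ ↔ ∀ i, A.valuation (c i) ≤ γ :=
  ⟨fun hγ i => (h.valuation_le c i).trans hγ, h.nrm_le⟩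

theorem linearIndependent (h : R.IsOrtho b) : LinearIndependent K b := by
  rw [Fintype.linearIndependent_iff]
  intro c hc i
  have h1 := h.valuation_le c i
  rw [hc, R.nrm_zero, nonpos_iff_eq_zero, map_eq_zero] at h1
  exact h1

end IsOrtho

end NormRed

end Fermat.Agent.DR.Ord
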