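import Fermat.Agent.DR.Ord.Main
import Fermat.Agent.DR.Nodal.Parity

/-!
# The glueing structure of a nodal datum
-/

set_option autoImplicit false
set_option linter.unusedSectionVars false

noncomputable section

open AlgebraicCurve Fermat.Agent.RR Fermat.Agent.JRED

namespace Fermat.Agent.DR.Ord

section OfRed

variable {K F k F₁ F₂ : Type*} [Field K] [Field F] [Algebra K F] [Field k] [Field F₁] [Field F₂]
  [Algebra k F₁] [Algebra k F₂] {A : ValuationSubring K} {π : A →+* k}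

/-- The integral elements for a pair of reductions. -/
def intRing (R₁ : RedDatum K F k F₁ A π) (R₂ : RedDatum K F k F₂ A π) : Subring F where
  carrier := {w | ∃ u, Red₂ R₁ R₂ w u}
  mul_mem' := by
    rintro w w' ⟨u, h⟩ ⟨u', h'⟩
    exact ⟨_, h.mul h'⟩
  one_mem' := ⟨1, Red₂.one⟩
  add_mem' := by
    rintro w w' ⟨u, h⟩ ⟨u', h'⟩
    exact ⟨_, h.add h'⟩
  zero_mem' := ⟨0, Red₂.zero⟩
  neg_mem' := by
    rintro w ⟨u, h⟩
    exact ⟨_, h.neg⟩

theorem choose_eq {R₁ : RedDatum K F k F₁ A π} {R₂ : RedDatum K F k F₂ A π}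
    (w : intRing R₁ R₂) {u : F₁ × F₂} (h : Red₂ R₁ R₂ (w : F) u) :
    Classical.choose w.2 = u := (Classical.choose_spec w.2).unique h

/-- The reduction datum with values in `F₁ × F₂`. -/
def ofRed (hπ : Function.Surjective π) (R₁ : RedDatum K F k F₁ A π)
    (R₂ : RedDatum K F k F₂ A π) : NormRed K F k (F₁ × F₂) A π where
  Λ := intRing R₁ R₂
  ρ :=
    { toFun := fun w => Classical.choose w.2
      map_one' := choose_eq _ Red₂.one
      map_mul' := fun w w' =>
        choose_eq _ ((Classical.choose_spec w.2).mul (Classical.choose_spec w'.2))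
      map_zero' := choose_eq _ Red₂.zero
      map_add' := fun w w' =>
        choose_eq _ ((Classical.choose_spec w.2).add (Classical.choose_spec w'.2)) }
  surj := hπ
  mem_const := fun a => ⟨_, Red₂.const a⟩
  ρ_const := fun a => choose_eq _ (Red₂.const a)
  normalize := by
    intro w hw
    obtain ⟨c, hc, u, hu, h⟩ := Red₂.normalize (R₁ := R₁) (R₂ := R₂) hw
    rw [Algebra.smul_def] at h
    refine ⟨c, hc, ⟨u, h⟩, ?_⟩
    show Classical.choose _ ≠ 0
    rw [choose_eq (⟨_, ⟨u, h⟩⟩ : intRing R₁ R₂) h]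
    exact hu

variable {hπ : Function.Surjective π} {R₁ : RedDatum K F k F₁ A π} {R₂ : RedDatum K F k F₂ A π}

theorem mem_ofRed {w : F} {u : F₁ × F₂} :
    (w ∈ (ofRed hπ R₁ R₂).Λ ∧ (ofRed hπ R₁ R₂).res w = u) ↔ Red₂ R₁ R₂ w u := by
  constructor
  · rintro ⟨h, rfl⟩
    rw [(ofRed hπ R₁ R₂).res_of_mem h]
    exact Classical.choose_spec h
  · intro h
    have hm : w ∈ (ofRed hπ R₁ R₂).Λ := ⟨u, h⟩
    refine ⟨hm, ?_⟩
    rw [(ofRed hπ R₁ R₂).res_of_mem hm]
    exact choose_eq _ h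

theorem mem_red_ofRed {V : Submodule K F} {u : F₁ × F₂} :
    u ∈ (ofRed hπ R₁ R₂).red V ↔ ∃ w ∈ V, Red₂ R₁ R₂ w u := by
  rw [NormRed.mem_red]
  constructor
  · rintro ⟨w, hw, h⟩
    exact ⟨w, hw, mem_ofRed.mp h⟩
  · rintro ⟨w, hw, h⟩
    exact ⟨w, hw, mem_ofRed.mpr h⟩

theorem hasBases_ofRed (h : ∀ W : Submodule K F, Module.Finite K W → HasOrthoPair R₁ R₂ W) :
    (ofRed hπ R₁ R₂).HasBases := by
  intro V hV
  obtain ⟨n, b, u, hb, hu, hspan⟩ := h V hV
  refine ⟨n, b, ⟨fun i => (mem_ofRed.mpr (hb i)).1, ?_⟩, hspan⟩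
  have : (fun i => (ofRed hπ R₁ R₂).res (b i)) = u := funext fun i => (mem_ofRed.mpr (hb i)).2
  rw [this]
  exact hu

end OfRed

section Nodal

variable {K F k F₁ F₂ : Type*} [Field K] [Field F] [Algebra K F] [Field k] [Field F₁] [Field F₂]
  [Algebra k F₁] [Algebra k F₂] [IsAlgClosed K] [IsAlgClosed k] [FunctionField K F]
  [FunctionField k F₁] [FunctionField k F₂] {A : ValuationSubring K} {π : A →+* k}

/-- Pairs of functions with bounded poles, glued at the nodes. -/
def glued (S : Finset (Place k F₁ × Place k F₂)) (B₁ : Divisor k F₁) (B₂ : Divisor k F₂) :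
    Submodule k (F₁ × F₂) where
  carrier := {u | u.1 ∈ riemannRochSpace B₁ ∧ u.2 ∈ riemannRochSpace B₂ ∧
    ∀ s ∈ S, ∃ c : k, Val s.1 u.1 c ∧ Val s.2 u.2 c}
  add_mem' := by
    rintro u u' ⟨h1, h2, h3⟩ ⟨h1', h2', h3'⟩
    refine ⟨Submodule.add_mem _ h1 h1', Submodule.add_mem _ h2 h2', fun s hs => ?_⟩
    obtain ⟨c, hc, hc'⟩ := h3 s hs
    obtain ⟨d, hd, hd'⟩ := h3' s hs
    exact ⟨c + d, hc.add hd, hc'.add hd'⟩
  zero_mem' := ⟨Submodule.zero_mem _, Submodule.zero_mem _, fun s _ => ⟨0, Val.zero, Val.zero⟩⟩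
  smul_mem' := by
    rintro a u ⟨h1, h2, h3⟩
    refine ⟨Submodule.smul_mem _ _ h1, Submodule.smul_mem _ _ h2, fun s hs => ?_⟩
    obtain ⟨c, hc, hc'⟩ := h3 s hs
    exact ⟨a * c, hc.smul a, hc'.smul a⟩

variable {S : Finset (Place k F₁ × Place k F₂)} {B₁ : Divisor k F₁} {B₂ : Divisor k F₂}

theorem mem_glued {u : F₁ × F₂} : u ∈ glued S B₁ B₂ ↔ u.1 ∈ riemannRochSpace B₁ ∧
    u.2 ∈ riemannRochSpace B₂ ∧ ∀ s ∈ S, ∃ c : k, Val s.1 u.1 c ∧ Val s.2 u.2 c := Iff.rfl

instance finite_glued : Module.Finite k (glued S B₁ B₂) := by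
  let f : glued S B₁ B₂ →ₗ[k] riemannRochSpace B₁ × riemannRochSpace B₂ :=
    { toFun := fun u => (⟨u.1.1, u.2.1⟩, ⟨u.1.2, u.2.2.1⟩)
      map_add' := fun _ _ => rfl
      map_smul' := fun _ _ => rfl }
  refine Module.Finite.of_injective f fun u v h => ?_
  have h1 := congrArg (fun x => (x.1 : F₁)) h
  have h2 := congrArg (fun x => (x.2 : F₂)) h
  exact Subtype.ext (Prod.ext h1 h2)

/-- The dimension of the space of glued pairs. -/
theorem finrank_glued_le (hinj : Set.InjOn Prod.fst (S : Set (Place k F₁ × Place k F₂)))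
    (hS : ∀ s ∈ S, B₁ s.1 = 0)
    (h1 : 2 * (genusFF k F₁ : ℤ) - 2 < Divisor.degree B₁ - S.card)
    (h2 : 2 * (genusFF k F₂ : ℤ) - 2 < Divisor.degree B₂) :
    (Module.finrank k (glued S B₁ B₂) : ℤ) ≤
      (Divisor.degree B₁ + 1 - genusFF k F₁) + (Divisor.degree B₂ + 1 - genusFF k F₂) -
        S.card := by
  classical
  let pr : glued S B₁ B₂ →ₗ[k] riemannRochSpace B₂ :=
    { toFun := fun u => ⟨u.1.2, u.2.2.1⟩
      map_add' := fun _ _ => rfl
      map_smul' := fun _ _ => rfl }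
  have hrn := LinearMap.finrank_range_add_finrank_ker pr
  have hrange : Module.finrank k (LinearMap.range pr) ≤ Module.finrank k (riemannRochSpace B₂) :=
    Submodule.finrank_le _
  let j : LinearMap.ker pr →ₗ[k] riemannRochSpace (B₁ - nodeDiv Prod.fst S) :=
    { toFun := fun u => ⟨u.1.1.1, by
        rw [mem_riemannRochSpace_iff]
        intro v
        rcases eq_or_ne u.1.1.1 0 with h0 | h0
        · exact Or.inl h0
        right
        have hv := (mem_riemannRochSpace_iff.mp u.1.2.1 v).resolve_left h0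
        by_cases hvS : ∃ s ∈ S, s.1 = v
        · obtain ⟨s, hs, rfl⟩ := hvS
          obtain ⟨c, hc, hc'⟩ := u.1.2.2.2 s hs
          have hz : u.1.1.2 = 0 := congrArg Subtype.val (LinearMap.mem_ker.mp u.2)
          rw [hz] at hc'
          have hc0 := hc'.unique Val.zero
          subst hc0
          have := (Val.zero_iff.mp hc).resolve_left h0
          rw [Finsupp.sub_apply, hS s hs, nodeDiv_apply_of_mem Prod.fst S hinj hs]
          linarith
        · push Not at hvS
          rw [Finsupp.sub_apply, nodeDiv_apply_of_notMem Prod.fst S hvS]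
          simpa using hv⟩
      map_add' := fun _ _ => rfl
      map_smul' := fun _ _ => rfl }
  have hj : Function.Injective j := by
    intro u v h
    have h1 : u.1.1.1 = v.1.1.1 := congrArg Subtype.val h
    have h2 : u.1.1.2 = v.1.1.2 := by
      have hu : u.1.1.2 = 0 := congrArg Subtype.val (LinearMap.mem_ker.mp u.2)
      have hv : v.1.1.2 = 0 := congrArg Subtype.val (LinearMap.mem_ker.mp v.2)
      rw [hu, hv]
    exact Subtype.ext (Subtype.ext (Prod.ext h1 h2))
  have hker := LinearMap.finrank_le_finrank_of_injective hj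
  have hdeg : Divisor.degree (B₁ - nodeDiv Prod.fst S) = Divisor.degree B₁ - S.card := by
    rw [map_sub, degree_nodeDiv]
  have e1 := finrank_riemannRochSpace_eq (D := B₁ - nodeDiv Prod.fst S) (by rwa [hdeg])
  have e2 := finrank_riemannRochSpace_eq (D := B₂) h2
  rw [hdeg] at e1
  have h3 : (Module.finrank k (glued S B₁ B₂) : ℤ) =
      Module.finrank k (LinearMap.range pr) + Module.finrank k (LinearMap.ker pr) := by
    exact_mod_cast hrn.symm
  have h4 : (Module.finrank k (LinearMap.range pr) : ℤ) ≤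
      Module.finrank k (riemannRochSpace B₂) := by exact_mod_cast hrange
  have h5 : (Module.finrank k (LinearMap.ker pr) : ℤ) ≤
      Module.finrank k (riemannRochSpace (B₁ - nodeDiv Prod.fst S)) := by exact_mod_cast hker
  linarith

variable (X : NodalDatum K F k F₁ F₂ A π)

/-- For large `m`, the reductions of `L(m E)` are exactly the glued pairs. -/
theorem exists_red_eq_glued (hπ : Function.Surjective π) :
    ∃ n₀ : ℕ, ∀ m : ℕ, n₀ ≤ m →
      (ofRed hπ X.R₁ X.R₂).red (riemannRochSpace (m • polesOf (K := K) X.x)) =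
        glued X.nodes (m • polesOf (K := k) X.x₁) (m • polesOf (K := k) X.x₂) := by
  have hd₁ := polesOf_pos_of_transcendental X.transcendental₁
  have hd₂ := polesOf_pos_of_transcendental X.transcendental₂
  obtain ⟨a, ha⟩ := exists_nsmul_gt hd₁ (2 * (genusFF k F₁ : ℤ) - 2 + X.nodes.card)
  obtain ⟨b, hb⟩ := exists_nsmul_gt hd₂ (2 * (genusFF k F₂ : ℤ) - 2)
  obtain ⟨c, hc⟩ := exists_nsmul_gt (e := Divisor.degree (polesOf (K := K) X.x))
    (by rw [X.degree_eq]; omega) (2 * (genusFF K F : ℤ) - 2)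
  refine ⟨max a (max b c), fun m hm => ?_⟩
  have ha' := ha m (le_trans (le_max_left _ _) hm)
  have hb' := hb m (le_trans (le_trans (le_max_left _ _) (le_max_right _ _)) hm)
  have hc' := hc m (le_trans (le_trans (le_max_right _ _) (le_max_right _ _)) hm)
  apply Submodule.eq_of_le_of_finrank_le
  · intro u hu
    obtain ⟨w, hw, hred⟩ := mem_red_ofRed.mp hu
    exact ⟨X.mem₁ m w u hw hred, X.mem₂ m w u hw hred, X.glue m w u hw hred⟩
  · have h1 : Module.finrank k ((ofRed hπ X.R₁ X.R₂).red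
        (riemannRochSpace (m • polesOf (K := K) X.x))) =
        Module.finrank K (riemannRochSpace (m • polesOf (K := K) X.x)) :=
      (hasBases_ofRed X.ortho).finrank_red _
    rw [h1]
    have h2 := finrank_riemannRochSpace_eq (D := m • polesOf (K := K) X.x) (by
      rw [map_nsmul, nsmul_eq_mul]; exact hc')
    have h3 := finrank_glued_le (S := X.nodes) (B₁ := m • polesOf (K := k) X.x₁)
      (B₂ := m • polesOf (K := k) X.x₂) X.injOn_fst (fun s hs => by
        rw [Finsupp.smul_apply, poles_node₁ hs, smul_zero]) (by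
        rw [map_nsmul, nsmul_eq_mul]; linarith) (by rw [map_nsmul, nsmul_eq_mul]; exact hb')
    rw [map_nsmul, nsmul_eq_mul] at h2
    rw [map_nsmul, nsmul_eq_mul, map_nsmul, nsmul_eq_mul] at h3
    have h4 := X.degree_eq
    have h5 := X.genus_le
    have h6 : ((genusFF K F : ℤ) + 1 ≤ genusFF k F₁ + genusFF k F₂ + X.nodes.card) := by
      exact_mod_cast h5
    rw [h4] at h2
    have h7 : (Module.finrank k (glued X.nodes (m • polesOf (K := k) X.x₁)
        (m • polesOf (K := k) X.x₂)) : ℤ) ≤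
        Module.finrank K (riemannRochSpace (m • polesOf (K := K) X.x)) := by
      rw [h2]
      nlinarith
    exact_mod_cast h7

/-! ### Multiplication by powers of `x` -/

theorem x_ne_zero : X.x ≠ 0 := by
  intro h
  have h1 := X.red₁
  rw [h] at h1
  have h2 := X.R₁.unique h1 X.R₁.zero
  exact X.transcendental₁ (by rw [h2]; exact isAlgebraic_zero)

theorem x₁_ne_zero : X.x₁ ≠ 0 := fun h => X.transcendental₁ (by rw [h]; exact isAlgebraic_zero)

theorem x₂_ne_zero : X.x₂ ≠ 0 := fun h => X.transcendental₂ (by rw [h]; exact isAlgebraic_zero)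

/-- `div x` as a difference. -/
theorem ord_eq_sub {K' E : Type*} [Field K'] [Field E] [Algebra K' E] [HasPrincipalDivisors K' E]
    (y : E) (v : Place K' E) :
    v.ord y = polesOf (K := K') y⁻¹ v - polesOf (K := K') y v := by
  rw [polesOf_apply, polesOf_apply, v.ord_inv, neg_neg]
  rcases le_total 0 (v.ord y) with h | h
  · rw [max_eq_left h, max_eq_right (by linarith)]; ring
  · rw [max_eq_right h, max_eq_left (by linarith)]; ring

theorem polesOf_disj {K' E : Type*} [Field K'] [Field E] [Algebra K' E]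
    [HasPrincipalDivisors K' E] (y : E) (v : Place K' E) :
    polesOf (K := K') y v = 0 ∨ polesOf (K := K') y⁻¹ v = 0 := by
  rw [polesOf_apply, polesOf_apply, v.ord_inv, neg_neg]
  rcases le_total 0 (v.ord y) with h | h
  · left; exact max_eq_right (by linarith)
  · right; exact max_eq_right h

/-- Multiplication by `y ^ m` on Riemann-Roch spaces. -/
theorem mul_pow_mem_iff {K' E : Type*} [Field K'] [Field E] [Algebra K' E]
    [HasPrincipalDivisors K' E] {y : E} (hy : y ≠ 0) (B : Divisor K' E) (m : ℕ) (w : E) :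
    y ^ m * w ∈ riemannRochSpace (B + m • polesOf (K := K') y) ↔
      w ∈ riemannRochSpace (B + m • polesOf (K := K') y⁻¹) := by
  rw [mem_riemannRochSpace_iff, mem_riemannRochSpace_iff]
  refine forall_congr' fun v => ?_
  rcases eq_or_ne w 0 with rfl | hw
  · simp
  have h1 : y ^ m * w ≠ 0 := mul_ne_zero (pow_ne_zero _ hy) hw
  rw [or_iff_right hw, or_iff_right h1, v.ord_mul (pow_ne_zero _ hy) hw, ord_pow, ord_eq_sub]
  simp only [Finsupp.add_apply, Finsupp.smul_apply, nsmul_eq_mul]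
  constructor <;> intro h <;> linarith

/-- The values of `x` at the nodes. -/
theorem exists_val_x {s : Place k F₁ × Place k F₂} (hs : s ∈ X.nodes) :
    ∃ a : k, a ≠ 0 ∧ Val s.1 X.x₁ a ∧ Val s.2 X.x₂ a := by
  have hx : X.x ∈ riemannRochSpace (1 • polesOf (K := K) X.x) := by
    rw [mem_riemannRochSpace_iff]
    intro v
    right
    rw [one_smul, polesOf_apply]
    have := le_max_left (-v.ord X.x) 0
    linarith
  obtain ⟨c, hc1, hc2⟩ := X.glue 1 X.x (X.x₁, X.x₂) hx ⟨X.red₁, X.red₂⟩ s hs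
  refine ⟨c, ?_, hc1, hc2⟩
  rintro rfl
  have h1 := (Val.zero_iff.mp hc1).resolve_left (x₁_ne_zero X)
  rw [X.ord_x₁ s hs] at h1
  exact lt_irrefl _ h1

theorem red_mul_pow (hπ : Function.Surjective π) (B : Divisor K F) (m : ℕ) (u : F₁ × F₂) :
    u ∈ (ofRed hπ X.R₁ X.R₂).red (riemannRochSpace (B + m • polesOf (K := K) X.x⁻¹)) ↔
      (X.x₁ ^ m * u.1, X.x₂ ^ m * u.2) ∈
        (ofRed hπ X.R₁ X.R₂).red (riemannRochSpace (B + m • polesOf (K := K) X.x)) := by
  have hxred : Red₂ X.R₁ X.R₂ (X.x ^ m) (X.x₁ ^ m, X.x₂ ^ m) :=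
    Red₂.pow (u := (X.x₁, X.x₂)) ⟨X.red₁, X.red₂⟩ m
  have h1 : X.x₁ ^ m ≠ 0 := pow_ne_zero _ (x₁_ne_zero X)
  have h2 : X.x₂ ^ m ≠ 0 := pow_ne_zero _ (x₂_ne_zero X)
  have h0 : X.x ^ m ≠ 0 := pow_ne_zero _ (x_ne_zero X)
  rw [mem_red_ofRed, mem_red_ofRed]
  constructor
  · rintro ⟨w, hw, hr⟩
    exact ⟨X.x ^ m * w, (mul_pow_mem_iff (x_ne_zero X) B m w).mpr hw, hxred.mul hr⟩
  · rintro ⟨w, hw, hr⟩
    refine ⟨(X.x ^ m)⁻¹ * w, ?_, ?_⟩
    · rw [← mul_pow_mem_iff (x_ne_zero X) B m, mul_inv_cancel_left₀ h0]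
      exact hw
    · have h3 := (Red₂.inv hπ hxred h1 h2).mul hr
      convert h3 using 1
      ext
      · simp only [Prod.fst_mul]
        rw [inv_mul_cancel_left₀ h1]
      · simp only [Prod.snd_mul]
        rw [inv_mul_cancel_left₀ h2]

theorem glued_mul_pow (B₁ : Divisor k F₁) (B₂ : Divisor k F₂) (m : ℕ) (u : F₁ × F₂) :
    u ∈ glued X.nodes (B₁ + m • polesOf (K := k) X.x₁⁻¹) (B₂ + m • polesOf (K := k) X.x₂⁻¹) ↔
      (X.x₁ ^ m * u.1, X.x₂ ^ m * u.2) ∈
        glued X.nodes (B₁ + m • polesOf (K := k) X.x₁) (B₂ + m • polesOf (K := k) X.x₂) := by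
  rw [mem_glued, mem_glued, mul_pow_mem_iff (x₁_ne_zero X), mul_pow_mem_iff (x₂_ne_zero X)]
  refine and_congr_right fun h1 => and_congr_right fun h2 => forall₂_congr fun s hs => ?_
  obtain ⟨a, ha0, ha1, ha2⟩ := exists_val_x X hs
  constructor
  · rintro ⟨c, hc1, hc2⟩
    exact ⟨a ^ m * c, (ha1.pow m).mul hc1, (ha2.pow m).mul hc2⟩
  · rintro ⟨c, hc1, hc2⟩
    have key₁ : ∃ d, Val s.1 u.1 d := by
      rcases eq_or_ne u.1 0 with h0 | h0
      · exact ⟨0, by rw [h0]; exact Val.zero⟩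
      · apply Val.exists_of_ord
        have h3 := hc1.ord_nonneg
        rw [s.1.ord_mul (pow_ne_zero _ (x₁_ne_zero X)) h0, ord_pow, X.ord_x₁ s hs] at h3
        simpa using h3
    have key₂ : ∃ d, Val s.2 u.2 d := by
      rcases eq_or_ne u.2 0 with h0 | h0
      · exact ⟨0, by rw [h0]; exact Val.zero⟩
      · apply Val.exists_of_ord
        have h3 := hc2.ord_nonneg
        rw [s.2.ord_mul (pow_ne_zero _ (x₂_ne_zero X)) h0, ord_pow, X.ord_x₂ s hs] at h3
        simpa using h3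
    obtain ⟨d₁, hd₁⟩ := key₁
    obtain ⟨d₂, hd₂⟩ := key₂
    have e1 := hc1.unique ((ha1.pow m).mul hd₁)
    have e2 := hc2.unique ((ha2.pow m).mul hd₂)
    have e3 : d₁ = d₂ := mul_left_cancel₀ (pow_ne_zero m ha0) (e1.symm.trans e2)
    subst e3
    exact ⟨d₁, hd₁, hd₂⟩

/-- For large `m`, the reductions of `L(m E)`, `L(m E')` and `L(m (E + E'))` are the glued
pairs, where `E`, `E'` are the divisors of poles and of zeros of `x`. -/
theorem exists_red_eq_glued' (hπ : Function.Surjective π) :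
    ∃ n₀ : ℕ, 0 < n₀ ∧ ∀ m : ℕ, n₀ ≤ m →
      (ofRed hπ X.R₁ X.R₂).red (riemannRochSpace (m • polesOf (K := K) X.x)) =
        glued X.nodes (m • polesOf (K := k) X.x₁) (m • polesOf (K := k) X.x₂) ∧
      (ofRed hπ X.R₁ X.R₂).red (riemannRochSpace (m • polesOf (K := K) X.x⁻¹)) =
        glued X.nodes (m • polesOf (K := k) X.x₁⁻¹) (m • polesOf (K := k) X.x₂⁻¹) ∧
      (ofRed hπ X.R₁ X.R₂).red
          (riemannRochSpace (m • (polesOf (K := K) X.x + polesOf (K := K) X.x⁻¹))) =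
        glued X.nodes (m • (polesOf (K := k) X.x₁ + polesOf (K := k) X.x₁⁻¹))
          (m • (polesOf (K := k) X.x₂ + polesOf (K := k) X.x₂⁻¹)) := by
  obtain ⟨n₀, hn₀⟩ := exists_red_eq_glued X hπ
  refine ⟨n₀ + 1, Nat.succ_pos _, fun m hm => ⟨hn₀ m (by omega), ?_, ?_⟩⟩
  · ext u
    have h1 := red_mul_pow X hπ 0 m u
    have h2 := glued_mul_pow X 0 0 m u
    simp only [zero_add] at h1 h2
    rw [h1, h2, hn₀ m (by omega)]
  · ext u
    have h1 := red_mul_pow X hπ (m • polesOf (K := K) X.x) m u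
    have h2 := glued_mul_pow X (m • polesOf (K := k) X.x₁) (m • polesOf (K := k) X.x₂) m u
    rw [smul_add, smul_add, smul_add, h1, h2, ← add_smul, ← add_smul, ← add_smul,
      hn₀ (m + m) (by omega)]

theorem mem_of_pow_mem {K' E : Type*} [Field K'] [Field E] [Algebra K' E] {p : ℕ} (hp : 0 < p)
    {B : Divisor K' E} {t : E} (h : t ^ p ∈ riemannRochSpace (p • B)) :
    t ∈ riemannRochSpace B := by
  rw [mem_riemannRochSpace_iff] at h ⊢
  intro v
  rcases eq_or_ne t 0 with h0 | h0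
  · exact Or.inl h0
  right
  have h1 := (h v).resolve_left (pow_ne_zero p h0)
  rw [ord_pow, Finsupp.smul_apply, nsmul_eq_mul] at h1
  have hp' : (0 : ℤ) < p := by exact_mod_cast hp
  by_contra h2
  push Not at h2
  nlinarith

/-- `p`-th roots of glued pairs are glued. -/
theorem glued_root {p : ℕ} [hpf : Fact p.Prime] [CharP k p]
    {S : Finset (Place k F₁ × Place k F₂)} {B₁ : Divisor k F₁} {B₂ : Divisor k F₂}
    (hS₁ : ∀ s ∈ S, B₁ s.1 = 0) (hS₂ : ∀ s ∈ S, B₂ s.2 = 0) {t : F₁ × F₂}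
    (h : t ^ p ∈ glued S (p • B₁) (p • B₂)) : t ∈ glued S B₁ B₂ := by
  obtain ⟨h1, h2, h3⟩ := h
  have hp := hpf.out.pos
  have m1 : t.1 ∈ riemannRochSpace B₁ := mem_of_pow_mem hp h1
  have m2 : t.2 ∈ riemannRochSpace B₂ := mem_of_pow_mem hp h2
  refine ⟨m1, m2, fun s hs => ?_⟩
  obtain ⟨c, hc1, hc2⟩ := h3 s hs
  have key₁ : ∃ d, Val s.1 t.1 d := by
    rcases eq_or_ne t.1 0 with h0 | h0
    · exact ⟨0, by rw [h0]; exact Val.zero⟩
    · apply Val.exists_of_ord
      have := (mem_riemannRochSpace_iff.mp m1 s.1).resolve_left h0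
      rw [hS₁ s hs, neg_zero] at this
      exact this
  have key₂ : ∃ d, Val s.2 t.2 d := by
    rcases eq_or_ne t.2 0 with h0 | h0
    · exact ⟨0, by rw [h0]; exact Val.zero⟩
    · apply Val.exists_of_ord
      have := (mem_riemannRochSpace_iff.mp m2 s.2).resolve_left h0
      rw [hS₂ s hs, neg_zero] at this
      exact this
  obtain ⟨d₁, hd₁⟩ := key₁
  obtain ⟨d₂, hd₂⟩ := key₂
  have e1 : c = d₁ ^ p := hc1.unique (hd₁.pow p)
  have e2 : c = d₂ ^ p := hc2.unique (hd₂.pow p)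
  have e3 : d₁ = d₂ := by
    have h4 : (d₁ - d₂) ^ p = 0 := by
      rw [sub_pow_char, ← e1, ← e2, sub_self]
    exact sub_eq_zero.mp ((pow_eq_zero_iff hpf.out.ne_zero).mp h4)
  subst e3
  exact ⟨d₁, hd₁, hd₂⟩

/-- Separation of poles. -/
theorem mem_of_sub_mem {K' E : Type*} [Field K'] [Field E] [Algebra K' E]
    {B B' C C' : Divisor K' E} (hdisj : ∀ v, B' v = 0 ∧ C' v = 0 ∨ B v = 0 ∧ C v = 0)
    (hB : 0 ≤ B) {r r' : E} (hr : r ∈ riemannRochSpace C) (hr' : r' ∈ riemannRochSpace C')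
    (h : r - r' ∈ riemannRochSpace (B + B')) : r ∈ riemannRochSpace B := by
  rw [mem_riemannRochSpace_iff] at hr hr' h ⊢
  intro v
  rcases eq_or_ne r 0 with h0 | h0
  · exact Or.inl h0
  right
  rcases hdisj v with ⟨e1, e2⟩ | ⟨e1, e2⟩
  · rcases eq_or_ne r' 0 with h0' | h0'
    · subst h0'
      rw [sub_zero] at h
      have := (h v).resolve_left h0
      rwa [Finsupp.add_apply, e1, add_zero] at this
    · rcases eq_or_ne (r - r') 0 with h1 | h1
      · rw [sub_eq_zero] at h1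
        subst h1
        have := (hr' v).resolve_left h0
        rw [e2] at this
        have hBv := hB v
        simp only [Finsupp.coe_zero, Pi.zero_apply] at hBv
        linarith
      · have h2 := (h v).resolve_left h1
        rw [Finsupp.add_apply, e1, add_zero] at h2
        have h3 := (hr' v).resolve_left h0'
        rw [e2] at h3
        have hBv := hB v
        simp only [Finsupp.coe_zero, Pi.zero_apply] at hBv
        have h4 : (r - r') + r' ≠ 0 := by rwa [sub_add_cancel]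
        have h5 := Fermat.Agent.RR.ord_add v h4
        rw [sub_add_cancel] at h5
        have h6 := min_le_iff.mp h5
        rcases h6 with h6 | h6 <;> linarith
  · have := (hr v).resolve_left h0
    rw [e2] at this
    rw [e1]
    exact this

theorem degree_polesOf_inv {K' E : Type*} [Field K'] [Field E] [Algebra K' E]
    [HasPrincipalDivisors K' E] (y : E) :
    Divisor.degree (polesOf (K := K') y⁻¹) = Divisor.degree (polesOf (K := K') y) := by
  have h1 : (divOf y : Divisor K' E) = polesOf (K := K') y⁻¹ - polesOf (K := K') y := by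
    ext v
    rw [divOf_apply, Finsupp.sub_apply, ord_eq_sub]
  have h2 := degree_divOf (K := K') y
  rw [h1, map_sub, sub_eq_zero] at h2
  exact h2

theorem polesOf_inv_eq_zero {K' E : Type*} [Field K'] [Field E] [Algebra K' E]
    [HasPrincipalDivisors K' E] {y : E} {v : Place K' E} (h : v.ord y = 0) :
    polesOf (K := K') y⁻¹ v = 0 := by
  rw [polesOf_apply, v.ord_inv, h]; simp

theorem const_of_mem_inf {K' E : Type*} [Field K'] [IsAlgClosed K'] [Field E] [Algebra K' E]
    [FunctionField K' E] {B B' : Divisor K' E} (hdisj : ∀ v, B v = 0 ∨ B' v = 0) {r : E}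
    (h : r ∈ riemannRochSpace B) (h' : r ∈ riemannRochSpace B') :
    ∃ c : K', r = algebraMap K' E c := by
  apply exists_const_of_forall_ord_nonneg
  intro v
  rcases eq_or_ne r 0 with h0 | h0
  · rw [h0, v.ord_zero]
  rcases hdisj v with h1 | h1
  · have := (mem_riemannRochSpace_iff.mp h v).resolve_left h0
    rwa [h1, neg_zero] at this
  · have := (mem_riemannRochSpace_iff.mp h' v).resolve_left h0
    rwa [h1, neg_zero] at this

theorem disj_aux {K' E : Type*} [Field K'] [Field E] [Algebra K' E]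
    [HasPrincipalDivisors K' E] (y : E) (m m' : ℕ) (v : Place K' E) :
    (m • polesOf (K := K') y⁻¹) v = 0 ∧ (m' • polesOf (K := K') y⁻¹) v = 0 ∨
      (m • polesOf (K := K') y) v = 0 ∧ (m' • polesOf (K := K') y) v = 0 := by
  simp only [Finsupp.smul_apply]
  rcases polesOf_disj (K' := K') y v with h | h
  · right; rw [h, smul_zero, smul_zero]; exact ⟨rfl, rfl⟩
  · left; rw [h, smul_zero, smul_zero]; exact ⟨rfl, rfl⟩

theorem disj_aux' {K' E : Type*} [Field K'] [Field E] [Algebra K' E]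
    [HasPrincipalDivisors K' E] (y : E) (m m' : ℕ) (v : Place K' E) :
    (m • polesOf (K := K') y) v = 0 ∧ (m' • polesOf (K := K') y) v = 0 ∨
      (m • polesOf (K := K') y⁻¹) v = 0 ∧ (m' • polesOf (K := K') y⁻¹) v = 0 :=
  (disj_aux y m m' v).symm

/-- **The glueing structure of a nodal datum.** -/
theorem exists_glue (hπ : Function.Surjective π) (p : ℕ) [hpf : Fact p.Prime] [CharP k p] :
    ∃ n₀ : ℕ, 0 < n₀ ∧ Glue (ofRed hπ X.R₁ X.R₂) p (n₀ • polesOf (K := K) X.x)
      (n₀ • polesOf (K := K) X.x⁻¹) := by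
  obtain ⟨n₁, hn₁, hred⟩ := exists_red_eq_glued' X hπ
  have hd₁ := polesOf_pos_of_transcendental X.transcendental₁
  have hd₂ := polesOf_pos_of_transcendental X.transcendental₂
  obtain ⟨c, hc⟩ := exists_nsmul_gt (e := Divisor.degree (polesOf (K := K) X.x))
    (by rw [X.degree_eq]; omega) (2 * (genusFF K F : ℤ) - 2)
  set n₀ := max n₁ c with hn₀
  have hp := hpf.out.pos
  have hpos : 0 < n₀ := lt_of_lt_of_le hn₁ (le_max_left _ _)
  have hle : ∀ n : ℕ, 0 < n → n₁ ≤ n * n₀ := fun n hn =>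
    (le_max_left n₁ c).trans (Nat.le_mul_of_pos_left n₀ hn)
  have hle' : ∀ n : ℕ, 0 < n → n₁ ≤ p * n * n₀ := fun n hn => hle _ (Nat.mul_pos hp hn)
  have hnode : ∀ m : ℕ, ∀ s ∈ X.nodes, (m • polesOf (K := k) X.x₁) s.1 = 0 ∧
      (m • polesOf (K := k) X.x₂) s.2 = 0 ∧ (m • polesOf (K := k) X.x₁⁻¹) s.1 = 0 ∧
      (m • polesOf (K := k) X.x₂⁻¹) s.2 = 0 := by
    intro m s hs
    refine ⟨?_, ?_, ?_, ?_⟩
    · rw [Finsupp.smul_apply, poles_node₁ hs, smul_zero]
    · rw [Finsupp.smul_apply, poles_node₂ hs, smul_zero]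
    · rw [Finsupp.smul_apply, polesOf_inv_eq_zero (X.ord_x₁ s hs), smul_zero]
    · rw [Finsupp.smul_apply, polesOf_inv_eq_zero (X.ord_x₂ s hs), smul_zero]
  refine ⟨n₀, hpos, hasBases_ofRed X.ortho, smul_nonneg (Nat.zero_le _) (polesOf_nonneg _),
    smul_nonneg (Nat.zero_le _) (polesOf_nonneg _), ?_, ?_, ?_, ?_, ?_, ?_, ?_, ?_⟩
  · intro v
    rw [Finsupp.smul_apply, Finsupp.smul_apply]
    rcases polesOf_disj (K' := K) X.x v with h | h
    · left; rw [h, smul_zero]
    · right; rw [h, smul_zero]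
  · rw [map_nsmul, nsmul_eq_mul]
    exact hc n₀ (le_max_right _ _)
  · rw [map_nsmul, nsmul_eq_mul, degree_polesOf_inv]
    exact hc n₀ (le_max_right _ _)
  · intro n hn t ht
    rw [smul_smul] at ht ⊢
    rw [(hred _ (hle' n hn)).1] at ht
    rw [(hred _ (hle n hn)).1]
    apply glued_root (p := p) (fun s hs => (hnode _ s hs).1) (fun s hs => (hnode _ s hs).2.1)
    rwa [smul_smul, smul_smul, ← mul_assoc]
  · intro n hn t ht
    rw [smul_smul] at ht ⊢
    rw [(hred _ (hle' n hn)).2.1] at ht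
    rw [(hred _ (hle n hn)).2.1]
    apply glued_root (p := p) (fun s hs => (hnode _ s hs).2.2.1)
      (fun s hs => (hnode _ s hs).2.2.2)
    rwa [smul_smul, smul_smul, ← mul_assoc]
  · intro n hn t ht
    rw [← smul_add, smul_smul] at ht ⊢
    rw [(hred _ (hle' n hn)).2.2] at ht
    rw [(hred _ (hle n hn)).2.2]
    apply glued_root (p := p) (fun s hs => by
      have := hnode (n * n₀) s hs
      rw [smul_add, Finsupp.add_apply, this.1, this.2.2.1, add_zero]) (fun s hs => by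
      have := hnode (n * n₀) s hs
      rw [smul_add, Finsupp.add_apply, this.2.1, this.2.2.2, add_zero])
    rwa [smul_smul, smul_smul, ← mul_assoc]
  · intro n hn r hr r' hr' hrr
    rw [smul_smul, (hred _ (hle' n hn)).1] at hr
    rw [smul_smul, (hred _ (hle' n hn)).2.1] at hr'
    rw [← smul_add, smul_smul, (hred _ (hle n hn)).2.2] at hrr
    rw [smul_smul, smul_smul, (hred _ (hle n hn)).1, (hred _ (hle n hn)).2.1]
    rw [smul_add] at hrr
    obtain ⟨h1, h2, h3⟩ := hr
    obtain ⟨h1', h2', h3'⟩ := hr'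
    obtain ⟨h1'', h2'', h3''⟩ := hrr
    rw [Prod.fst_sub] at h1''
    rw [Prod.snd_sub] at h2''
    have hn1 : ∀ {y : F₁} (m : ℕ), 0 ≤ m • polesOf (K := k) y := fun m =>
      smul_nonneg (Nat.zero_le _) (polesOf_nonneg _)
    have hn2 : ∀ {y : F₂} (m : ℕ), 0 ≤ m • polesOf (K := k) y := fun m =>
      smul_nonneg (Nat.zero_le _) (polesOf_nonneg _)
    refine ⟨⟨mem_of_sub_mem (disj_aux X.x₁ _ _) (hn1 _) h1 h1' h1'',
      mem_of_sub_mem (disj_aux X.x₂ _ _) (hn2 _) h2 h2' (by rwa [smul_add] at h2''), h3⟩,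
      ⟨mem_of_sub_mem (disj_aux' X.x₁ _ _) (hn1 _) h1' h1 ?_,
      mem_of_sub_mem (disj_aux' X.x₂ _ _) (hn2 _) h2' h2 ?_, h3'⟩⟩
    · rw [← neg_sub, add_comm]
      exact Submodule.neg_mem _ h1''
    · rw [smul_add] at h2''
      rw [← neg_sub, add_comm]
      exact Submodule.neg_mem _ h2''
  · intro n hn r hr hr'
    rw [smul_smul, (hred _ (hle n hn)).1] at hr
    rw [smul_smul, (hred _ (hle n hn)).2.1] at hr'
    obtain ⟨c₁, hc₁⟩ := const_of_mem_inf (fun v => by
      rw [Finsupp.smul_apply, Finsupp.smul_apply]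
      rcases polesOf_disj (K' := k) X.x₁ v with h | h
      · left; rw [h, smul_zero]
      · right; rw [h, smul_zero]) hr.1 hr'.1
    obtain ⟨c₂, hc₂⟩ := const_of_mem_inf (fun v => by
      rw [Finsupp.smul_apply, Finsupp.smul_apply]
      rcases polesOf_disj (K' := k) X.x₂ v with h | h
      · left; rw [h, smul_zero]
      · right; rw [h, smul_zero]) hr.2.1 hr'.2.1
    obtain ⟨s, hs⟩ := X.nodes_nonempty
    obtain ⟨d, hd1, hd2⟩ := hr.2.2 s hs
    rw [hc₁] at hd1
    rw [hc₂] at hd2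
    have e1 := hd1.unique (Val.const c₁)
    have e2 := hd2.unique (Val.const c₂)
    refine ⟨d, Prod.ext ?_ ?_⟩
    · rw [hc₁, e1]; rfl
    · rw [hc₂, e2]; rfl

end Nodal

end Fermat.Agent.DR.Ord
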