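import Fermat.Agent.DR.Ord.NormRed

/-!
# Best approximations over a valuation ring

For finitely many vectors `n_j ∈ Kⁱ` and `y ∈ Kⁱ`, the sup-norm of `y + ∑ c_j n_j`, where all
`c_j` run through the maximal ideal of the valuation ring, attains its minimum.
-/

set_option autoImplicit false

noncomputable section

namespace Fermat.Agent.DR.Ord

variable {K : Type*} [Field K] {A : ValuationSubring K}

/-- The sup-norm of `y + ∑ c_j n_j`, `c_j` in the maximal ideal, attains its minimum. -/
theorem exists_optimal {J ι : Type*} [Finite ι] (S : Finset J) :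
    ∀ (n : J → ι → K) (y : ι → K), ∃ c : J → K, (∀ j ∈ S, A.valuation (c j) < 1) ∧
      ∀ c' : J → K, (∀ j ∈ S, A.valuation (c' j) < 1) → ∀ γ : A.ValueGroup,
        (∀ i, A.valuation (y i + ∑ j ∈ S, c' j * n j i) ≤ γ) →
        ∀ i, A.valuation (y i + ∑ j ∈ S, c j * n j i) ≤ γ := by
  classical
  cases nonempty_fintype ι
  induction hN : S.card generalizing S with
  | zero =>
    intro n y
    rw [Finset.card_eq_zero] at hN
    subst hN
    exact ⟨fun _ => 0, by simp, fun c' _ γ h => by simpa using h⟩
  | succ N ih =>
    intro n y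
    by_cases hall : ∀ j ∈ S, ∀ i, n j i = 0
    · refine ⟨fun _ => 0, by simp, fun c' _ γ h i => ?_⟩
      have h1 : ∀ c : J → K, ∑ j ∈ S, c j * n j i = 0 := fun c =>
        Finset.sum_eq_zero fun j hj => by rw [hall j hj i, mul_zero]
      have := h i
      rw [h1] at this ⊢
      exact this
    push Not at hall
    obtain ⟨j₁, hj₁, i₁, h₁⟩ := hall
    obtain ⟨⟨j₀, i₀⟩, hm, hmax⟩ := (S ×ˢ (Finset.univ : Finset ι)).exists_max_image
      (fun x => A.valuation (n x.1 x.2)) ⟨(j₁, i₁), by simp [hj₁]⟩
    have hj₀ : j₀ ∈ S := (Finset.mem_product.mp hm).1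
    have hmax' : ∀ j ∈ S, ∀ i, A.valuation (n j i) ≤ A.valuation (n j₀ i₀) := fun j hj i =>
      hmax (j, i) (by simp [hj])
    set q := n j₀ i₀ with hq
    have hq0 : q ≠ 0 := by
      intro h0
      have := hmax' j₁ hj₁ i₁
      rw [h0, map_zero, nonpos_iff_eq_zero, map_eq_zero] at this
      exact h₁ this
    have hqpos : (0 : A.ValueGroup) < A.valuation q :=
      zero_lt_iff.mpr ((Valuation.ne_zero_iff _).mpr hq0)
    set S' := S.erase j₀ with hS'
    have hS'card : S'.card = N := by rw [hS', Finset.card_erase_of_mem hj₀, hN]; rfl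
    have hS'sub : ∀ j ∈ S', j ∈ S := fun j hj => Finset.mem_of_mem_erase hj
    have hsplit : ∀ f : J → K, ∑ j ∈ S, f j = f j₀ + ∑ j ∈ S', f j := fun f => by
      rw [hS', Finset.add_sum_erase _ _ hj₀]
    set a : J → K := fun j => n j i₀ / q with ha
    have ha1 : ∀ j ∈ S, A.valuation (a j) ≤ 1 := fun j hj => by
      rw [ha]
      simp only
      rw [map_div₀]
      exact (div_le_one₀ hqpos).mpr (hmax' j hj i₀)
    set n' : J → ι → K := fun j i => n j i - a j * n j₀ i with hn'
    have hn'0 : ∀ j, n' j i₀ = 0 := fun j => by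
      simp only [hn', ha]
      rw [← hq]
      field_simp
      ring
    set e₀ : K := if A.valuation (y i₀) < A.valuation q then -(y i₀ / q) else 0 with he₀
    have he₀1 : A.valuation e₀ < 1 := by
      rw [he₀]
      split_ifs with h
      · rw [Valuation.map_neg, map_div₀]
        exact (div_lt_one₀ hqpos).mpr h
      · simp
    set y' : ι → K := fun i => y i + e₀ * n j₀ i with hy'
    obtain ⟨cs, hcs, hopt⟩ := ih S' hS'card n' y'
    set c : J → K := fun j => if j = j₀ then e₀ - ∑ j ∈ S', a j * cs j else cs j with hc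
    have hcj₀ : c j₀ = e₀ - ∑ j ∈ S', a j * cs j := by simp [hc]
    have hcj : ∀ j ∈ S', c j = cs j := fun j hj => by
      have : j ≠ j₀ := Finset.ne_of_mem_erase hj
      simp [hc, this]
    have hlt : ∀ (d : J → K), (∀ j ∈ S', A.valuation (d j) < 1) →
        A.valuation (∑ j ∈ S', a j * d j) < 1 := by
      intro d hd
      refine Valuation.map_sum_lt _ one_ne_zero fun j hj => ?_
      rw [map_mul]
      calc A.valuation (a j) * A.valuation (d j) ≤ 1 * A.valuation (d j) := by
            gcongr
            exact ha1 j (hS'sub j hj)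
        _ = A.valuation (d j) := one_mul _
        _ < 1 := hd j hj
    refine ⟨c, ?_, ?_⟩
    · intro j hj
      by_cases hjj : j = j₀
      · subst hjj
        rw [hcj₀]
        exact Valuation.map_sub_lt _ he₀1 (hlt cs hcs)
      · have hj' : j ∈ S' := Finset.mem_erase.mpr ⟨hjj, hj⟩
        rw [hcj j hj']
        exact hcs j hj'
    · intro c' hc' γ hγ
      have hval : ∀ i, y i + ∑ j ∈ S, c j * n j i = y' i + ∑ j ∈ S', cs j * n' j i := by
        intro i
        rw [hsplit, hcj₀]
        have : ∑ j ∈ S', c j * n j i = ∑ j ∈ S', cs j * n j i :=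
          Finset.sum_congr rfl fun j hj => by rw [hcj j hj]
        rw [this]
        simp only [hy', hn', mul_sub, Finset.sum_sub_distrib, sub_mul, Finset.sum_mul]
        have : ∑ j ∈ S', a j * cs j * n j₀ i = ∑ j ∈ S', cs j * (a j * n j₀ i) :=
          Finset.sum_congr rfl fun j _ => by ring
        rw [this]
        ring
      intro i
      rw [hval]
      refine hopt c' (fun j hj => hc' j (hS'sub j hj)) γ (fun i => ?_) i
      -- now the comparison
      set e : K := c' j₀ + ∑ j ∈ S', a j * c' j with he
      have he1 : A.valuation e < 1 :=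
        Valuation.map_add_lt _ (hc' j₀ hj₀) (hlt c' fun j hj => hc' j (hS'sub j hj))
      have hX : ∀ i, y i + ∑ j ∈ S, c' j * n j i = y i + e * n j₀ i + ∑ j ∈ S', c' j * n' j i := by
        intro i
        rw [hsplit]
        simp only [he, hn', mul_sub, Finset.sum_sub_distrib, add_mul, Finset.sum_mul]
        have : ∑ j ∈ S', a j * c' j * n j₀ i = ∑ j ∈ S', c' j * (a j * n j₀ i) :=
          Finset.sum_congr rfl fun j _ => by ring
        rw [this]
        ring
      have hXi₀ : y i₀ + ∑ j ∈ S, c' j * n j i₀ = y i₀ + e * q := by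
        rw [hX i₀]
        have : ∑ j ∈ S', c' j * n' j i₀ = 0 :=
          Finset.sum_eq_zero fun j _ => by rw [hn'0, mul_zero]
        rw [this, add_zero]
      have hγ0 := hγ i₀
      rw [hXi₀] at hγ0
      have hdiff : y' i + ∑ j ∈ S', c' j * n' j i
          = (y i + ∑ j ∈ S, c' j * n j i) + (e₀ - e) * n j₀ i := by
        rw [hX i]
        simp only [hy']
        ring
      rw [hdiff]
      refine Valuation.map_add_le _ (hγ i) ?_
      rw [map_mul]
      by_cases hcase : A.valuation (y i₀) < A.valuation q
      · have he₀' : e₀ = -(y i₀ / q) := if_pos hcase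
        have h1 : e₀ - e = -((y i₀ + e * q) / q) := by
          rw [he₀']
          field_simp
          ring
        rw [h1, Valuation.map_neg, map_div₀]
        calc A.valuation (y i₀ + e * q) / A.valuation q * A.valuation (n j₀ i)
            ≤ A.valuation (y i₀ + e * q) / A.valuation q * A.valuation q := by
              gcongr
              exact hmax' j₀ hj₀ i
          _ = A.valuation (y i₀ + e * q) := div_mul_cancel₀ _ hqpos.ne'
          _ ≤ γ := hγ0
      · have he₀' : e₀ = 0 := if_neg hcase
        rw [he₀', zero_sub, Valuation.map_neg]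
        rw [not_lt] at hcase
        have h2 : A.valuation (e * q) < A.valuation (y i₀) := by
          rw [map_mul]
          exact (mul_lt_of_lt_one_left hqpos he1).trans_le hcase
        have h3 : A.valuation (y i₀ + e * q) = A.valuation (y i₀) :=
          Valuation.map_add_eq_of_lt_left _ h2
        rw [h3] at hγ0
        calc A.valuation e * A.valuation (n j₀ i) ≤ 1 * A.valuation q := by
              gcongr
              exact hmax' j₀ hj₀ i
          _ = A.valuation q := one_mul _
          _ ≤ A.valuation (y i₀) := hcase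
          _ ≤ γ := hγ0

end Fermat.Agent.DR.Ord
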