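import Fermat.Agent.JRED.ESNorm

/-!
# The expansion of `∏ (b + c a)(ζ^j q)` modulo `p c` and `c ^ p`
-/

set_option autoImplicit false
set_option linter.unusedSectionVars false

noncomputable section

open ModularCurve Fermat.Agent.S28 Fermat.Agent.JRED Fermat.Agent.JRED.ES Polynomial

namespace Fermat.Agent.DR.Ord

section Trace

variable {R : Type*} [CommRing R]

/-- The part of a Laurent series with exponents divisible by `p`. -/
def divPart (p : ℕ) (m : LaurentSeries R) : LaurentSeries R where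
  coeff n := if (p : ℤ) ∣ n then m.coeff n else 0
  isPWO_support' := m.isPWO_support.mono fun n hn => by
    rw [Function.mem_support] at hn
    rw [HahnSeries.mem_support]
    intro h0
    apply hn
    rw [h0, ite_self]

theorem divPart_coeff (p : ℕ) (m : LaurentSeries R) (n : ℤ) :
    (divPart p m).coeff n = if (p : ℤ) ∣ n then m.coeff n else 0 := rfl

variable [IsDomain R] {p : ℕ} [NeZero p] {ζ : Rˣ}

theorem natCast_mul_coeff (n : ℕ) (x : LaurentSeries R) (i : ℤ) :
    ((n : LaurentSeries R) * x).coeff i = n * x.coeff i := by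
  rw [← nsmul_eq_mul, ← nsmul_eq_mul]
  induction n with
  | zero => simp
  | succ n ih => rw [add_smul, add_smul, one_smul, one_smul, HahnSeries.coeff_add, ih]

/-- The trace of a Laurent series is divisible by `p`. -/
theorem sum_twist (hζ : IsPrimitiveRoot ζ p) (m : LaurentSeries R) :
    ∑ j : Fin p, twist (ζ ^ (j : ℕ)) m = (p : LaurentSeries R) * divPart p m := by
  ext n
  rw [natCast_mul_coeff, divPart_coeff]
  have h1 : (∑ j : Fin p, twist (ζ ^ (j : ℕ)) m).coeff n =
      ∑ j : Fin p, (((ζ ^ n : Rˣ) : R) ^ (j : ℕ)) * m.coeff n := by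
    have : (∑ j : Fin p, twist (ζ ^ (j : ℕ)) m).coeff n =
        ∑ j : Fin p, (twist (ζ ^ (j : ℕ)) m).coeff n := by
      rw [HahnSeries.coeff_sum]
    rw [this]
    refine Finset.sum_congr rfl fun j _ => ?_
    rw [twist_coeff]
    congr 1
    rw [← Units.val_pow_eq_pow_val]
    congr 1
    rw [← zpow_natCast, ← zpow_natCast, ← zpow_mul, ← zpow_mul, mul_comm]
  rw [h1, ← Finset.sum_mul, Fin.sum_univ_eq_sum_range (fun j => ((ζ ^ n : Rˣ) : R) ^ j) p]
  split_ifs with h
  · have : ζ ^ n = 1 := (hζ.zpow_eq_one_iff_dvd n).mpr h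
    rw [this]
    simp
  · have h2 : (((ζ ^ n : Rˣ) : R) - 1) ≠ 0 := by
      intro h0
      apply h
      rw [← hζ.zpow_eq_one_iff_dvd]
      exact Units.ext (by rw [Units.val_one]; exact sub_eq_zero.mp h0)
    have h3 : (∑ i ∈ Finset.range p, ((ζ ^ n : Rˣ) : R) ^ i) * (((ζ ^ n : Rˣ) : R) - 1) = 0 := by
      rw [geom_sum_mul, ← Units.val_pow_eq_pow_val]
      have : (ζ ^ n) ^ p = 1 := by
        rw [← zpow_natCast, ← zpow_mul, mul_comm, zpow_mul, zpow_natCast, hζ.pow_eq_one, one_zpow]
      rw [this, Units.val_one, sub_self]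
    rw [(mul_eq_zero.mp h3).resolve_right h2, zero_mul, mul_zero]

end Trace

section Expand

variable {R : Type*} [CommRing R] [IsDomain R] {p : ℕ} [hpf : Fact p.Prime] {ζ : Rˣ}

instance : NeZero p := ⟨hpf.out.ne_zero⟩

theorem pow_val_add (hζ : ζ ^ p = 1) (i j : Fin p) :
    ζ ^ ((i + j : Fin p) : ℕ) = ζ ^ (j : ℕ) * ζ ^ (i : ℕ) := by
  rw [Fin.val_add, ← pow_add, add_comm (j : ℕ)]
  conv_rhs => rw [← Nat.div_add_mod ((i : ℕ) + j) p, pow_add, pow_mul, hζ, one_pow, one_mul]

/-- The coefficient of `T ^ s` in `∏ (b_j + T a_j)`, `0 < s < p`, is divisible by `p`. -/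
theorem exists_coeff_eq (hζ : IsPrimitiveRoot ζ p) (a b : LaurentSeries R) {s : ℕ} (hs : 0 < s)
    (hsp : s < p) : ∃ γ : LaurentSeries R,
      (∏ j : Fin p, (C (twist (ζ ^ (j : ℕ)) b) + C (twist (ζ ^ (j : ℕ)) a) * X)).coeff s =
        (p : LaurentSeries R) * γ := by
  classical
  set f : Fin p → (LaurentSeries R)[X] :=
    fun j => C (twist (ζ ^ (j : ℕ)) b) + C (twist (ζ ^ (j : ℕ)) a) * X with hf
  have hshift : ∀ i j : Fin p, (f i).map (twist (ζ ^ (j : ℕ))) = f (i + j) := by
    intro i j
    rw [hf]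
    simp only [Polynomial.map_add, Polynomial.map_mul, map_C, map_X, twist_twist,
      pow_val_add hζ.pow_eq_one]
  set Q : (LaurentSeries R)[X] := (∏ i ∈ Finset.univ.erase (0 : Fin p), f i) * C a with hQ
  have hder : derivative (∏ j : Fin p, f j) =
      ∑ j : Fin p, Q.map (twist (ζ ^ (j : ℕ))) := by
    rw [derivative_prod_finset]
    refine Finset.sum_congr rfl fun j _ => ?_
    have h1 : derivative (f j) = C (twist (ζ ^ (j : ℕ)) a) := by
      rw [hf]
      simp
    rw [h1, hQ, Polynomial.map_mul, map_C, Polynomial.map_prod]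
    congr 1
    have h2 : ∏ i ∈ Finset.univ.erase (0 : Fin p), (f i).map (twist (ζ ^ (j : ℕ))) =
        ∏ i ∈ Finset.univ.erase (0 : Fin p), f (i + j) :=
      Finset.prod_congr rfl fun i _ => hshift i j
    rw [h2]
    refine (Finset.prod_bij (fun i _ => i + j) ?_ ?_ ?_ ?_).symm
    · intro i hi
      rw [Finset.mem_erase] at hi ⊢
      refine ⟨fun h => hi.1 ?_, Finset.mem_univ _⟩
      exact add_eq_right.mp h
    · intro i _ i' _ h
      exact add_right_cancel h
    · intro i hi
      rw [Finset.mem_erase] at hi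
      refine ⟨i - j, ?_, sub_add_cancel i j⟩
      rw [Finset.mem_erase]
      exact ⟨fun h => hi.1 (sub_eq_zero.mp h), Finset.mem_univ _⟩
    · intro i _
      rfl
  have h1 : (derivative (∏ j : Fin p, f j)).coeff (s - 1) =
      (p : LaurentSeries R) * divPart p (Q.coeff (s - 1)) := by
    rw [hder, finsetSum_coeff]
    simp only [coeff_map]
    exact sum_twist hζ _
  rw [coeff_derivative] at h1
  have h2 : s - 1 + 1 = s := by omega
  have h3 : ((s - 1 : ℕ) : LaurentSeries R) + 1 = s := by
    have : ((s - 1 + 1 : ℕ) : LaurentSeries R) = s := by rw [h2]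
    rw [← this]; push_cast; ring
  rw [h2, h3] at h1
  have hcop : IsCoprime (s : ℤ) (p : ℤ) := by
    rw [Nat.isCoprime_iff_coprime]
    exact (Nat.coprime_of_lt_prime hs.ne' hsp hpf.out).symm
  obtain ⟨u, v, huv⟩ := hcop
  have huv' : (u : LaurentSeries R) * s + v * p = 1 := by
    exact_mod_cast congrArg (Int.cast (R := LaurentSeries R)) huv
  refine ⟨u * divPart p (Q.coeff (s - 1)) + v * (∏ j : Fin p, f j).coeff s, ?_⟩
  calc (∏ j : Fin p, f j).coeff s
      = (u * s + v * p) * (∏ j : Fin p, f j).coeff s := by rw [huv', one_mul]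
    _ = u * ((∏ j : Fin p, f j).coeff s * s) + v * p * (∏ j : Fin p, f j).coeff s := by ring
    _ = _ := by rw [h1]; ring

/-- **The expansion of the twisted product.** -/
theorem exists_twistProd_eq (hζ : IsPrimitiveRoot ζ p) (a b : LaurentSeries R) (c : R) :
    ∃ α β : LaurentSeries R, twistProd p ζ (b + HahnSeries.C c * a) =
      twistProd p ζ b + HahnSeries.C (p * c) * α + HahnSeries.C (c ^ p) * β := by
  classical
  set f : Fin p → (LaurentSeries R)[X] :=
    fun j => C (twist (ζ ^ (j : ℕ)) b) + C (twist (ζ ^ (j : ℕ)) a) * X with hf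
  set P : (LaurentSeries R)[X] := ∏ j : Fin p, f j with hP
  have hdeg : P.natDegree < p + 1 := by
    refine Nat.lt_succ_of_le ?_
    have h1 : P.natDegree ≤ ∑ j : Fin p, (f j).natDegree := natDegree_prod_le _ _
    refine h1.trans ?_
    have h2 : ∀ j ∈ (Finset.univ : Finset (Fin p)), (f j).natDegree ≤ 1 := by
      intro j _
      rw [hf]
      exact (natDegree_add_le _ _).trans (max_le (by rw [natDegree_C]; exact Nat.zero_le 1)
        (natDegree_mul_le.trans (by rw [natDegree_C, zero_add]; exact natDegree_X_le)))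
    have h3 := Finset.sum_le_card_nsmul _ _ _ h2
    simpa using h3
  have heval : twistProd p ζ (b + HahnSeries.C c * a) = P.eval (HahnSeries.C c) := by
    rw [hP, eval_prod, twistProd]
    refine Finset.prod_congr rfl fun j _ => ?_
    rw [hf]
    simp only [eval_add, eval_C, eval_mul, eval_X, map_add, map_mul, twist_C]
    ring
  have h0 : P.coeff 0 = twistProd p ζ b := by
    rw [coeff_zero_eq_eval_zero, hP, eval_prod, twistProd]
    refine Finset.prod_congr rfl fun j _ => ?_
    rw [hf]
    simp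
  have hmid : ∀ s ∈ Finset.range (p - 1), ∃ γ : LaurentSeries R,
      P.coeff (s + 1) = (p : LaurentSeries R) * γ := by
    intro s hs
    rw [Finset.mem_range] at hs
    exact exists_coeff_eq hζ a b (Nat.succ_pos s) (by omega)
  choose! γ hγ using hmid
  have hp1 : p = (p - 1) + 1 := by have := hpf.out.pos; omega
  refine ⟨∑ s ∈ Finset.range (p - 1), γ s * HahnSeries.C c ^ s, P.coeff p, ?_⟩
  rw [heval, eval_eq_sum_range' hdeg, Finset.sum_range_succ]
  have h4 : ∑ i ∈ Finset.range p, P.coeff i * HahnSeries.C c ^ i =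
      (∑ i ∈ Finset.range (p - 1), P.coeff (i + 1) * HahnSeries.C c ^ (i + 1)) + P.coeff 0 := by
    conv_lhs => rw [hp1]
    rw [Finset.sum_range_succ', pow_zero, mul_one]
  rw [h4, h0]
  have h5 : ∑ i ∈ Finset.range (p - 1), P.coeff (i + 1) * HahnSeries.C c ^ (i + 1) =
      HahnSeries.C (p * c) * ∑ s ∈ Finset.range (p - 1), γ s * HahnSeries.C c ^ s := by
    rw [Finset.mul_sum]
    refine Finset.sum_congr rfl fun s hs => ?_
    rw [hγ s hs, map_mul, map_natCast]
    ring
  rw [h5, map_pow]
  ring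

end Expand

end Fermat.Agent.DR.Ord
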